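import Fermat.Agent.DS.FrobConj
import Fermat.Agent.Deform.MatrixRep
import Fermat.Agent.GalRep.Cyclo

/-!
Functions on the Galois group with values in a module, continuous and vanishing at the conjugates of
Frobenius elements, vanish; consequences for the characteristic polynomial.
-/

set_option autoImplicit false
set_option linter.unusedSectionVars false

noncomputable section

namespace Fermat.Agent.Auto

open IsLocalRing
open Fermat.Agent.Galois (GQ)
open Fermat.Agent.GalRep (cyc exists_cyc_level)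
open Fermat.Agent.Deform (Mat2 HasMatrix)

local notation "ℚb" => AlgebraicClosure ℚ

/-- Density: a continuous function vanishing at the conjugates of Frobenius elements vanishes. -/
theorem eq_zero_of_frobenius {R W : Type} [CommRing R] [AddCommGroup W] [Module R W] (I : Ideal R)
    [IsHausdorff I W] (G : GQ → W) (bad : Finset ℕ)
    (hG : ∀ j : ℕ, ∃ F : IntermediateField ℚ ℚb, FiniteDimensional ℚ F ∧
      ∀ g h : GQ, (∀ x ∈ F, g x = h x) → G g - G h ∈ (I ^ j) • (⊤ : Submodule R W))
    (h0 : ∀ (l : ℕ), l.Prime → l ∉ bad → ∀ A : ValuationSubring ℚb, A.LiesOverPrime l →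
      ∀ σ : GQ, A.IsFrobeniusAt σ l → ∀ τ : GQ, G (τ * σ * τ⁻¹) = 0) (g : GQ) : G g = 0 := by
  refine IsHausdorff.haus (inferInstance : IsHausdorff I W) _ fun j => ?_
  rw [SModEq.zero]
  obtain ⟨F, hF, hFj⟩ := hG j
  obtain ⟨l, hl, hlb, A, hA, σ, hσ, τ, hτ⟩ := DS.exists_frobenius_conj F bad g
  have h := hFj g (τ * σ * τ⁻¹) fun x hx => (hτ x hx).symm
  rwa [h0 l hl hlb A hA σ hσ τ, sub_zero] at h

/-- Elements agreeing on a field differ by one fixing it. -/
theorem fixing_of_agree {F : IntermediateField ℚ ℚb} {g h : GQ} (H : ∀ x ∈ F, g x = h x) :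
    ∀ x ∈ F, (g⁻¹ * h) x = x := fun x hx => by
  rw [AlgEquiv.mul_apply, ← H x hx]
  exact g.symm_apply_apply x

section Adic

variable {A : Type} [CommRing A] [IsLocalRing A]

/-- Determinant and trace are continuous. -/
theorem exists_level_det_trace (ρ : GaloisRepAdic A) (n : ℕ) :
    ∃ F : IntermediateField ℚ ℚb, FiniteDimensional ℚ F ∧ ∀ g h : GQ, (∀ x ∈ F, g x = h x) →
      LinearMap.det (ρ.ρ g) - LinearMap.det (ρ.ρ h) ∈ maximalIdeal A ^ n ∧
        ρ.trace g - ρ.trace h ∈ maximalIdeal A ^ n := by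
  obtain ⟨r, hr⟩ := Deform.exists_hasMatrix ρ
  obtain ⟨F, hF, hFn⟩ := hr.matCts n
  refine ⟨F, hF, fun g h H => ?_⟩
  have e : (r h).map (Ideal.Quotient.mk (maximalIdeal A ^ n)) =
      (r g).map (Ideal.Quotient.mk (maximalIdeal A ^ n)) := by
    have h1 : (r (g⁻¹ * h)).map (Ideal.Quotient.mk (maximalIdeal A ^ n)) = 1 := Matrix.ext fun i j => by
      have := Ideal.Quotient.eq_zero_iff_mem.mpr (hFn _ (fixing_of_agree H) i j)
      rw [Matrix.sub_apply, map_sub, sub_eq_zero] at this
      rw [Matrix.map_apply, this]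
      by_cases hij : i = j <;> simp [Matrix.one_apply, hij]
    rw [show r h = r g * r (g⁻¹ * h) by rw [← map_mul, mul_inv_cancel_left], Matrix.map_mul, h1,
      mul_one]
  obtain ⟨b, hb⟩ := hr
  constructor
  · rw [← LinearMap.det_toMatrix b (ρ.ρ g), ← LinearMap.det_toMatrix b (ρ.ρ h), hb, hb,
      ← Ideal.Quotient.eq, RingHom.map_det, RingHom.map_det, RingHom.mapMatrix_apply,
      RingHom.mapMatrix_apply, e]
  · rw [Deform.HasMatrix.trace_eq ⟨b, hb⟩, Deform.HasMatrix.trace_eq ⟨b, hb⟩, ← Ideal.Quotient.eq, Matrix.trace,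
      Matrix.trace, map_sum, map_sum]
    refine Finset.sum_congr rfl fun i _ => ?_
    exact (congrFun (congrFun e i) i).symm

theorem det_conj (ρ : GaloisRepAdic A) (σ τ : GQ) :
    LinearMap.det (ρ.ρ (τ * σ * τ⁻¹)) = LinearMap.det (ρ.ρ σ) := by
  have h1 : LinearMap.det (ρ.ρ τ) * LinearMap.det (ρ.ρ τ⁻¹) = 1 := by
    rw [← map_mul, ← map_mul, mul_inv_cancel, map_one, map_one]
  rw [map_mul, map_mul, map_mul, map_mul, mul_right_comm, h1, one_mul]

theorem trace_conj (ρ : GaloisRepAdic A) (σ τ : GQ) : ρ.trace (τ * σ * τ⁻¹) = ρ.trace σ := by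
  show LinearMap.trace A ρ.V (ρ.ρ _) = LinearMap.trace A ρ.V (ρ.ρ σ)
  rw [map_mul, LinearMap.trace_mul_comm, ← map_mul, ← mul_assoc, inv_mul_cancel, one_mul]

end Adic

variable {p : ℕ} [Fact p.Prime] {O : Type} [CommRing O] [IsLocalRing O] [Algebra ℤ_[p] O]

variable (O) in
/-- The cyclotomic character with values in `O`. -/
def cycO : GQ →* O :=
  ((algebraMap ℤ_[p] O : ℤ_[p] →* O).comp (Units.coeHom ℤ_[p])).comp (cyc p)

theorem cycO_conj (σ τ : GQ) : cycO (p := p) O (τ * σ * τ⁻¹) = cycO (p := p) O σ := by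
  rw [map_mul, map_mul, mul_right_comm, ← map_mul, mul_inv_cancel, map_one, one_mul]

theorem exists_level_cycO (hp : (p : O) ∈ maximalIdeal O) (n : ℕ) :
    ∃ F : IntermediateField ℚ ℚb, FiniteDimensional ℚ F ∧ ∀ g h : GQ, (∀ x ∈ F, g x = h x) →
      cycO (p := p) O g - cycO (p := p) O h ∈ maximalIdeal O ^ n := by
  obtain ⟨F, hF, hFn⟩ := exists_cyc_level p n
  refine ⟨F, hF, fun g h H => ?_⟩
  obtain ⟨e, he⟩ := hFn _ (fixing_of_agree H)
  have h2 : cycO (p := p) O (g⁻¹ * h) - 1 = (p : O) ^ n * algebraMap ℤ_[p] O e := by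
    have := congrArg (algebraMap ℤ_[p] O) he
    rw [map_sub, map_one, map_mul (algebraMap ℤ_[p] O), map_pow, map_natCast] at this
    exact this
  have h3 : cycO (p := p) O g - cycO (p := p) O h =
      -(cycO (p := p) O g * (cycO (p := p) O (g⁻¹ * h) - 1)) := by
    rw [mul_sub, ← map_mul, mul_inv_cancel_left]
    ring
  rw [h3, h2]
  exact Submodule.neg_mem _ (Ideal.mul_mem_left _ _ (Ideal.mul_mem_right _ _ (Ideal.pow_mem_pow hp n)))

theorem cycO_frobenius {l : ℕ} (hl : l.Prime) (hlp : l ≠ p) {A : ValuationSubring ℚb}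
    (hA : A.LiesOverPrime l) {σ : GQ} (hσ : A.IsFrobeniusAt σ l) :
    cycO (p := p) O σ = (l : O) := by
  show algebraMap ℤ_[p] O (cyc p σ).val = _
  rw [GalRep.cyc_frobenius p hl hlp hA hσ, map_natCast]

/-- Over a finite local algebra a power of the maximal ideal comes from the base. -/
theorem exists_pow_maximalIdeal_le_map (O T : Type) [CommRing O] [IsLocalRing O] [CommRing T]
    [Algebra O T] [Module.Finite O T] [IsLocalRing T] :
    ∃ N, maximalIdeal T ^ N ≤ (maximalIdeal O).map (algebraMap O T) := by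
  let _ : Field (O ⧸ maximalIdeal O) := Ideal.Quotient.field _
  have : Module.Finite (O ⧸ maximalIdeal O) (T ⧸ (maximalIdeal O).map (algebraMap O T)) :=
    Module.Finite.of_restrictScalars_finite O _ _
  have : IsArtinianRing (T ⧸ (maximalIdeal O).map (algebraMap O T)) :=
    IsArtinianRing.of_finite (O ⧸ maximalIdeal O) _
  exact IsLocalRing.exists_maximalIdeal_pow_le_of_isArtinianRing_quotient _

variable {T : Type} [CommRing T] [IsLocalRing T] [Algebra O T] [Module.Finite O T]
  [IsLocalHom (algebraMap O T)]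

/-- Cyclotomic determinant from the values at Frobenius elements. -/
theorem det_eq_cycO [IsHausdorff (maximalIdeal T) T] (hp : (p : O) ∈ maximalIdeal O)
    (ρ : GaloisRepAdic T) (bad : Finset ℕ)
    (hρ : ∀ l : ℕ, l.Prime → l ∉ bad → ∀ A : ValuationSubring ℚb, A.LiesOverPrime l →
      ∀ σ : GQ, A.IsFrobeniusAt σ l → LinearMap.det (ρ.ρ σ) = (l : T)) (g : GQ) :
    LinearMap.det (ρ.ρ g) = algebraMap O T (cycO (p := p) O g) := by
  refine sub_eq_zero.mp (eq_zero_of_frobenius (maximalIdeal T)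
    (fun g => LinearMap.det (ρ.ρ g) - algebraMap O T (cycO (p := p) O g)) (insert p bad)
    (fun j => ?_) (fun l hl hlb A hA σ hσ τ => ?_) g)
  · obtain ⟨F₁, hF₁, h1⟩ := exists_level_det_trace ρ j
    obtain ⟨F₂, hF₂, h2⟩ := exists_level_cycO (O := O) hp j
    refine ⟨F₁ ⊔ F₂, IntermediateField.finiteDimensional_sup F₁ F₂, fun g h H => ?_⟩
    rw [smul_eq_mul, Ideal.mul_top, sub_sub_sub_comm, ← map_sub (algebraMap O T)]
    refine Submodule.sub_mem _ (h1 g h fun x hx => H x (le_sup_left (b := F₂) hx)).1 ?_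
    refine Ideal.pow_right_mono (map_maximalIdeal_le (algebraMap O T)) j ?_
    rw [← Ideal.map_pow]
    exact Ideal.mem_map_of_mem _ (h2 g h fun x hx => H x (le_sup_right (a := F₁) hx))
  · rw [Finset.mem_insert, not_or] at hlb
    rw [det_conj, cycO_conj, hρ l hl hlb.2 A hA σ hσ, cycO_frobenius hl hlb.1 hA hσ, map_natCast,
      sub_self]

variable {L : Type} [AddCommGroup L] [Module O L] [IsHausdorff (maximalIdeal O) L]

/-- The quadratic relation from the relation at Frobenius elements. -/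
theorem quadratic_of_frobenius (hp : (p : O) ∈ maximalIdeal O) (ρ : GaloisRepAdic T)
    (ψ : T →ₐ[O] Module.End O L) (F : GQ →* Module.End O L)
    (hF : ∀ j : ℕ, ∃ E : IntermediateField ℚ ℚb, FiniteDimensional ℚ E ∧
      ∀ σ : GQ, (∀ x ∈ E, σ x = x) → ∀ v : L, F σ v - v ∈ (maximalIdeal O ^ j) • (⊤ : Submodule O L))
    (hcomm : ∀ σ t, Commute (F σ) (ψ t)) (bad : Finset ℕ)
    (hrel : ∀ l : ℕ, l.Prime → l ∉ bad → ∀ A : ValuationSubring ℚb, A.LiesOverPrime l →
      ∀ σ : GQ, A.IsFrobeniusAt σ l →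
        F σ * F σ - ψ (ρ.trace σ) * F σ + (l : Module.End O L) = 0) (g : GQ) :
    F g * F g - ψ (ρ.trace g) * F g + algebraMap O (Module.End O L) (cycO (p := p) O g) = 0 := by
  let G : GQ → Module.End O L := fun g =>
    F g * F g - ψ (ρ.trace g) * F g + algebraMap O (Module.End O L) (cycO (p := p) O g)
  have map_mem : ∀ {j : ℕ} (f : Module.End O L) {y : L},
      y ∈ (maximalIdeal O ^ j) • (⊤ : Submodule O L) →
        f y ∈ (maximalIdeal O ^ j) • (⊤ : Submodule O L) := fun {j} f y hy => by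
    have h : ((maximalIdeal O ^ j) • (⊤ : Submodule O L)) ≤
        ((maximalIdeal O ^ j) • (⊤ : Submodule O L)).comap f :=
      Submodule.smul_le.mpr fun r hr z _ => by
        show f (r • z) ∈ (maximalIdeal O ^ j) • (⊤ : Submodule O L)
        rw [map_smul]
        exact Submodule.smul_mem_smul hr trivial
    exact h hy
  refine LinearMap.ext fun v => ?_
  show G g v = 0
  refine eq_zero_of_frobenius (maximalIdeal O) (fun g => G g v) (insert p bad) (fun j => ?_)
    (fun l hl hlb A hA σ hσ τ => ?_) g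
  · obtain ⟨N, hN⟩ := exists_pow_maximalIdeal_le_map O T
    obtain ⟨E₁, hE₁, h1⟩ := hF j
    obtain ⟨E₂, hE₂, h2⟩ := exists_level_det_trace ρ (N * j)
    obtain ⟨E₃, hE₃, h3⟩ := exists_level_cycO (O := O) hp j
    have : FiniteDimensional ℚ (E₁ ⊔ E₂ : IntermediateField ℚ ℚb) :=
      IntermediateField.finiteDimensional_sup E₁ E₂
    refine ⟨E₁ ⊔ E₂ ⊔ E₃, IntermediateField.finiteDimensional_sup _ E₃, fun g h H => ?_⟩
    have hd : ∀ y : L, F g y - F h y ∈ (maximalIdeal O ^ j) • (⊤ : Submodule O L) := fun y => by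
      have e : F h y = F g (F (g⁻¹ * h) y) := by
        rw [← Module.End.mul_apply, ← map_mul, mul_inv_cancel_left]
      rw [e, ← neg_mem_iff, neg_sub, ← map_sub]
      exact map_mem _ (h1 _ (fixing_of_agree fun x hx => H x (le_sup_left (b := E₃)
        (le_sup_left (b := E₂) hx))) y)
    have ht : ∀ y : L, ψ (ρ.trace g - ρ.trace h) y ∈ (maximalIdeal O ^ j) • (⊤ : Submodule O L) := by
      have h4 : ρ.trace g - ρ.trace h ∈ (maximalIdeal O ^ j).map (algebraMap O T) := by
        rw [Ideal.map_pow]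
        refine Ideal.pow_right_mono hN j ?_
        rw [← pow_mul]
        exact (h2 g h fun x hx => H x (le_sup_left (b := E₃) (le_sup_right (a := E₁) hx))).2
      intro y
      revert h4
      generalize ρ.trace g - ρ.trace h = z
      intro h4
      induction h4 using Submodule.span_induction generalizing y with
      | mem z hz =>
        obtain ⟨o, ho, rfl⟩ := hz
        rw [AlgHom.commutes, Module.algebraMap_end_apply]
        exact Submodule.smul_mem_smul ho trivial
      | zero => simp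
      | add a b _ _ ha hb => rw [map_add, LinearMap.add_apply]; exact add_mem (ha y) (hb y)
      | smul t z _ hz =>
        rw [smul_eq_mul, map_mul, Module.End.mul_apply]
        exact map_mem _ (hz y)
    have hc : (cycO (p := p) O g - cycO (p := p) O h) • v ∈
        (maximalIdeal O ^ j) • (⊤ : Submodule O L) :=
      Submodule.smul_mem_smul (h3 g h fun x hx => H x (le_sup_right (a := E₁ ⊔ E₂) hx)) trivial
    have e : G g v - G h v =
        (F g (F g v) - F h (F g v)) + F h (F g v - F h v)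
          - (ψ (ρ.trace g - ρ.trace h) (F g v) + ψ (ρ.trace h) (F g v - F h v))
          + (cycO (p := p) O g - cycO (p := p) O h) • v := by
      simp only [G, LinearMap.add_apply, LinearMap.sub_apply, Module.End.mul_apply,
        Module.algebraMap_end_apply, map_sub, sub_smul]
      abel
    rw [e]
    exact add_mem (sub_mem (add_mem (hd _) (map_mem _ (hd v)))
      (add_mem (ht _) (map_mem _ (hd v)))) hc
  · rw [Finset.mem_insert, not_or] at hlb
    have e : G (τ * σ * τ⁻¹) = F τ * G σ * F τ⁻¹ := by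
      have h1 : F τ⁻¹ * F τ = 1 := by rw [← map_mul, inv_mul_cancel, map_one]
      have h1' : F τ * F τ⁻¹ = 1 := by rw [← map_mul, mul_inv_cancel, map_one]
      simp only [G, trace_conj, cycO_conj, map_mul F, mul_add, add_mul, mul_sub, sub_mul]
      congr 1
      · congr 1
        · simp only [mul_assoc]
          rw [← mul_assoc (F τ⁻¹) (F τ), h1, one_mul]
        · rw [← mul_assoc, ← mul_assoc, ← (hcomm τ _).eq, ← mul_assoc]
      · rw [← Algebra.commutes, mul_assoc, h1', mul_one]
    show G (τ * σ * τ⁻¹) v = 0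
    rw [e, show G σ = 0 by
      show F σ * F σ - _ + _ = 0
      rw [cycO_frobenius hl hlb.1 hA hσ, map_natCast]
      exact hrel l hl hlb.2 A hA σ hσ, mul_zero, zero_mul, LinearMap.zero_apply]

end Fermat.Agent.Auto
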