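import Fermat.Agent.Auto.Twist

/-!
The Hecke algebra of level `M D` acting on a stable part of the lattice through the twisted
operators.
-/

set_option autoImplicit false
set_option linter.unusedSectionVars false
set_option synthInstance.maxHeartbeats 200000

noncomputable section

namespace Fermat.Agent.Auto

open CongruenceSubgroup
open Fermat.Agent.GalRep (GoodPrime GoodPrimeOff evFormsOff polyHom)
open scoped MatrixGroups IsMulCommutative

/-- The endomorphisms of a submodule form a ring. -/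
instance instRingEndSubmodule {R L : Type} [CommRing R] [AddCommGroup L] [Module R L]
    (W : Submodule R L) : Ring (Module.End R W) :=
  Module.End.instRing

/-- The Hecke algebra is generated by the good operators once the bad primes are excluded. -/
theorem evFormsOff_surjective (N : ℕ) [NeZero N] (S : Set ℕ)
    (hS : ∀ r : ℕ, r.Prime → r ∣ N → r ∈ S) :
    Function.Surjective (evFormsOff (N := N) S) := by
  let E : MvPolynomial (GoodPrimeOff N S) ℤ →ₐ[ℤ]
      Module.End ℂ (CuspForm (Gamma0 N) 2) := (CuspForm.heckeAlgebra N 2 S).val.comp (evFormsOff S)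
  have h : CuspForm.heckeAlgebra N 2 S ≤ E.range := by
    refine Algebra.adjoin_le ?_
    rintro _ (⟨ℓ, hℓ, hℓN, hℓS, rfl⟩ | ⟨q, hqN, hq, hqS, rfl⟩)
    · exact ⟨MvPolynomial.X ⟨⟨⟨ℓ, hℓ⟩, hℓN⟩, hℓS⟩, by simp [E, evFormsOff]⟩
    · exact absurd (hS q hq hqN) hqS
  intro x
  obtain ⟨P, hP⟩ := h x.2
  exact ⟨P, Subtype.ext hP⟩

variable {M D : ℕ} [NeZero M] [NeZero (M * D)] {Δ : Type} [CommGroup Δ] [Finite Δ]
  {c : (ZMod M)ˣ →* Δ} {p : ℕ} [Fact p.Prime] {O : Type} [CommRing O] [IsDomain O]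
  [IsDiscreteValuationRing O] [Algebra ℤ_[p] O] [Module.Finite ℤ_[p] O] [CharZero O]

theorem latDia_commute (d e : (ZMod M)ˣ) : Commute (latDia M c O d) (latDia M c O e) :=
  (latDia_mul d e).symm.trans (by rw [mul_comm, latDia_mul])

theorem twT_latDia (i : GoodPrime M) (d : (ZMod M)ˣ) :
    Commute (twT M c O i) (latDia M c O d) :=
  (latT_latDia i d).mul_left (latDia_commute _ d)

theorem twT_commute (i j : GoodPrime M) : Commute (twT M c O i) (twT M c O j) :=
  Commute.mul_left ((latT_commute i j).mul_right (latT_latDia i _))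
    (Commute.mul_right (latT_latDia j _).symm (latDia_commute _ _))

/-- The eigen-systems of the twisted operators on a stable part come from level `M D`. -/
theorem exists_heckeHom_twT (hD : D ∣ M) (hsq : Squarefree D)
    (hcD : ∀ u : (ZMod M)ˣ, ((u : ZMod M).val : ZMod D) = 1 → c u = 1)
    (hodd : Odd (Nat.card Δ)) (S : Finset ℕ) (hS : ∀ r : ℕ, r.Prime → r ∣ M → r ∈ S)
    (V : Submodule O (Lat M c O)) (hV : ∀ i, ∀ x ∈ V, twT M c O i x ∈ V) :
    ∃ φ : CuspForm.heckeAlgebra (M * D) 2 (↑S : Set ℕ) →+* Module.End O V,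
      ∀ (ℓ : ℕ) (hℓ : ℓ.Prime) (hℓN : ¬ ℓ ∣ M * D) (hℓS : ℓ ∉ (↑S : Set ℕ)) (x : V),
        ((φ (CuspForm.heckeAlgebra.T hℓ hℓN hℓS) x : V) : Lat M c O) =
          twT M c O (downPrime (dvd_mul_right M D) ⟨⟨ℓ, hℓ⟩, hℓN⟩) (x : Lat M c O) := by
  let f : GoodPrimeOff (M * D) (↑S : Set ℕ) → Module.End O V := fun i =>
    (twT M c O (downPrime (dvd_mul_right M D) i.1)).restrict (hV _)
  have hf : ∀ i j, Commute (f i) (f j) := fun i j => LinearMap.ext fun x =>
    Subtype.ext (LinearMap.congr_fun (twT_commute _ _).eq (x : Lat M c O))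
  let g := fun i : GoodPrimeOff (M * D) (↑S : Set ℕ) =>
    twT M c O (downPrime (dvd_mul_right M D) i.1)
  have hg : ∀ i j, Commute (g i) (g j) := fun i j => twT_commute _ _
  have key : ∀ (P : MvPolynomial (GoodPrimeOff (M * D) (↑S : Set ℕ)) ℤ) (x : V),
      ((polyHom f hf P x : V) : Lat M c O) = polyHom g hg P (x : Lat M c O) := by
    intro P
    induction P using MvPolynomial.induction_on with
    | C a =>
      intro x
      rw [← MvPolynomial.algebraMap_eq, AlgHom.commutes, AlgHom.commutes,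
        Algebra.algebraMap_eq_smul_one, Algebra.algebraMap_eq_smul_one]
      rfl
    | add P Q hP hQ => intro x; simp [map_add, hP, hQ]
    | mul_X P i hP => intro x; simp [map_mul, Module.End.mul_apply, hP, f, g]
  have hM : ∀ r : ℕ, r.Prime → r ∣ M * D → r ∈ (↑S : Set ℕ) := fun r hr h =>
    hS r hr ((hr.dvd_mul.mp h).elim id fun h' => h'.trans hD)
  let φ := RingHom.liftOfSurjective (evFormsOff (N := M * D) (↑S : Set ℕ)).toRingHom
    (evFormsOff_surjective (M * D) _ hM)
    ⟨(polyHom f hf).toRingHom, fun P hP => LinearMap.ext fun x => Subtype.ext (by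
      show ((polyHom f hf P x : V) : Lat M c O) = ((0 : V) : Lat M c O)
      rw [key, twT_relation hD hsq hcD hodd S hS (fun i j => twT_commute i j) P hP]
      rfl)⟩
  refine ⟨φ, fun ℓ hℓ hℓN hℓS x => ?_⟩
  have h1 : (evFormsOff (N := M * D) (↑S : Set ℕ)).toRingHom
      (MvPolynomial.X ⟨⟨⟨ℓ, hℓ⟩, hℓN⟩, hℓS⟩) = CuspForm.heckeAlgebra.T hℓ hℓN hℓS := by
    simp [evFormsOff]
  rw [← h1, RingHom.liftOfSurjective_comp_apply]
  show ((polyHom f hf _ x : V) : Lat M c O) = _
  rw [key, GalRep.polyHom_X]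

end Fermat.Agent.Auto
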