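import Fermat.Agent.Auto.Loc
import Fermat.Agent.GalRep.Universal

/-!
The residual part is unchanged when the operators are multiplied by operators congruent to one.
-/

set_option autoImplicit false
set_option linter.unusedSectionVars false

noncomputable section

namespace Fermat.Agent.Auto

open IsLocalRing

variable {O : Type} [CommRing O] [IsLocalRing O] {L : Type} [AddCommGroup L] [Module O L]

/-- `X` is topologically nilpotent at `x`. -/
def NilAt (X : Module.End O L) (x : L) : Prop :=
  ∀ k : ℕ, ∃ j : ℕ, ∀ j', j ≤ j' → (X ^ j') x ∈ (maximalIdeal O ^ k) • (⊤ : Submodule O L)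

theorem apply_mem_pow_smul_top (X : Module.End O L) {k : ℕ} {x : L}
    (hx : x ∈ (maximalIdeal O ^ k) • (⊤ : Submodule O L)) :
    X x ∈ (maximalIdeal O ^ k) • (⊤ : Submodule O L) := by
  have h : ((maximalIdeal O ^ k) • (⊤ : Submodule O L)) ≤
      ((maximalIdeal O ^ k) • (⊤ : Submodule O L)).comap X :=
    Submodule.smul_le.mpr fun r hr y _ => by
      show X (r • y) ∈ (maximalIdeal O ^ k) • (⊤ : Submodule O L)
      rw [map_smul]
      exact Submodule.smul_mem_smul hr trivial
  exact h hx

theorem NilAt.mul_right {X Y : Module.End O L} {x : L} (hX : NilAt X x) (h : Commute X Y) :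
    NilAt (X * Y) x := fun k => by
  obtain ⟨j, hj⟩ := hX k
  refine ⟨j, fun j' hj' => ?_⟩
  rw [h.mul_pow, (h.pow_pow j' j').eq, Module.End.mul_apply]
  exact apply_mem_pow_smul_top _ (hj j' hj')

theorem NilAt.add {X Y : Module.End O L} {x : L} (hX : NilAt X x) (hY : NilAt Y x)
    (h : Commute X Y) : NilAt (X + Y) x := fun k => by
  obtain ⟨j₁, hj₁⟩ := hX k
  obtain ⟨j₂, hj₂⟩ := hY k
  refine ⟨j₁ + j₂, fun j' hj' => ?_⟩
  rw [h.add_pow, LinearMap.sum_apply]
  refine Submodule.sum_mem _ fun i hi => ?_
  have hi' : i ≤ j' := Nat.lt_succ_iff.mp (Finset.mem_range.mp hi)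
  rw [← nsmul_eq_mul', LinearMap.smul_apply]
  refine Submodule.smul_of_tower_mem _ _ ?_
  rcases le_or_gt j₁ i with hij | hij
  · rw [(h.pow_pow i _).eq, Module.End.mul_apply]
    exact apply_mem_pow_smul_top _ (hj₁ i hij)
  · rw [Module.End.mul_apply]
    exact apply_mem_pow_smul_top _ (hj₂ _ (by omega))

theorem NilAt.smul {X : Module.End O L} {x : L} (hX : NilAt X x) (r : O) :
    NilAt (r • X) x := fun k => by
  obtain ⟨j, hj⟩ := hX k
  refine ⟨j, fun j' hj' => ?_⟩
  rw [smul_pow, LinearMap.smul_apply]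
  exact Submodule.smul_mem _ _ (hj j' hj')

/-- An operator of `p`-power order is congruent to one. -/
theorem nilAt_sub_one_of_pow_eq_one {p : ℕ} (hp : p.Prime) (hpO : (p : O) ∈ maximalIdeal O)
    {U : Module.End O L} {e : ℕ} (hU : U ^ p ^ e = 1) (x : L) : NilAt (U - 1) x := fun k => by
  have : Fact p.Prime := ⟨hp⟩
  obtain ⟨r, hr⟩ : ∃ r : Polynomial O, ((Polynomial.X : Polynomial O) - 1) ^ p ^ e =
      Polynomial.X ^ p ^ e - 1 + Polynomial.C (p : O) * r := by
    obtain ⟨r, hr⟩ := (Commute.one_right ((Polynomial.X : Polynomial O) - 1)).exists_add_pow_prime_pow_eq hp e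
    refine ⟨-(((Polynomial.X : Polynomial O) - 1) * 1 * r), ?_⟩
    rw [sub_add_cancel, one_pow] at hr
    rw [map_natCast, hr]
    ring
  have h1 : (U - 1) ^ p ^ e = (p : O) • Polynomial.aeval U r := by
    have h2 := congrArg (Polynomial.aeval U) hr
    simpa [hU, Algebra.smul_def] using h2
  refine ⟨p ^ e * k, fun j' hj' => ?_⟩
  obtain ⟨t, rfl⟩ := Nat.exists_eq_add_of_le hj'
  rw [pow_add, pow_mul, h1, smul_pow, Module.End.mul_apply, LinearMap.smul_apply]
  exact Submodule.smul_mem_smul (Ideal.pow_mem_pow hpO k) trivial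

/-- Multiplying the operators by operators congruent to one does not change the part. -/
theorem locPart_le_locPart_mul {ι : Type} (T U : ι → Module.End O L) (a : ι → O)
    (hTU : ∀ i, Commute (T i) (U i)) (hU : ∀ i x, NilAt (U i - 1) x) :
    locPart T a ≤ locPart (fun i => T i * U i) a := fun x hx i => by
  set A := algebraMap O (Module.End O L) (a i)
  have hAU : Commute A (U i) := Algebra.commutes _ _
  have e : T i * U i - A = (T i - A) * U i + a i • (U i - 1) := by
    rw [sub_mul, smul_sub, Algebra.smul_def, Algebra.smul_def, mul_one]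
    abel
  show NilAt (T i * U i - A) x
  rw [e]
  refine (NilAt.mul_right (hx i) ((hTU i).sub_left hAU)).add ((hU i x).smul _) ?_
  exact ((((hTU i).sub_left hAU).sub_right (Commute.one_right _)).mul_left
    ((Commute.refl (U i)).sub_right (Commute.one_right _))).smul_right _

end Fermat.Agent.Auto
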