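import Fermat.Agent.Auto.Free

/-!
A commutative ring acting on a nonzero module, its generators congruent to scalars, has a residual
character.
-/

set_option autoImplicit false
set_option linter.unusedSectionVars false

noncomputable section

namespace Fermat.Agent.Auto

open IsLocalRing

variable {O : Type} [CommRing O] [IsDomain O] [IsDiscreteValuationRing O]
  [IsAdicComplete (maximalIdeal O) O] [Finite (ResidueField O)] [CharZero O]
  {A : Type} [CommRing A] {σ : Type} {L : Type} [AddCommGroup L] [Module O L] [Module.Finite O L]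

/-- Operators commuting with the images of generators commute with the image. -/
theorem commute_of_gens (e : MvPolynomial σ ℤ →+* A) (he : Function.Surjective e)
    (φ : A →+* Module.End O L) (g : Module.End O L)
    (hg : ∀ i, Commute g (φ (e (MvPolynomial.X i)))) (t : A) : Commute g (φ t) := by
  obtain ⟨P, rfl⟩ := he t
  induction P using MvPolynomial.induction_on with
  | C r =>
    have h := RingHom.congr_fun (RingHom.ext_int ((φ.comp e).comp MvPolynomial.C)
      (Int.castRingHom (Module.End O L))) r
    rw [show φ (e (MvPolynomial.C r)) = (r : Module.End O L) from h]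
    exact (Int.cast_commute r g).symm
  | add P Q hP hQ => rw [map_add, map_add]; exact hP.add_right hQ
  | mul_X P i hP => rw [map_mul, map_mul]; exact hP.mul_right (hg i)

/-- The residual character. -/
theorem exists_residual_character [Nontrivial L] (e : MvPolynomial σ ℤ →+* A)
    (he : Function.Surjective e) (φ : A →+* Module.End O L) (b : σ → O)
    (hnil : ∀ (i : σ) (x : L) (k : ℕ), ∃ j : ℕ, ∀ j', j ≤ j' →
      ((φ (e (MvPolynomial.X i)) - algebraMap O (Module.End O L) (b i)) ^ j') x ∈
        (maximalIdeal O ^ k) • (⊤ : Submodule O L)) :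
    ∃ θ : A →+* ResidueField O, ∀ i, θ (e (MvPolynomial.X i)) = residue O (b i) := by
  set T := fun i => φ (e (MvPolynomial.X i)) with hTdef
  obtain ⟨x₀, hx₀, hx₀m⟩ : ∃ x₀ : L,
      (∀ i, T i x₀ - b i • x₀ ∈ maximalIdeal O • (⊤ : Submodule O L)) ∧
        x₀ ∉ maximalIdeal O • (⊤ : Submodule O L) := by
    by_contra hcon
    push Not at hcon
    have hbot := (locPart_eq_bot_iff T (fun i j => (Commute.all _ _).map φ) b).mpr hcon
    obtain ⟨x, hx⟩ := exists_ne (0 : L)
    have hmem : x ∈ locPart T b := fun i k => hnil i x k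
    rw [hbot, Submodule.mem_bot] at hmem
    exact hx hmem
  have hunit : ∀ r : O, r • x₀ ∈ maximalIdeal O • (⊤ : Submodule O L) → residue O r = 0 := by
    intro r hr
    rw [residue_eq_zero_iff]
    by_contra h
    obtain ⟨u, rfl⟩ := notMem_maximalIdeal.mp h
    apply hx₀m
    have := Submodule.smul_mem _ ((u⁻¹ : Oˣ) : O) hr
    rwa [smul_smul, Units.inv_mul, one_smul] at this
  have hmap : ∀ (t : A) (y : L), y ∈ maximalIdeal O • (⊤ : Submodule O L) →
      φ t y ∈ maximalIdeal O • (⊤ : Submodule O L) := fun t y hy => by
    have hle : (maximalIdeal O • (⊤ : Submodule O L)) ≤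
        (maximalIdeal O • (⊤ : Submodule O L)).comap (φ t) :=
      Submodule.smul_le.mpr fun s hs z _ => by
        show φ t (s • z) ∈ maximalIdeal O • (⊤ : Submodule O L)
        rw [map_smul]
        exact Submodule.smul_mem_smul hs trivial
    exact hle hy
  have hmul : ∀ (t u : A) (r r' : O), φ t x₀ - r • x₀ ∈ maximalIdeal O • (⊤ : Submodule O L) →
      φ u x₀ - r' • x₀ ∈ maximalIdeal O • (⊤ : Submodule O L) →
      φ (t * u) x₀ - (r * r') • x₀ ∈ maximalIdeal O • (⊤ : Submodule O L) := by
    intro t u r r' ht hu
    have h3 := hmap t _ hu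
    rw [map_sub, map_smul] at h3
    rw [map_mul, Module.End.mul_apply, mul_comm, mul_smul,
      ← sub_add_sub_cancel _ (r' • φ t x₀) _, ← smul_sub]
    exact add_mem h3 (Submodule.smul_mem _ _ ht)
  have hscal : ∀ t, ∃ r : O, φ t x₀ - r • x₀ ∈ maximalIdeal O • (⊤ : Submodule O L) := by
    intro t
    obtain ⟨P, rfl⟩ := he t
    induction P using MvPolynomial.induction_on with
    | C r =>
      refine ⟨(r : O), ?_⟩
      have h := RingHom.congr_fun (RingHom.ext_int ((φ.comp e).comp MvPolynomial.C)
        (Int.castRingHom (Module.End O L))) r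
      rw [show φ (e (MvPolynomial.C r)) = (r : Module.End O L) from h, Module.End.intCast_apply,
        ← Int.cast_smul_eq_zsmul O, sub_self]
      exact zero_mem _
    | add P Q hP hQ =>
      obtain ⟨r, hr⟩ := hP
      obtain ⟨r', hr'⟩ := hQ
      refine ⟨r + r', ?_⟩
      rw [map_add, map_add, LinearMap.add_apply, add_smul, add_sub_add_comm]
      exact add_mem hr hr'
    | mul_X P i hP =>
      obtain ⟨r, hr⟩ := hP
      exact ⟨r * b i, by rw [map_mul]; exact hmul _ _ _ _ hr (hx₀ i)⟩
  choose s hs using hscal
  have hs_eq : ∀ (t : A) (r : O), φ t x₀ - r • x₀ ∈ maximalIdeal O • (⊤ : Submodule O L) →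
      residue O (s t) = residue O r := fun t r hr => by
    rw [← sub_eq_zero, ← map_sub]
    refine hunit _ ?_
    rw [sub_smul, ← sub_sub_sub_cancel_left _ _ (φ t x₀)]
    exact sub_mem hr (hs t)
  refine ⟨
    { toFun := fun t => residue O (s t)
      map_one' := by
        rw [hs_eq 1 1 (by rw [map_one, Module.End.one_apply, one_smul, sub_self]; exact zero_mem _),
          map_one]
      map_zero' := by
        rw [hs_eq 0 0 (by rw [map_zero, LinearMap.zero_apply, zero_smul, sub_self]; exact zero_mem _),
          map_zero]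
      map_add' := fun t u => by
        rw [hs_eq (t + u) (s t + s u) (by
          rw [map_add, LinearMap.add_apply, add_smul, add_sub_add_comm]
          exact add_mem (hs t) (hs u)), map_add]
      map_mul' := fun t u => by
        rw [hs_eq (t * u) (s t * s u) (hmul _ _ _ _ (hs t) (hs u)), map_mul] },
    fun i => hs_eq _ _ (hx₀ i)⟩

end Fermat.Agent.Auto
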