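import Fermat.Agent.Auto.Free
import Fermat.Agent.Auto.DatumFactor
import Fermat.Agent.Auto.Level.Hom
import Fermat.Agent.Auto.Level.Density
import Fermat.Agent.Auto.Level.LocCongr
import Fermat.Agent.Auto.Level.Residual
import Fermat.Agent.GalRep.Level.SL2

/-!
The residual part of the lattice as a module over the localised Hecke algebra of level `M D`, with
the quadratic relation of the twisted Galois action.
-/

set_option autoImplicit false
set_option linter.unusedSectionVars false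
set_option linter.style.haveILetI false
set_option synthInstance.maxHeartbeats 400000

noncomputable section

namespace Fermat.Agent.Auto

open IsLocalRing CongruenceSubgroup CuspForm
open Fermat.Agent.Galois (GQ)
open Fermat.Agent.GalRep (GoodPrime evFormsOff)
open Fermat.Agent.GalRep.Level (cycM)

/-- Membership in a multiple of a direct summand can be tested in the whole. -/
theorem mem_smul_top_of_isCompl {R L : Type} [CommRing R] [AddCommGroup L] [Module R L]
    {V V' : Submodule R L} (h : IsCompl V V') (I : Ideal R) {x : V}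
    (hx : (x : L) ∈ I • (⊤ : Submodule R L)) : x ∈ I • (⊤ : Submodule R V) := by
  have h1 : (I • (⊤ : Submodule R L)).map (Submodule.projectionOnto V V' h) ≤
      I • (⊤ : Submodule R V) := by
    rw [Submodule.map_smul'']
    exact smul_mono_right _ le_top
  simpa [Submodule.projectionOnto_apply_left] using h1 (Submodule.mem_map_of_mem hx)

/-- An operator restricted to a stable part raised to a power. -/
theorem coe_restrict_pow {R L : Type} [CommRing R] [AddCommGroup L] [Module R L]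
    {V : Submodule R L} {f : Module.End R L} {g : Module.End R V}
    (h : ∀ x : V, ((g x : V) : L) = f x) (n : ℕ) (x : V) : (((g ^ n) x : V) : L) = (f ^ n) x := by
  induction n generalizing x with
  | zero => rfl
  | succ n ih => rw [pow_succ, pow_succ, Module.End.mul_apply, Module.End.mul_apply, ih, h]

/-- The quadratic relation on a direct summand, stated in the whole. -/
theorem quadratic_on_summand {p : ℕ} [Fact p.Prime] {R : Type} [CommRing R] [IsLocalRing R]
    [IsNoetherianRing R] [Algebra ℤ_[p] R] {T : Type} [CommRing T] [IsLocalRing T] [Algebra R T]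
    [Module.Finite R T] [IsLocalHom (algebraMap R T)] {L : Type} [AddCommGroup L] [Module R L]
    [Module.Finite R L] {V W : Submodule R L} (hW : IsCompl V W) (hp : (p : R) ∈ maximalIdeal R)
    (ρ : GaloisRepAdic T) (ψ : T →ₐ[R] Module.End R V) (F : GQ →* Module.End R V)
    (hF : ∀ j : ℕ, ∃ E : IntermediateField ℚ (AlgebraicClosure ℚ), FiniteDimensional ℚ E ∧
      ∀ σ : GQ, (∀ x ∈ E, σ x = x) → ∀ v : V,
        ((F σ v : V) : L) - (v : L) ∈ (maximalIdeal R ^ j) • (⊤ : Submodule R L))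
    (hcomm : ∀ σ t, Commute (F σ) (ψ t)) (bad : Finset ℕ)
    (hrel : ∀ l : ℕ, l.Prime → l ∉ bad → ∀ A : ValuationSubring (AlgebraicClosure ℚ),
      A.LiesOverPrime l → ∀ σ : GQ, A.IsFrobeniusAt σ l → ∀ v : V,
        ((F σ (F σ v) : V) : L) - ((ψ (ρ.trace σ) (F σ v) : V) : L) + (l : R) • (v : L) = 0)
    (g : GQ) (v : V) :
    ((F g (F g v) : V) : L) - ((ψ (ρ.trace g) (F g v) : V) : L) + cycO (p := p) R g • (v : L) = 0 := by
  haveI : IsHausdorff (maximalIdeal R) V :=
    IsHausdorff.of_le_jacobson _ _ (IsLocalRing.maximalIdeal_le_jacobson _)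
  have h := quadratic_of_frobenius hp ρ ψ F
    (fun j => by
      obtain ⟨E, hE, h⟩ := hF j
      exact ⟨E, hE, fun σ hσ v => mem_smul_top_of_isCompl hW _ (h σ hσ v)⟩)
    hcomm bad (fun l hl hlb A hA σ hσ => LinearMap.ext fun v => Subtype.ext (by
      have h1 := hrel l hl hlb A hA σ hσ v
      rw [Nat.cast_smul_eq_nsmul] at h1
      exact h1)) g
  exact congrArg Subtype.val (LinearMap.congr_fun h v)

variable {p : ℕ} [Fact p.Prime] {O : Type} [CommRing O] [IsDomain O] [IsDiscreteValuationRing O]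
  [IsAdicComplete (maximalIdeal O) O] [Finite (ResidueField O)]
  [Algebra ℤ_[p] O] [Module.Finite ℤ_[p] O] [CharZero O]
  {M D : ℕ} [NeZero M] [NeZero (M * D)] {Δ : Type} [CommGroup Δ] [Fintype Δ]
  {c : (ZMod M)ˣ →* Δ} {S : Finset ℕ} {a : ℕ → O}

theorem latDia_map_pow (d : (ZMod M)ˣ) (n : ℕ) : latDia M c O (d ^ n) = latDia M c O d ^ n := by
  induction n with
  | zero => rw [pow_zero, pow_zero]; exact latDia_eq_one (map_one c)
  | succ n ih => rw [pow_succ, pow_succ, latDia_mul, ih]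

theorem nilAt_latDia_sub_one (hp : (p : O) ∈ maximalIdeal O) (hΔ : IsPGroup p Δ) (d : (ZMod M)ˣ)
    (x : Lat M c O) : NilAt (latDia M c O d - 1) x := by
  obtain ⟨e, he⟩ := IsPGroup.iff_card.mp hΔ
  refine nilAt_sub_one_of_pow_eq_one (Fact.out : p.Prime) hp (e := e) ?_ x
  rw [← latDia_map_pow]
  exact latDia_eq_one (by rw [map_pow, ← he, pow_card_eq_one'])

/-- The twisted operators are topologically congruent to the eigenvalues on the part. -/
theorem latLoc_le_locPart_twT (hp : (p : O) ∈ maximalIdeal O) (hΔ : IsPGroup p Δ) :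
    latLoc M c O S a ≤
      locPart (fun i : PrimeOff M S => twT M c O i.1) fun i => a ((i.1 : Nat.Primes) : ℕ) := by
  have h := locPart_le_locPart_mul (fun i : PrimeOff M S => latT M c O i.1)
    (fun i : PrimeOff M S => latDia M c O
      (ZMod.unitOfCoprime _ ((i.1 : Nat.Primes).2.coprime_iff_not_dvd.2 i.1.2) ^
        ((Nat.card Δ - 1) / 2)))
    (fun i => a ((i.1 : Nat.Primes) : ℕ)) (fun i => latT_latDia i.1 _)
    fun _ x => nilAt_latDia_sub_one hp hΔ _ x
  intro x hx
  exact h hx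

theorem twT_mem_latLoc (i : GoodPrime M) {x : Lat M c O} (hx : x ∈ latLoc M c O S a) :
    twT M c O i x ∈ latLoc M c O S a := by
  unfold latLoc at hx ⊢
  have h : ∀ j : PrimeOff M S, Commute (twT M c O i) (latT M c O j.1) := fun j => by
    unfold twT
    exact (latT_commute i j.1).mul_left (latT_latDia j.1 _).symm
  exact map_locPart_le (twT M c O i) h hx

theorem latDia_mem_part (d : (ZMod M)ˣ) {x : Lat M c O} (hx : x ∈ latLoc M c O S a) :
    latDia M c O d x ∈ latLoc M c O S a := by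
  unfold latLoc at hx ⊢
  have h : ∀ j : PrimeOff M S, Commute (latDia M c O d) (latT M c O j.1) := fun j =>
    (latT_latDia j.1 d).symm
  exact map_locPart_le (latDia M c O d) h hx

theorem galTw_twT (σ : GQ) (i : GoodPrime M) : Commute (galTw M c p O σ) (twT M c O i) :=
  Commute.mul_left ((galLat_latT σ i).mul_right (galLat_latDia σ _))
    ((latT_latDia i _).symm.mul_right (latDia_commute _ _))

theorem galTw_latDia (σ : GQ) (d : (ZMod M)ˣ) : Commute (galTw M c p O σ) (latDia M c O d) :=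
  (galLat_latDia σ d).mul_left (latDia_commute _ _)

theorem galTw_mem_latLoc (σ : GQ) {x : Lat M c O} (hx : x ∈ latLoc M c O S a) :
    galTw M c p O σ x ∈ latLoc M c O S a := by
  unfold latLoc at hx ⊢
  have h : ∀ j : PrimeOff M S, Commute (galTw M c p O σ) (latT M c O j.1) := fun j =>
    (galLat_latT σ j.1).mul_left (latT_latDia j.1 _).symm
  exact map_locPart_le (galTw M c p O σ) h hx

/-- A stable complement of the residual part. -/
theorem exists_isCompl_latLoc : ∃ W : Submodule O (Lat M c O), IsCompl (latLoc M c O S a) W := by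
  obtain ⟨W, hW, -⟩ := exists_isCompl_locPart (L := Lat M c O)
    (fun i : PrimeOff M S => latT M c O i.1) (fun i j => latT_commute i.1 j.1)
    fun i => a ((i.1 : Nat.Primes) : ℕ)
  exact ⟨W, hW⟩

theorem evFormsOff_X (N : ℕ) [NeZero N] (S : Set ℕ) (i : GalRep.GoodPrimeOff N S) :
    evFormsOff (N := N) S (MvPolynomial.X i) = heckeAlgebra.T i.1.1.2 i.1.2 i.2 := by
  simp [evFormsOff]

/-- Powers of the twisted operators minus the eigenvalue, on the part. -/
theorem latLoc_nil (hp : (p : O) ∈ maximalIdeal O) (hΔ : IsPGroup p Δ) (i : PrimeOff M S)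
    (g : Module.End O (latLoc M c O S a))
    (hg : ∀ x, ((g x : latLoc M c O S a) : Lat M c O) = twT M c O i.1 x)
    (x : latLoc M c O S a) (k : ℕ) : ∃ j : ℕ, ∀ j', j ≤ j' →
      ((g - algebraMap O (Module.End O (latLoc M c O S a)) (a ((i.1 : Nat.Primes) : ℕ))) ^ j') x ∈
        (maximalIdeal O ^ k) • (⊤ : Submodule O (latLoc M c O S a)) := by
  obtain ⟨W, hW⟩ := exists_isCompl_latLoc (M := M) (c := c) (S := S) (a := a)
  obtain ⟨j, hj⟩ := latLoc_le_locPart_twT hp hΔ x.2 i k
  refine ⟨j, fun j' hj' => mem_smul_top_of_isCompl hW _ ?_⟩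
  rw [coe_restrict_pow (f := twT M c O i.1 -
    algebraMap O (Module.End O (Lat M c O)) (a ((i.1 : Nat.Primes) : ℕ)))
    (fun y => congrArg₂ (· - ·) (hg y) rfl)]
  exact hj j' hj'

variable (ρbar : ResidualGaloisRep (ResidueField O))

set_option maxHeartbeats 400000 in
/-- The datum at level `M D` acting on the part. -/
theorem exists_levelHecke (hp2 : p ≠ 2) (hp : (p : O) ∈ maximalIdeal O) (hΔ : IsPGroup p Δ)
    (hpS : p ∈ S) (hMD : ∀ r : ℕ, r.Prime → r ∣ M * D → r ∈ S)
    (habs : ρbar.IsAbsolutelyIrreducible)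
    (hfrob : ∀ l : ℕ, l.Prime → l ∉ S → ∀ A : ValuationSubring (AlgebraicClosure ℚ),
      A.LiesOverPrime l → ∀ σ : GQ, A.IsFrobeniusAt σ l →
        LinearMap.charpoly (ρbar.ρ σ) = Polynomial.X ^ 2 -
          Polynomial.C (residue O (a l)) * Polynomial.X + Polynomial.C ((l : ResidueField O)))
    (hne : latLoc M c O S a ≠ ⊥)
    (φ : heckeAlgebra (M * D) 2 (↑S : Set ℕ) →+* Module.End O (latLoc M c O S a))
    (hφ : ∀ (ℓ : ℕ) (hℓ : ℓ.Prime) (hℓN : ¬ ℓ ∣ M * D) (hℓS : ℓ ∉ (↑S : Set ℕ))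
      (x : latLoc M c O S a),
      ((φ (heckeAlgebra.T hℓ hℓN hℓS) x : latLoc M c O S a) : Lat M c O) =
        twT M c O (downPrime (dvd_mul_right M D) ⟨⟨ℓ, hℓ⟩, hℓN⟩) (x : Lat M c O)) :
    ∃ (θ : heckeAlgebra (M * D) 2 (↑S : Set ℕ) →+* ResidueField O)
      (H : HeckeGaloisRepDatum (M * D) (↑S : Set ℕ) O θ (heckeLocal (M * D) (↑S : Set ℕ) O θ))
      (Φ : heckeLocal (M * D) (↑S : Set ℕ) O θ →ₐ[O] Module.End O (latLoc M c O S a)),
      H.ρ.residual.IsEquiv (ρbar.baseChangeAlong (ResidueField.map (algebraMap O _))) ∧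
      (∀ t, Φ (H.π t) = φ t) ∧
      ∀ g : Module.End O (latLoc M c O S a),
        (∀ (i : GoodPrime M) (x : latLoc M c O S a),
          ((g ⟨twT M c O i x, twT_mem_latLoc i x.2⟩ : latLoc M c O S a) : Lat M c O) =
            twT M c O i (g x : latLoc M c O S a)) → ∀ t, Commute g (Φ t) := by
  haveI : Nontrivial (latLoc M c O S a) := (Submodule.nontrivial_iff_ne_bot).mpr hne
  haveI : Module.IsTorsionFree O (latLoc M c O S a) :=
    Function.Injective.moduleIsTorsionFree _ (latLoc M c O S a).injective_subtype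
      fun r x => map_smul (latLoc M c O S a).subtype r x
  haveI : Module.Finite O (latLoc M c O S a) := inferInstance
  haveI : Module.Free O (latLoc M c O S a) := @Module.free_of_finite_type_torsion_free' O _ _
    (latLoc M c O S a).addCommGroup (latLoc M c O S a).module _ _ _ _
  obtain ⟨e, he, heX⟩ : ∃ e : MvPolynomial (GalRep.GoodPrimeOff (M * D) (↑S : Set ℕ)) ℤ →+*
      heckeAlgebra (M * D) 2 (↑S : Set ℕ), Function.Surjective e ∧
        ∀ i, e (MvPolynomial.X i) = heckeAlgebra.T i.1.1.2 i.1.2 i.2 :=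
    ⟨(evFormsOff (N := M * D) (↑S : Set ℕ)).toRingHom, evFormsOff_surjective (M * D) _ hMD,
      fun i => evFormsOff_X _ _ i⟩
  have hX : ∀ i x, ((φ (e (MvPolynomial.X i)) x : latLoc M c O S a) : Lat M c O) =
      twT M c O (downPrime (dvd_mul_right M D) i.1) x := fun i x => by
    rw [heX i]
    exact hφ _ _ _ _ x
  have hnil : ∀ (i : GalRep.GoodPrimeOff (M * D) (↑S : Set ℕ)) (x : latLoc M c O S a) (k : ℕ),
      ∃ j : ℕ, ∀ j', j ≤ j' → ((φ (e (MvPolynomial.X i)) - algebraMap O
        (Module.End O (latLoc M c O S a)) (a ((i.1 : Nat.Primes) : ℕ))) ^ j') x ∈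
          (maximalIdeal O ^ k) • (⊤ : Submodule O (latLoc M c O S a)) := fun i =>
    latLoc_nil hp hΔ ⟨downPrime (dvd_mul_right M D) i.1, i.2⟩ (φ (e (MvPolynomial.X i))) (hX i)
  have key := @exists_residual_character O _ _ _ _ _ _ (heckeAlgebra (M * D) 2 (↑S : Set ℕ)) _
    (GalRep.GoodPrimeOff (M * D) (↑S : Set ℕ)) (latLoc M c O S a) _ _ _ _ e he φ
    (fun i => a ((i.1 : Nat.Primes) : ℕ))
  obtain ⟨θ, hθ⟩ := key hnil
  have hθ' : ∀ (l : ℕ) (hl : l.Prime) (hlN : ¬ l ∣ M * D) (hlS : l ∉ (↑S : Set ℕ)),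
      residue O (a l) = θ (heckeAlgebra.T hl hlN hlS) := fun l hl hlN hlS => by
    rw [← heX ⟨⟨⟨l, hl⟩, hlN⟩, hlS⟩]
    exact (hθ ⟨⟨⟨l, hl⟩, hlN⟩, hlS⟩).symm
  obtain ⟨H, hH, hres⟩ := nonempty_heckeGaloisRepDatum (M * D) O hp2 S hpS hp θ ρbar habs
    fun l hl hlN hlS A hA σ hσ => by
      rw [← hθ' l hl hlN hlS]
      exact hfrob l hl hlS A hA σ hσ
  have hnilT : ∀ (l : ℕ) (hl : l.Prime) (hlN : ¬ l ∣ M * D) (hlS : l ∉ (↑S : Set ℕ))
      (x : latLoc M c O S a), ∃ j : ℕ, ∀ j', j ≤ j' → ((φ (heckeAlgebra.T hl hlN hlS) - algebraMap O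
        (Module.End O (latLoc M c O S a)) (a l)) ^ j') x ∈
          maximalIdeal O • (⊤ : Submodule O (latLoc M c O S a)) := fun l hl hlN hlS x => by
    obtain ⟨j, hj⟩ := latLoc_nil hp hΔ ⟨downPrime (dvd_mul_right M D) ⟨⟨l, hl⟩, hlN⟩, hlS⟩
      (φ (heckeAlgebra.T hl hlN hlS)) (hφ l hl hlN hlS) x 1
    refine ⟨j, fun j' hj' => ?_⟩
    have h1 := hj j' hj'
    rw [pow_one] at h1
    exact h1
  have key2 := @exists_factor_heckeLocal (M * D) _ S O _ _ _ _ θ hMD (latLoc M c O S a) _ _ _ _ φ a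
  refine Exists.elim (key2 hθ' hnilT) fun Φ hΦ => ?_
  refine ⟨θ, H, Φ, hres, fun t => by rw [hH]; exact hΦ t, fun g hg t => ?_⟩
  have ht : t ∈ Algebra.adjoin O (Set.range (heckeLocal.π (M * D) (↑S : Set ℕ) O θ)) := by
    rw [adjoin_range_π_eq]; trivial
  induction ht using Algebra.adjoin_induction with
  | mem z hz =>
    obtain ⟨u, rfl⟩ := hz
    rw [hΦ]
    refine @commute_of_gens O _ _ _ _ _ _ (heckeAlgebra (M * D) 2 (↑S : Set ℕ)) _
      (GalRep.GoodPrimeOff (M * D) (↑S : Set ℕ)) (latLoc M c O S a) _ _ _ e he φ g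
      (fun i => LinearMap.ext fun x => Subtype.ext ?_) u
    rw [Module.End.mul_apply, Module.End.mul_apply, hX, ← hg,
      show (⟨twT M c O (downPrime (dvd_mul_right M D) i.1) x, twT_mem_latLoc _ x.2⟩ :
        latLoc M c O S a) = φ (e (MvPolynomial.X i)) x from Subtype.ext (hX i x).symm]
  | algebraMap r => rw [AlgHom.commutes]; exact (Algebra.commutes r g).symm
  | add y z _ _ hy hz => rw [map_add]; exact hy.add_right hz
  | mul y z _ _ hy hz => rw [map_mul]; exact hy.mul_right hz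

set_option maxHeartbeats 400000 in
/-- The residual part is a module over the localised Hecke algebra of level `M D`, and the twisted
Galois action satisfies the quadratic relation of the representation over that algebra. -/
theorem exists_levelRep (hp2 : p ≠ 2) (hp : (p : O) ∈ maximalIdeal O) (hΔ : IsPGroup p Δ)
    (hD : D ∣ M) (hsq : Squarefree D)
    (hcD : ∀ u : (ZMod M)ˣ, ((u : ZMod M).val : ZMod D) = 1 → c u = 1)
    (hpS : p ∈ S) (hMS : ∀ r : ℕ, r.Prime → r ∣ M → r ∈ S)
    (habs : ρbar.IsAbsolutelyIrreducible)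
    (hfrob : ∀ l : ℕ, l.Prime → l ∉ S → ∀ A : ValuationSubring (AlgebraicClosure ℚ),
      A.LiesOverPrime l → ∀ σ : GQ, A.IsFrobeniusAt σ l →
        LinearMap.charpoly (ρbar.ρ σ) = Polynomial.X ^ 2 -
          Polynomial.C (residue O (a l)) * Polynomial.X + Polynomial.C ((l : ResidueField O)))
    (hne : latLoc M c O S a ≠ ⊥) :
    ∃ (θ : heckeAlgebra (M * D) 2 (↑S : Set ℕ) →+* ResidueField O)
      (H : HeckeGaloisRepDatum (M * D) (↑S : Set ℕ) O θ (heckeLocal (M * D) (↑S : Set ℕ) O θ))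
      (Φ : heckeLocal (M * D) (↑S : Set ℕ) O θ →ₐ[O] Module.End O (latLoc M c O S a)),
      H.ρ.residual.IsEquiv (ρbar.baseChangeAlong (ResidueField.map (algebraMap O _))) ∧
      (∀ (d : (ZMod M)ˣ) t (x : latLoc M c O S a),
        latDia M c O d ((Φ t x : latLoc M c O S a) : Lat M c O) =
          (Φ t ⟨latDia M c O d x, latDia_mem_part d x.2⟩ : latLoc M c O S a)) ∧
      (∀ (σ : GQ) t (x : latLoc M c O S a),
        galTw M c p O σ ((Φ t x : latLoc M c O S a) : Lat M c O) =
          (Φ t ⟨galTw M c p O σ x, galTw_mem_latLoc σ x.2⟩ : latLoc M c O S a)) ∧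
      ∀ (σ : GQ) (x : latLoc M c O S a),
        galTw M c p O σ (galTw M c p O σ x) -
          (Φ (H.ρ.trace σ) ⟨galTw M c p O σ x, galTw_mem_latLoc σ x.2⟩ : latLoc M c O S a) +
            cycO (p := p) O σ • (x : Lat M c O) = 0 := by
  have hodd : Odd (Nat.card Δ) := by
    obtain ⟨e, he⟩ := IsPGroup.iff_card.mp hΔ
    rw [he]
    exact ((Fact.out : p.Prime).odd_of_ne_two hp2).pow
  have hMD : ∀ r : ℕ, r.Prime → r ∣ M * D → r ∈ S := fun r hr h =>
    hMS r hr ((hr.dvd_mul.mp h).elim id fun h' => h'.trans hD)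
  obtain ⟨φ, hφ⟩ := exists_heckeHom_twT hD hsq hcD hodd S hMS (latLoc M c O S a)
    fun i x hx => twT_mem_latLoc i hx
  obtain ⟨θ, H, Φ, hres, hΦ, hcen⟩ :=
    exists_levelHecke ρbar hp2 hp hΔ hpS hMD habs hfrob hne φ hφ
  obtain ⟨W, hW⟩ := exists_isCompl_latLoc (M := M) (c := c) (S := S) (a := a)
  refine ⟨θ, H, Φ, hres, fun d t x => ?_, fun σ t x => ?_, fun σ x => ?_⟩
  · have h := hcen ((latDia M c O d).restrict fun x hx => latDia_mem_part d hx)
      (fun i y => LinearMap.congr_fun (twT_latDia i d).eq.symm (y : Lat M c O)) t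
    exact congrArg Subtype.val (LinearMap.congr_fun h.eq x)
  · have h := hcen ((galTw M c p O σ).restrict fun x hx => galTw_mem_latLoc σ hx)
      (fun i y => LinearMap.congr_fun (galTw_twT σ i).eq (y : Lat M c O)) t
    exact congrArg Subtype.val (LinearMap.congr_fun h.eq x)
  let F : GQ →* Module.End O (latLoc M c O S a) :=
    { toFun := fun σ => (galTw M c p O σ).restrict fun x hx => galTw_mem_latLoc σ hx
      map_one' := LinearMap.ext fun y => Subtype.ext (by
        show galTw M c p O 1 (y : Lat M c O) = (y : Lat M c O)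
        rw [map_one, Module.End.one_apply])
      map_mul' := fun g h => LinearMap.ext fun y => Subtype.ext (by
        show galTw M c p O (g * h) (y : Lat M c O) = galTw M c p O g (galTw M c p O h y)
        rw [map_mul, Module.End.mul_apply]) }
  have hFc : ∀ j : ℕ, ∃ E : IntermediateField ℚ (AlgebraicClosure ℚ), FiniteDimensional ℚ E ∧
      ∀ σ : GQ, (∀ x ∈ E, σ x = x) → ∀ v : latLoc M c O S a,
        ((F σ v : latLoc M c O S a) : Lat M c O) - (v : Lat M c O) ∈
          (maximalIdeal O ^ j) • (⊤ : Submodule O (Lat M c O)) := by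
    intro j
    obtain ⟨E₁, hE₁, h1⟩ := galLat_continuous (M := M) (c := c) (p := p) (O := O) j
    obtain ⟨E₂, hE₂, h2⟩ := DS.exists_cycM_level M
    refine ⟨E₁ ⊔ E₂, IntermediateField.finiteDimensional_sup E₁ E₂, fun σ hσ v => ?_⟩
    show galLat M c p O σ (latDia M c O (cycM M σ ^ ((Nat.card Δ - 1) / 2)) v) - (v : Lat M c O) ∈ _
    rw [h2 σ fun y hy => hσ y (le_sup_right (a := E₁) hy), one_pow, latDia_eq_one (map_one c),
      Module.End.one_apply]
    exact h1 σ (fun y hy => hσ y (le_sup_left (b := E₂) hy)) _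
  have hcomm : ∀ g t, Commute (F g) (Φ t) := fun g t => hcen (F g)
    (fun i y => LinearMap.congr_fun (galTw_twT g i).eq (y : Lat M c O)) t
  have hrel : ∀ l : ℕ, l.Prime → l ∉ S → ∀ A : ValuationSubring (AlgebraicClosure ℚ),
      A.LiesOverPrime l → ∀ g : GQ, A.IsFrobeniusAt g l → ∀ y : latLoc M c O S a,
        ((F g (F g y) : latLoc M c O S a) : Lat M c O) -
          ((Φ (H.ρ.trace g) (F g y) : latLoc M c O S a) : Lat M c O) +
            (l : O) • (y : Lat M c O) = 0 := by
    intro l hl hlS A hA g hg y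
    have hlN : ¬ l ∣ M * D := fun h => hlS (hMD l hl h)
    have hlS' : l ∉ (↑S : Set ℕ) := hlS
    obtain ⟨r, b, hb⟩ := Deform.exists_hasMatrix H.ρ
    have h1 := H.charpoly_frob l hl hlN hlS' A hA g hg
    rw [← LinearMap.charpoly_toMatrix _ b, Matrix.charpoly_fin_two] at h1
    have h2 := congrArg (fun P => Polynomial.coeff P 1) h1
    simp [Polynomial.coeff_X_pow, Polynomial.coeff_C, Polynomial.coeff_one] at h2
    rw [GaloisRepAdic.trace, LinearMap.trace_eq_matrix_trace _ b, h2, hΦ]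
    have h := LinearMap.congr_fun (galTw_frobenius (M := M) (c := c) (p := p) (O := O) hodd
      (downPrime (dvd_mul_right M D) ⟨⟨l, hl⟩, hlN⟩)
      (fun h => hlS (by rw [show l = p from h]; exact hpS)) A hA g hg) (y : Lat M c O)
    refine Eq.trans ?_ h
    rw [hφ, Nat.cast_smul_eq_nsmul]
    rfl
  exact @quadratic_on_summand p _ O _ _ _ _ (heckeLocal (M * D) (↑S : Set ℕ) O θ) _ _ _ _ _
    (Lat M c O) _ _ _ (latLoc M c O S a) W hW hp H.ρ Φ F hFc hcomm S hrel σ x

end Fermat.Agent.Auto
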