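import Fermat.Agent.Auto.Inertia
import Fermat.Agent.Auto.Level.Piece

/-!
On the residual part, inertia at a prime exactly dividing the level is residually unipotent, and the
trace of inertia is given by the diamond operators.
-/

set_option autoImplicit false
set_option linter.unusedSectionVars false
set_option linter.style.haveILetI false
set_option synthInstance.maxHeartbeats 400000

noncomputable section

namespace Fermat.Agent.Auto

open IsLocalRing CongruenceSubgroup
open Fermat.Agent.Galois (GQ)
open Fermat.Agent.GalRep (cyc cyc_inertia)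
open Fermat.Agent.GalRep.Level (cycM)

section Residual

variable {O : Type} [CommRing O] [IsLocalRing O] {T : Type} [CommRing T] [IsLocalRing T] [Algebra O T]
  [IsLocalHom (algebraMap O T)]

/-- Where the residual representation is trivial the trace is congruent to two. -/
theorem trace_sub_two_mem (ρ : GaloisRepAdic T) (ρbar : ResidualGaloisRep (ResidueField O))
    (hres : ρ.residual.IsEquiv (ρbar.baseChangeAlong (ResidueField.map (algebraMap O T)))) {σ : GQ}
    (hσ : ρbar.ρ σ = 1) : ρ.trace σ - 2 ∈ maximalIdeal T := by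
  obtain ⟨e⟩ := hres
  have h1 : (ρbar.baseChangeAlong (ResidueField.map (algebraMap O T))).ρ σ = 1 := by
    refine LinearMap.ext fun z => ?_
    letI : Algebra (ResidueField O) (ResidueField T) :=
      (ResidueField.map (algebraMap O T)).toAlgebra
    show (ρbar.ρ σ).baseChange (ResidueField T) z = z
    rw [hσ, LinearMap.baseChange_one]
    rfl
  have h2 : ρ.residual.ρ σ = 1 := LinearMap.ext fun z => e.toLinearEquiv.injective (by
    rw [e.map_apply, h1, Module.End.one_apply, Module.End.one_apply])
  have h3 : LinearMap.trace (ResidueField T) ρ.residual.V (ρ.residual.ρ σ) =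
      residue T (ρ.trace σ) := LinearMap.trace_baseChange _ _
  rw [h2, LinearMap.trace_one, ρ.residual.finrank_eq] at h3
  rw [← residue_eq_zero_iff, map_sub, ← h3, map_ofNat]
  simp

end Residual

section Generic

variable {O : Type} [CommRing O] [IsLocalRing O] {T : Type} [CommRing T] [IsLocalRing T] [Algebra O T]
  [Module.Finite O T] {L : Type} [AddCommGroup L] [Module O L] {V : Submodule O L}

/-- A root of `X² - t X + 1` with `t` congruent to two is topologically unipotent. -/
theorem nilAt_sub_one_of_quadratic (Φ : T →ₐ[O] Module.End O V) (t : T)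
    (ht : t - 2 ∈ maximalIdeal T) (F : Module.End O L) (g : Module.End O V)
    (hg : ∀ x : V, ((g x : V) : L) = F x) (hc : ∀ z, Commute g (Φ z))
    (hquad : ∀ x : V, F (F x) - ((Φ t (g x) : V) : L) + (x : L) = 0) (x : V) :
    NilAt (F - 1) (x : L) := by
  have hsq : (g - 1) * (g - 1) = Φ (t - 2) * g := by
    refine LinearMap.ext fun y => Subtype.ext ?_
    have h := hquad y
    rw [← hg, ← hg] at h
    rw [map_sub, map_ofNat, sub_mul, sub_mul, one_mul, mul_sub, mul_one, two_mul]
    show ((g (g y) : V) : L) - (g y : V) - (((g y : V) : L) - (y : V)) =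
      ((Φ t (g y) : V) : L) - (((g y : V) : L) + (g y : V))
    linear_combination (norm := abel) h
  intro k
  obtain ⟨N, hN⟩ := exists_pow_maximalIdeal_le_map O T
  refine ⟨2 * (N * k), fun j' hj' => ?_⟩
  obtain ⟨d, rfl⟩ := Nat.exists_eq_add_of_le' hj'
  have e : ((F - 1) ^ (d + 2 * (N * k))) (x : L) =
      ((F - 1) ^ d) ((((g - 1) ^ (2 * (N * k))) x : V) : L) := by
    rw [pow_add, Module.End.mul_apply, coe_restrict_pow (g := g - 1) (f := F - 1)
      (fun y => congrArg₂ (· - ·) (hg y) rfl)]
  rw [e]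
  refine apply_mem_pow_smul_top _ ?_
  rw [pow_mul, pow_two, hsq, (hc (t - 2)).symm.mul_pow, ← map_pow, Module.End.mul_apply]
  have hmem : (t - 2) ^ (N * k) ∈ (maximalIdeal O ^ k).map (algebraMap O T) := by
    rw [Ideal.map_pow, pow_mul]
    exact Ideal.pow_mem_pow (hN (Ideal.pow_mem_pow ht N)) k
  revert hmem
  generalize (t - 2) ^ (N * k) = z
  generalize (g ^ (N * k)) x = y
  intro hmem
  induction hmem using Submodule.span_induction generalizing y with
  | mem z hz =>
    obtain ⟨o, ho, rfl⟩ := hz
    rw [AlgHom.commutes, Module.algebraMap_end_apply, Submodule.coe_smul]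
    exact Submodule.smul_mem_smul ho trivial
  | zero => simp
  | add a b _ _ ha hb =>
    rw [map_add, LinearMap.add_apply, Submodule.coe_add]; exact add_mem (ha y) (hb y)
  | smul r z _ hz =>
    rw [smul_eq_mul, mul_comm, map_mul, Module.End.mul_apply]
    exact hz _

end Generic

variable {p : ℕ} [Fact p.Prime] {O : Type} [CommRing O] [IsDomain O] [IsDiscreteValuationRing O]
  [IsAdicComplete (maximalIdeal O) O] [Finite (ResidueField O)]
  [Algebra ℤ_[p] O] [Module.Finite ℤ_[p] O] [CharZero O]
  {M : ℕ} [NeZero M] {Δ : Type} [CommGroup Δ] [Fintype Δ]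
  {c : (ZMod M)ˣ →* Δ} {S : Finset ℕ} {a : ℕ → O}

theorem latDia_eq_of_c {d e : (ZMod M)ˣ} (h : c d = c e) : latDia M c O d = latDia M c O e := by
  rw [show d = d * e⁻¹ * e by group, latDia_mul,
    latDia_eq_one (by rw [map_mul, map_inv, h, mul_inv_cancel]), one_mul]

theorem latDia_latDia (d e : (ZMod M)ˣ) (x : Lat M c O) :
    latDia M c O d (latDia M c O e x) = latDia M c O (d * e) x := by
  rw [latDia_mul, Module.End.mul_apply]

theorem galLat_eq_galTw (σ : GQ) :
    galLat M c p O σ =
      galTw M c p O σ * latDia M c O (cycM M σ ^ ((Nat.card Δ - 1) / 2))⁻¹ := by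
  show _ = galLat M c p O σ * latDia M c O _ * _
  rw [mul_assoc, ← latDia_mul, mul_inv_cancel, latDia_eq_one (map_one c), mul_one]

/-- Inertia is residually unipotent on the part. -/
theorem hres_of_levelRep (hp : (p : O) ∈ maximalIdeal O) (hΔ : IsPGroup p Δ) {T : Type} [CommRing T]
    [IsLocalRing T] [Algebra O T] [Module.Finite O T] (Φ : T →ₐ[O] Module.End O (latLoc M c O S a))
    (t : T) (ht : t - 2 ∈ maximalIdeal T) (σ : GQ) (g : Module.End O (latLoc M c O S a))
    (hg : ∀ x, ((g x : latLoc M c O S a) : Lat M c O) = galTw M c p O σ x)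
    (hc : ∀ z, Commute g (Φ z))
    (hquad : ∀ x : latLoc M c O S a, galTw M c p O σ (galTw M c p O σ x) -
      ((Φ t (g x) : latLoc M c O S a) : Lat M c O) + (x : Lat M c O) = 0)
    (x : Lat M c O) (hx : x ∈ latLoc M c O S a) : ∃ j : ℕ,
      ((galLat M c p O σ - 1) ^ j) x ∈ maximalIdeal O • (⊤ : Submodule O (Lat M c O)) := by
  set F := galTw M c p O σ
  set U := latDia M c O (cycM M σ ^ ((Nat.card Δ - 1) / 2))⁻¹
  have hFU : Commute F U := galTw_latDia σ _
  have h1 : NilAt (F - 1) x := nilAt_sub_one_of_quadratic Φ t ht F g hg hc hquad ⟨x, hx⟩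
  have h2 : NilAt (U - 1) x := nilAt_latDia_sub_one hp hΔ _ x
  have e : galLat M c p O σ - 1 = (F - 1) * U + (U - 1) := by
    rw [galLat_eq_galTw, sub_mul, one_mul]
    abel
  have h3 : NilAt (galLat M c p O σ - 1) x := by
    rw [e]
    exact (h1.mul_right (hFU.sub_left (Commute.one_left _))).add h2
      (((hFU.sub_left (Commute.one_left _)).sub_right (Commute.one_right _)).mul_left
        ((Commute.refl U).sub_right (Commute.one_right _)))
  obtain ⟨j, hj⟩ := h3 1
  have h4 := hj j le_rfl
  rw [pow_one] at h4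
  exact ⟨j, h4⟩

/-- The trace of inertia at a prime exactly dividing the level. -/
theorem trace_inertia_eq (hΔodd : Odd (Nat.card Δ)) {T : Type} [CommRing T] [Algebra O T]
    (Φ : T →ₐ[O] Module.End O (latLoc M c O S a)) (t : T) (σ : GQ)
    (hquad : ∀ x : latLoc M c O S a, galTw M c p O σ (galTw M c p O σ x) -
      ((Φ t ⟨galTw M c p O σ x, galTw_mem_latLoc σ x.2⟩ : latLoc M c O S a) : Lat M c O) +
        (x : Lat M c O) = 0)
    (hin : ∀ x ∈ latLoc M c O S a,
      (galLat M c p O σ - 1) ((galLat M c p O σ - latDia M c O (cycM M σ)) x) = 0)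
    (x : latLoc M c O S a) :
    ((Φ t x : latLoc M c O S a) : Lat M c O) =
      latDia M c O (cycM M σ ^ ((Nat.card Δ - 1) / 2)) x +
        latDia M c O (cycM M σ ^ ((Nat.card Δ - 1) / 2))⁻¹ x := by
  set u := cycM M σ ^ ((Nat.card Δ - 1) / 2) with hu
  set F := galTw M c p O σ with hF
  set d := cycM M σ with hd
  have hcu : c (d * (u * u)) = 1 := by
    obtain ⟨m, hm⟩ := hΔodd
    have h2 : Nat.card Δ = 1 + ((Nat.card Δ - 1) / 2 + (Nat.card Δ - 1) / 2) := by omega
    rw [hu, map_mul, map_mul, map_pow, ← pow_add, ← pow_succ', add_comm, ← h2, pow_card_eq_one']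
  have key : ∀ y : Lat M c O, y ∈ latLoc M c O S a →
      F (F y) - F (latDia M c O u y) - F (latDia M c O u⁻¹ y) + y = 0 := by
    intro y hy
    have h := hin (latDia M c O (u * u) y) (latDia_mem_part _ hy)
    have hG : ∀ z, galLat M c p O σ z = F (latDia M c O u⁻¹ z) := fun z => by
      rw [galLat_eq_galTw, Module.End.mul_apply]
    have hdF : ∀ (e : (ZMod M)ˣ) z, latDia M c O e (F z) = F (latDia M c O e z) := fun e z =>
      (LinearMap.congr_fun (galTw_latDia σ e).eq z).symm
    simp only [LinearMap.sub_apply, Module.End.one_apply, map_sub, hG, hdF, latDia_latDia] at h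
    rw [show u⁻¹ * (u⁻¹ * (u * u)) = 1 by group, show u⁻¹ * (u * u) = u by group,
      latDia_eq_one (map_one c), Module.End.one_apply, latDia_eq_one hcu, Module.End.one_apply,
      latDia_eq_of_c (show c (u⁻¹ * (d * (u * u))) = c u⁻¹ by rw [map_mul, hcu, mul_one])] at h
    linear_combination (norm := abel) h
  have hinv : F (galTw M c p O σ⁻¹ x) = (x : Lat M c O) := by
    rw [hF, ← Module.End.mul_apply, ← map_mul, mul_inv_cancel, map_one, Module.End.one_apply]
  have h1 := hquad ⟨galTw M c p O σ⁻¹ x, galTw_mem_latLoc σ⁻¹ x.2⟩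
  have h2 := key (galTw M c p O σ⁻¹ x) (galTw_mem_latLoc σ⁻¹ x.2)
  have hcm : ∀ (e : (ZMod M)ˣ) z, F (latDia M c O e z) = latDia M c O e (F z) := fun e z =>
    LinearMap.congr_fun (galTw_latDia σ e).eq z
  simp only [hcm, hinv] at h2
  have e3 : (⟨F (galTw M c p O σ⁻¹ x), galTw_mem_latLoc (p := p) σ (galTw_mem_latLoc (p := p) σ⁻¹ x.2)⟩ :
      latLoc M c O S a) = x := Subtype.ext hinv
  rw [e3, hinv] at h1
  linear_combination (norm := abel) h2 - h1

end Fermat.Agent.Auto
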