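import Fermat.Agent.Auto.Lat
import Fermat.Agent.DS.FrobConj
import Fermat.Agent.Deform.AbsIrred

/-!
An absolutely irreducible residual representation gives a residual system which is not Eisenstein.
-/

set_option autoImplicit false
set_option linter.unusedSectionVars false

noncomputable section

namespace Fermat.Agent.Auto

open IsLocalRing
open Fermat.Agent.Galois (GQ)
open Fermat.Agent.GalRep.Level (cycM)
open Fermat.Agent.Deform (Mat2 RHasMatrix TraceNondeg)

variable {p : ℕ} [Fact p.Prime] {O : Type} [CommRing O] [IsLocalRing O]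

theorem mul_mul_of_sq_zero {k : Type} [Field k] {N : Mat2 k} (hN : N * N = 0)
    (ht : N.trace = 0) (X : Mat2 k) : N * X * N = (N * X).trace • N := by
  have hd : N 1 1 = -N 0 0 := by
    rw [Matrix.trace_fin_two] at ht; linear_combination ht
  have h00 : N 0 0 * N 0 0 + N 0 1 * N 1 0 = 0 := by
    have := congrFun (congrFun hN 0) 0
    simpa [Matrix.mul_apply, Fin.sum_univ_two] using this
  ext i j
  fin_cases i <;> fin_cases j <;>
    simp [Matrix.mul_apply, Fin.sum_univ_two, Matrix.trace_fin_two, hd] <;>
    first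
      | ring1
      | linear_combination (X 0 0) * h00
      | linear_combination (X 1 1) * h00
      | linear_combination -(X 0 1) * h00
      | linear_combination -(X 1 0) * h00

/-- A representation whose restriction to a normal subgroup with abelian quotient has trivial
semisimplification does not span. -/
theorem false_of_unipotent {k G : Type} [Field k] [Group G] {r : G →* Mat2 k}
    (hnd : TraceNondeg r) (H : Set G) (hconj : ∀ g, ∀ h ∈ H, g * h * g⁻¹ ∈ H)
    (hmul : ∀ a ∈ H, ∀ b ∈ H, a * b ∈ H) (hcomm : ∀ a b : G, a * b * a⁻¹ * b⁻¹ ∈ H)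
    (htr : ∀ h ∈ H, (r h).trace = 2) (hdet : ∀ h ∈ H, (r h).det = 1) : False := by
  have hN : ∀ h ∈ H, r h = 1 := by
    intro h hh
    set N := r h - 1 with hNdef
    have htN : N.trace = 0 := by
      rw [hNdef, Matrix.trace_sub, htr h hh, Matrix.trace_one, Fintype.card_fin]; norm_num
    have hNN : N * N = 0 := by
      have hd := hdet h hh
      have ht := htr h hh
      rw [Matrix.det_fin_two] at hd
      rw [Matrix.trace_fin_two] at ht
      ext i j
      fin_cases i <;> fin_cases j <;>
        simp [hNdef, Matrix.mul_apply, Fin.sum_univ_two] <;>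
        first
          | linear_combination (r h 0 0) * ht - hd
          | linear_combination (r h 1 1) * ht - hd
          | linear_combination (r h 0 1) * ht
          | linear_combination (r h 1 0) * ht
    refine sub_eq_zero.mp (hnd N fun g => ?_)
    have hconjN : r (g * h * g⁻¹) = 1 + r g * N * r g⁻¹ := by
      rw [map_mul, map_mul, hNdef, mul_sub, sub_mul, mul_one, ← map_mul r g g⁻¹, mul_inv_cancel,
        map_one, add_sub_cancel]
    have h1 := htr _ (hmul _ hh _ (hconj g h hh))
    have h2 := htr _ (hconj g h hh)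
    rw [hconjN, Matrix.trace_add, Matrix.trace_one, Fintype.card_fin] at h2
    rw [map_mul, hconjN, show r h = 1 + N by rw [hNdef, add_sub_cancel], add_mul, one_mul,
      mul_add, mul_one, Matrix.trace_add, Matrix.trace_add, Matrix.trace_add, Matrix.trace_one,
      Fintype.card_fin, htN] at h1
    have h3 : (N * r g * N * r g⁻¹).trace = 0 := by
      rw [mul_assoc N (r g) N, mul_assoc N (r g * N)]
      linear_combination h1 - h2
    rw [mul_mul_of_sq_zero hNN htN, smul_mul_assoc, Matrix.trace_smul, smul_eq_mul] at h3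
    have hdi : (r g⁻¹).det ≠ 0 := fun h0 => by
      have := congrArg Matrix.det (map_mul r g g⁻¹)
      rw [mul_inv_cancel, map_one, Matrix.det_one, Matrix.det_mul, h0, mul_zero] at this
      exact one_ne_zero this
    have hadj : r g⁻¹ = (r g⁻¹).det • ((r g).trace • (1 : Mat2 k) - r g) := by
      have h4 : (r g⁻¹).adjugate = (r g⁻¹).det • r g := by
        have := congrArg ((r g⁻¹).adjugate * ·) (map_mul r g⁻¹ g)
        simp only [inv_mul_cancel, map_one, mul_one, ← mul_assoc, Matrix.adjugate_mul,
          Matrix.smul_mul, one_mul] at this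
        exact this
      have h5 : ∀ X : Mat2 k, X = X.adjugate.trace • (1 : Mat2 k) - X.adjugate := fun X => by
        ext i j
        fin_cases i <;> fin_cases j <;>
          simp [Matrix.adjugate_fin_two, Matrix.trace_fin_two]
      conv_lhs => rw [h5 (r g⁻¹), h4, Matrix.trace_smul, smul_assoc, ← smul_sub]
    rw [hadj, mul_smul_comm, mul_sub, mul_smul_comm, mul_one, Matrix.trace_smul, Matrix.trace_sub,
      Matrix.trace_smul, htN, smul_zero, zero_sub, smul_eq_mul, mul_neg, mul_neg, neg_eq_zero] at h3
    rcases mul_eq_zero.mp h3 with h6 | h6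
    · exact h6
    · exact (mul_eq_zero.mp h6).resolve_left hdi
  have hc : ∀ a b : G, r a * r b = r b * r a := fun a b => by
    rw [← map_mul r b a, show r a * r b = r (a * b * a⁻¹ * b⁻¹ * (b * a)) by
      rw [← map_mul]; congr 1; group, map_mul, hN _ (hcomm a b), one_mul]
  have hs : ∀ (a : G) (X : Mat2 k), X * r a = r a * X := fun a X => sub_eq_zero.mp (hnd _ fun g => by
    rw [sub_mul, Matrix.trace_sub, mul_assoc, hc a g, mul_assoc (r a), Matrix.trace_mul_comm (r a),
      mul_assoc, sub_self])
  have h0 := hnd (Matrix.single 0 1 (1 : k)) fun g => by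
    have h01 := congrFun (congrFun (hs g (Matrix.single 0 0 (1 : k))) 1) 0
    simp [Matrix.mul_apply, Fin.sum_univ_two, Matrix.single_apply] at h01
    simp [Matrix.trace_fin_two, Matrix.mul_apply, Fin.sum_univ_two, Matrix.single_apply, ← h01]
  simpa using congrFun (congrFun h0 0) 1

/-- An absolutely irreducible representation with the residual system is not Eisenstein. -/
theorem nonEis_of_absIrr (hp : (p : O) ∈ maximalIdeal O) {ρbar : ResidualGaloisRep (ResidueField O)}
    (habs : ρbar.IsAbsolutelyIrreducible) {S : Finset ℕ} {a : ℕ → O}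
    (hfrob : ∀ l : ℕ, l.Prime → l ∉ S → ∀ A : ValuationSubring (AlgebraicClosure ℚ),
      A.LiesOverPrime l → ∀ σ : GQ, A.IsFrobeniusAt σ l →
        LinearMap.charpoly (ρbar.ρ σ) = Polynomial.X ^ 2 -
          Polynomial.C (residue O (a l)) * Polynomial.X + Polynomial.C ((l : ResidueField O))) :
    NonEis S a := by
  intro L hL
  by_contra hcon
  push Not at hcon
  obtain ⟨r, hr⟩ := Deform.exists_rhasMatrix ρbar
  have hnd := hr.traceNondeg habs
  have : NeZero (L * p) := ⟨mul_ne_zero hL.ne' (Fact.out : p.Prime).ne_zero⟩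
  obtain ⟨F₁, hF₁, h1⟩ := ρbar.factorsThroughFiniteLevel
  obtain ⟨F₂, hF₂, h2⟩ := DS.exists_cycM_level (L * p)
  have : FiniteDimensional ℚ (F₁ ⊔ F₂ : IntermediateField ℚ (AlgebraicClosure ℚ)) :=
    IntermediateField.finiteDimensional_sup F₁ F₂
  have key : ∀ h : GQ, cycM (L * p) h = 1 → (r h).trace = 2 ∧ (r h).det = 1 := by
    intro h hh
    obtain ⟨l, hl, hlb, A, hA, σ, hσ, τ, hτ⟩ := DS.exists_frobenius_conj (F₁ ⊔ F₂)
      (S ∪ (L * p).primeFactors) h
    rw [Finset.mem_union, not_or] at hlb
    have hlM : ¬ l ∣ L * p := fun hd =>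
      hlb.2 (Nat.mem_primeFactors.mpr ⟨hl, hd, NeZero.ne _⟩)
    have e1 : ρbar.ρ (τ * σ * τ⁻¹) = ρbar.ρ h :=
      DS.eq_of_agree ρbar.ρ h1 fun x hx => hτ x (le_sup_left (b := F₂) hx)
    have e2 : cycM (L * p) σ = 1 := by
      rw [← hh, ← DS.eq_of_agree (cycM (L * p)) h2 fun x hx => hτ x (le_sup_right (a := F₁) hx),
        map_mul, map_mul, mul_right_comm, ← map_mul, mul_inv_cancel, map_one, one_mul]
    have h3 : ((l : ℕ) : ZMod (L * p)) = ((1 : ℕ) : ZMod (L * p)) := by
      rw [← DS.cycM_frobenius hl hA hlM hσ, e2, Units.val_one, Nat.cast_one]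
    rw [ZMod.natCast_eq_natCast_iff] at h3
    have hlp : (l : ResidueField O) = 1 := by
      have hp0 : (p : ResidueField O) = 0 := by
        rw [← map_natCast (residue O), residue_eq_zero_iff]; exact hp
      obtain ⟨m, hm⟩ := (Nat.modEq_iff_dvd.mp h3.of_mul_left)
      have : (((l : ℤ)) : ResidueField O) = 1 := by
        rw [show (l : ℤ) = 1 - (p : ℤ) * m by push_cast at hm ⊢; linarith]
        simp [hp0]
      simpa using this
    have ha : residue O (a l) = 2 := by
      have h4 := hcon l hl hlb.1 h3.of_mul_right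
      rw [← residue_ne_zero_iff_isUnit, not_not, map_sub, map_add, map_natCast, map_one, hlp,
        sub_eq_zero] at h4
      rw [h4]; norm_num
    obtain ⟨b, hb⟩ := hr
    have hcp := hfrob l hl hlb.1 A hA σ hσ
    rw [← LinearMap.charpoly_toMatrix _ b, hb, Matrix.charpoly_fin_two, ha, hlp] at hcp
    have ht := congrArg (fun P => Polynomial.coeff P 1) hcp
    have hd := congrArg (fun P => Polynomial.coeff P 0) hcp
    simp [Polynomial.coeff_X_pow, Polynomial.coeff_C, Polynomial.coeff_one] at ht hd
    have e3 : r h = r τ * r σ * r τ⁻¹ := by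
      rw [← map_mul, ← map_mul, ← hb h, ← e1, hb]
    have e4 : r τ⁻¹ * r τ = 1 := by rw [← map_mul, inv_mul_cancel, map_one]
    constructor
    · rw [e3, Matrix.trace_mul_comm, ← mul_assoc, e4, one_mul]
      exact ht
    · have e5 : (r τ).det * (r τ⁻¹).det = 1 := by
        rw [← Matrix.det_mul, ← map_mul, mul_inv_cancel, map_one, Matrix.det_one]
      rw [e3, Matrix.det_mul, Matrix.det_mul, mul_right_comm, e5, one_mul]
      exact hd
  exact false_of_unipotent hnd {h | cycM (L * p) h = 1}
    (fun g h hh => by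
      show cycM (L * p) (g * h * g⁻¹) = 1
      rw [map_mul, map_mul, show cycM (L * p) h = 1 from hh, mul_one, ← map_mul, mul_inv_cancel,
        map_one])
    (fun a ha b hb => by
      show cycM (L * p) (a * b) = 1
      rw [map_mul, show cycM (L * p) a = 1 from ha, show cycM (L * p) b = 1 from hb, mul_one])
    (fun a b => by
      show cycM (L * p) (a * b * a⁻¹ * b⁻¹) = 1
      rw [map_mul, map_mul, map_mul, map_inv, map_inv, mul_inv_eq_one, mul_inv_eq_iff_eq_mul]
      exact mul_comm _ _)
    (fun h hh => (key h hh).1) fun h hh => (key h hh).2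

end Fermat.Agent.Auto
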