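import Fermat.Agent.Auto.Qnew
import Fermat.Agent.Auto.LevelUp
import Fermat.Agent.Auto.Level.Piece
import Fermat.Agent.Auto.Level.NonEis

/-!
The rank of the residual part at level `Γ₀(N)` times Taylor-Wiles primes.
-/

set_option autoImplicit false
set_option linter.unusedSectionVars false
set_option linter.style.haveILetI false
set_option synthInstance.maxHeartbeats 400000

noncomputable section

namespace Fermat.Agent.Auto

open IsLocalRing CongruenceSubgroup
open Fermat.Agent.Galois (GQ)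

section Trace

variable {O : Type} [CommRing O] [IsLocalRing O] {T : Type} [CommRing T] [IsLocalRing T] [Algebra O T]
  [IsLocalHom (algebraMap O T)]

/-- The trace reduces to the trace of the residual representation. -/
theorem residue_trace (ρ : GaloisRepAdic T) (ρbar : ResidualGaloisRep (ResidueField O))
    (hres : ρ.residual.IsEquiv (ρbar.baseChangeAlong (ResidueField.map (algebraMap O T)))) (σ : GQ) :
    residue T (ρ.trace σ) =
      ResidueField.map (algebraMap O T) (LinearMap.trace (ResidueField O) ρbar.V (ρbar.ρ σ)) := by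
  obtain ⟨e⟩ := hres
  letI : Algebra (ResidueField O) (ResidueField T) :=
    (ResidueField.map (algebraMap O T)).toAlgebra
  have h3 : LinearMap.trace (ResidueField T) ρ.residual.V (ρ.residual.ρ σ) =
      residue T (ρ.trace σ) := LinearMap.trace_baseChange _ _
  have h4 : (ρbar.baseChangeAlong (ResidueField.map (algebraMap O T))).ρ σ =
      e.toLinearEquiv.conj (ρ.residual.ρ σ) := LinearMap.ext fun z => by
    rw [LinearEquiv.conj_apply_apply, e.map_apply, LinearEquiv.apply_symm_apply]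
  have h5 : LinearMap.trace (ResidueField T) _
      ((ρbar.baseChangeAlong (ResidueField.map (algebraMap O T))).ρ σ) =
        algebraMap (ResidueField O) (ResidueField T)
          (LinearMap.trace (ResidueField O) ρbar.V (ρbar.ρ σ)) := LinearMap.trace_baseChange _ _
  rw [h4, LinearMap.trace_conj', h3] at h5
  exact h5

end Trace

section Algebra

variable {O : Type} [CommRing O] [IsLocalRing O] {T : Type} [CommRing T] [Algebra O T]
  {L : Type} [AddCommGroup L] [Module O L] {V W : Submodule O L}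

/-- With `F² - t F + r = 0` and `t² - (r + 1)²` a unit, `relOp` is invertible on the part. -/
theorem mem_smul_top_of_relOp (hW : IsCompl V W) (Φ : T →ₐ[O] Module.End O V) (F : Module.End O L)
    (g g' : Module.End O V) (hg : ∀ y : V, ((g y : V) : L) = F y) (h1 : g * g' = 1) (h2 : g' * g = 1)
    (r : ℕ) (t : T) (hq : g * g + algebraMap O (Module.End O V) (r : O) = Φ t * g)
    (hu : IsUnit (t ^ 2 - (((r + 1) ^ 2 : ℕ) : T))) {x : L} (hx : x ∈ V)
    (hrel : relOp r F x ∈ maximalIdeal O • (⊤ : Submodule O L)) :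
    x ∈ maximalIdeal O • (⊤ : Submodule O L) := by
  have hcomm : g * Φ t = Φ t * g := by
    have h3 : g * (g * g + algebraMap O (Module.End O V) (r : O)) =
        (g * g + algebraMap O (Module.End O V) (r : O)) * g := by
      rw [mul_add, add_mul, mul_assoc, (Algebra.commutes (r : O) g).symm]
    rw [hq] at h3
    calc g * Φ t = g * (Φ t * g) * g' := by rw [mul_assoc, mul_assoc, h1, mul_one]
      _ = Φ t * g * g * g' := by rw [h3]
      _ = Φ t * g := by rw [mul_assoc, h1, mul_one]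
  obtain ⟨u, hu⟩ := hu
  have key : ((Φ (u : T) * (g * g)) ⟨x, hx⟩ : V).1 = relOp r F x := by
    have e : ∀ y : V, (F ^ 2 + (r : Module.End O L)) (y : L) =
        (((g * g + algebraMap O (Module.End O V) (r : O)) y : V) : L) := fun y => by
      rw [LinearMap.add_apply, pow_two, Module.End.mul_apply, Module.End.natCast_apply,
        LinearMap.add_apply, Submodule.coe_add, Module.End.mul_apply, hg, hg,
        Module.algebraMap_end_apply, Submodule.coe_smul, Nat.cast_smul_eq_nsmul]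
    have e2 : (((r + 1) ^ 2 : ℕ) : Module.End O L) ((F ^ 2) x) =
        ((((((r + 1) ^ 2 : ℕ) : T) |> Φ) * (g * g)) ⟨x, hx⟩ : V) := by
      rw [map_natCast, Module.End.mul_apply, Module.End.natCast_apply, Module.End.natCast_apply,
        Submodule.coe_smul_of_tower, Module.End.mul_apply, hg, hg, pow_two F, Module.End.mul_apply]
    have e1 : ((F ^ 2 + (r : Module.End O L)) ^ 2) x =
        (((Φ (t ^ 2) * (g * g)) ⟨x, hx⟩ : V) : L) := by
      have h0 : (F ^ 2 + (r : Module.End O L)) x = _ := e ⟨x, hx⟩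
      rw [pow_two (F ^ 2 + _), Module.End.mul_apply, h0, e, ← Module.End.mul_apply, hq, map_pow,
        pow_two, mul_assoc, mul_assoc (Φ t) (Φ t) (g * g), ← mul_assoc g (Φ t) g, hcomm, mul_assoc]
    rw [hu, map_sub, sub_mul, LinearMap.sub_apply, Submodule.coe_sub, ← e1, ← e2, relOp,
      LinearMap.sub_apply, Module.End.mul_apply]
  have h3 := mem_smul_top_of_isCompl hW _ (show ((Φ (u : T) * (g * g)) ⟨x, hx⟩ : V).1 ∈ _ by
    rw [key]; exact hrel)
  have h4 : (g' * g' * Φ (↑u⁻¹ : T)) ((Φ (u : T) * (g * g)) ⟨x, hx⟩) = ⟨x, hx⟩ := by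
    rw [← Module.End.mul_apply, mul_assoc (g' * g'), ← mul_assoc (Φ _), ← map_mul, Units.inv_mul,
      map_one, one_mul, mul_assoc g', ← mul_assoc g' g, h2, one_mul, h2, Module.End.one_apply]
  have h5 := Submodule.mem_map_of_mem (f := g' * g' * Φ (↑u⁻¹ : T)) h3
  rw [Submodule.map_smul'', h4] at h5
  have h7 := Submodule.mem_map_of_mem (f := V.subtype) (Submodule.smul_mono le_rfl le_top h5)
  rw [Submodule.map_smul''] at h7
  exact Submodule.smul_mono le_rfl le_top h7

end Algebra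

variable {p : ℕ} [Fact p.Prime] {O : Type} [CommRing O] [IsDomain O] [IsDiscreteValuationRing O]
  [IsAdicComplete (maximalIdeal O) O] [Finite (ResidueField O)]
  [Algebra ℤ_[p] O] [Module.Finite ℤ_[p] O] [CharZero O]
  {S : Finset ℕ} {a : ℕ → O}

/-- Residual eigenvalues outside more primes: the part grows. -/
theorem latLoc_mono {M : ℕ} [NeZero M] {Δ : Type} [CommGroup Δ] {c : (ZMod M)ˣ →* Δ} {S' : Finset ℕ}
    (h : S ⊆ S') : latLoc M c O S a ≤ latLoc M c O S' a := fun x hx i k => by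
  exact hx ⟨i.1, fun h' => i.2 (h h')⟩ k

/-- The traces of the residual representation. -/
theorem trace_residual_frobenius (ρbar : ResidualGaloisRep (ResidueField O)) {l : ℕ} {σ : GQ}
    (h : LinearMap.charpoly (ρbar.ρ σ) = Polynomial.X ^ 2 -
      Polynomial.C (residue O (a l)) * Polynomial.X + Polynomial.C ((l : ResidueField O))) :
    LinearMap.trace (ResidueField O) ρbar.V (ρbar.ρ σ) = residue O (a l) := by
  obtain ⟨r, b, hb⟩ := Deform.exists_rhasMatrix ρbar
  rw [← LinearMap.charpoly_toMatrix _ b, Matrix.charpoly_fin_two] at h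
  have h2 := congrArg (fun P => Polynomial.coeff P 1) h
  simp [Polynomial.coeff_X_pow, Polynomial.coeff_C] at h2
  rw [LinearMap.trace_eq_matrix_trace _ b, h2]

/-- No level raising at a prime `r ≡ 1` with distinct residual eigenvalues. -/
theorem hno_of_distinct (hp2 : p ≠ 2) (hp : (p : O) ∈ maximalIdeal O)
    (ρbar : ResidualGaloisRep (ResidueField O)) (habs : ρbar.IsAbsolutelyIrreducible)
    {S' : Finset ℕ} (hSS : S ⊆ S')
    (hfrob : ∀ l : ℕ, l.Prime → l ∉ S → ∀ A : ValuationSubring (AlgebraicClosure ℚ),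
      A.LiesOverPrime l → ∀ σ : GQ, A.IsFrobeniusAt σ l →
        LinearMap.charpoly (ρbar.ρ σ) = Polynomial.X ^ 2 -
          Polynomial.C (residue O (a l)) * Polynomial.X + Polynomial.C ((l : ResidueField O)))
    {M : ℕ} [NeZero M] (hpS : p ∈ S') (hMS : ∀ l : ℕ, l.Prime → l ∣ M → l ∈ S')
    {r : ℕ} (hr : r.Prime) (hrS : r ∉ S) (hrp : r ≠ p) (hr1 : r ≡ 1 [MOD p])
    (ha : residue O (a r) ^ 2 ≠ 4) (A : ValuationSubring (AlgebraicClosure ℚ))
    (hA : A.LiesOverPrime r) (σ : GQ) (hσ : A.IsFrobeniusAt σ r)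
    (x : Lat M (1 : (ZMod M)ˣ →* Unit) O) (hx : x ∈ latLoc M (1 : (ZMod M)ˣ →* Unit) O S' a)
    (hrel : relOp r (galLat M 1 p O σ) x ∈
      maximalIdeal O • (⊤ : Submodule O (Lat M (1 : (ZMod M)ˣ →* Unit) O))) :
    x ∈ maximalIdeal O • (⊤ : Submodule O (Lat M (1 : (ZMod M)ˣ →* Unit) O)) := by
  by_cases hne : latLoc M (1 : (ZMod M)ˣ →* Unit) O S' a = ⊥
  · rw [hne, Submodule.mem_bot] at hx
    rw [hx]; exact zero_mem _
  haveI : NeZero (M * 1) := ⟨by rw [mul_one]; exact NeZero.ne M⟩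
  obtain ⟨θ, H, Φ, hres, -, -, hquad⟩ := exists_levelRep (p := p) (D := 1) ρbar hp2 hp
    (fun g => ⟨0, Subsingleton.elim _ _⟩) (one_dvd M) squarefree_one (fun u _ => rfl) hpS hMS habs
    (fun l hl hlS => hfrob l hl fun h => hlS (hSS h)) hne
  have hgal : ∀ τ : GQ, galTw M (1 : (ZMod M)ˣ →* Unit) p O τ = galLat M 1 p O τ := fun τ => by
    show galLat M 1 p O τ * latDia M 1 O _ = _
    rw [latDia_eq_one rfl, mul_one]
  have hFV : ∀ (τ : GQ), ∀ y ∈ latLoc M (1 : (ZMod M)ˣ →* Unit) O S' a,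
      galLat M 1 p O τ y ∈ latLoc M (1 : (ZMod M)ˣ →* Unit) O S' a := fun τ y hy => by
    rw [← hgal]; exact galTw_mem_latLoc τ hy
  obtain ⟨W, hW⟩ := exists_isCompl_latLoc (M := M) (c := (1 : (ZMod M)ˣ →* Unit)) (S := S') (a := a)
  refine mem_smul_top_of_relOp hW Φ (galLat M 1 p O σ) ((galLat M 1 p O σ).restrict (hFV σ))
    ((galLat M 1 p O σ⁻¹).restrict (hFV σ⁻¹)) (fun y => rfl) ?_ ?_ r (H.ρ.trace σ) ?_ ?_ hx hrel
  · refine LinearMap.ext fun y => Subtype.ext ?_
    show galLat M 1 p O σ (galLat M 1 p O σ⁻¹ (y : Lat M (1 : (ZMod M)ˣ →* Unit) O)) =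
      (y : Lat M (1 : (ZMod M)ˣ →* Unit) O)
    rw [← Module.End.mul_apply, ← map_mul, mul_inv_cancel, map_one, Module.End.one_apply]
  · refine LinearMap.ext fun y => Subtype.ext ?_
    show galLat M 1 p O σ⁻¹ (galLat M 1 p O σ (y : Lat M (1 : (ZMod M)ˣ →* Unit) O)) =
      (y : Lat M (1 : (ZMod M)ˣ →* Unit) O)
    rw [← Module.End.mul_apply, ← map_mul, inv_mul_cancel, map_one, Module.End.one_apply]
  · refine LinearMap.ext fun y => Subtype.ext ?_
    have h := hquad σ y
    rw [cycO_frobenius hr hrp hA hσ] at h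
    simp only [hgal] at h
    show galLat M 1 p O σ (galLat M 1 p O σ y) + (r : O) • (y : Lat M (1 : (ZMod M)ˣ →* Unit) O) = _
    rw [sub_add_eq_add_sub, sub_eq_zero] at h
    exact h
  · rw [← residue_ne_zero_iff_isUnit, map_sub, map_pow, map_natCast,
      residue_trace H.ρ ρbar hres, trace_residual_frobenius ρbar (hfrob r hr hrS A hA σ hσ),
      ← map_pow, ← map_natCast (ResidueField.map (algebraMap O _)), ← map_sub,
      map_ne_zero_iff _ (RingHom.injective _), sub_ne_zero]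
    intro h
    apply ha
    rw [h]
    have hp0 : (p : ResidueField O) = 0 := by
      rw [← map_natCast (residue O), residue_eq_zero_iff]; exact hp
    obtain ⟨m, hm⟩ := Nat.modEq_iff_dvd.mp hr1
    have : ((r : ℤ) : ResidueField O) = 1 := by
      rw [show (r : ℤ) = 1 - (p : ℤ) * m by push_cast at hm ⊢; linarith]
      simp [hp0]
    push_cast at this ⊢
    rw [this]; norm_num

/-- The rank grows at most by a factor two at each Taylor-Wiles prime. -/
theorem finrank_latLoc_prod_le (hp5 : 5 ≤ p) (hp : (p : O) ∈ maximalIdeal O)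
    (ρbar : ResidualGaloisRep (ResidueField O)) (habs : ρbar.IsAbsolutelyIrreducible)
    {S' : Finset ℕ} (hSS : S ⊆ S')
    (hfrob : ∀ l : ℕ, l.Prime → l ∉ S → ∀ A : ValuationSubring (AlgebraicClosure ℚ),
      A.LiesOverPrime l → ∀ σ : GQ, A.IsFrobeniusAt σ l →
        LinearMap.charpoly (ρbar.ρ σ) = Polynomial.X ^ 2 -
          Polynomial.C (residue O (a l)) * Polynomial.X + Polynomial.C ((l : ResidueField O)))
    {N : ℕ} [NeZero N] (hpS : p ∈ S) (hNS : ∀ l : ℕ, l.Prime → l ∣ N → l ∈ S) :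
    ∀ Q : Finset ℕ, Q ⊆ S' → (∀ r ∈ Q, r.Prime ∧ r ∉ S ∧ r ≡ 1 [MOD p] ∧ residue O (a r) ^ 2 ≠ 4) →
      ∀ [NeZero (N * ∏ r ∈ Q, r)],
        Module.finrank O (latLoc (N * ∏ r ∈ Q, r) (1 : (ZMod (N * ∏ r ∈ Q, r))ˣ →* Unit) O S' a) ≤
          2 ^ Q.card * Module.finrank O (latLoc N (1 : (ZMod N)ˣ →* Unit) O S' a) := by
  classical
  intro Q
  induction Q using Finset.induction_on with
  | empty =>
    intro _ _ _
    simp only [Finset.prod_empty, Finset.card_empty, pow_zero, one_mul]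
    have key : ∀ M : ℕ, M = N → ∀ [NeZero M],
        Module.finrank O (latLoc M (1 : (ZMod M)ˣ →* Unit) O S' a) =
          Module.finrank O (latLoc N (1 : (ZMod N)ˣ →* Unit) O S' a) := fun M h _ => by subst h; rfl
    exact (key _ (mul_one N)).le
  | insert r Q hrQ ih =>
    intro hsub hQ _
    obtain ⟨hr, hrS, hr1, har⟩ := hQ r (Finset.mem_insert_self r Q)
    have hrp : r ≠ p := fun h => hrS (h ▸ hpS)
    have hQ' : ∀ l ∈ Q, l.Prime ∧ l ∉ S ∧ l ≡ 1 [MOD p] ∧ residue O (a l) ^ 2 ≠ 4 := fun l hl =>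
      hQ l (Finset.mem_insert_of_mem hl)
    set P := N * ∏ l ∈ Q, l with hP
    haveI : NeZero P :=
      ⟨mul_ne_zero (NeZero.ne N) (Finset.prod_ne_zero_iff.mpr fun l hl => (hQ' l hl).1.ne_zero)⟩
    have hrP : ¬ r ∣ P := fun h => by
      rcases hr.dvd_mul.mp h with h | h
      · exact hrS (hNS r hr h)
      · obtain ⟨l, hl, hrl⟩ := (Prime.dvd_finsetProd_iff hr.prime _).mp h
        exact hrQ (((Nat.prime_dvd_prime_iff_eq hr (hQ' l hl).1).mp hrl) ▸ hl)
    haveI : NeZero (P * r) := ⟨mul_ne_zero (NeZero.ne P) hr.ne_zero⟩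
    have hPS : ∀ l : ℕ, l.Prime → l ∣ P → l ∈ S' := fun l hl h => by
      rcases hl.dvd_mul.mp h with h | h
      · exact hSS (hNS l hl h)
      · obtain ⟨l', hl', hll⟩ := (Prime.dvd_finsetProd_iff hl.prime _).mp h
        exact hsub (Finset.mem_insert_of_mem (((Nat.prime_dvd_prime_iff_eq hl (hQ' l' hl').1).mp hll) ▸ hl'))
    have hPrS : ∀ l : ℕ, l.Prime → l ∣ P * r → l ∈ S' := fun l hl h => by
      rcases hl.dvd_mul.mp h with h | h
      · exact hPS l hl h
      · exact hsub (((Nat.prime_dvd_prime_iff_eq hl hr).mp h) ▸ Finset.mem_insert_self r Q)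
    have hne : NonEis S' a := nonEis_of_absIrr hp habs fun l hl hlS => hfrob l hl fun h => hlS (hSS h)
    have hstep := finrank_latLoc_mul_le (M := P) (S := S') (a := a) r hr hrP hrp hp5 (hSS hpS)
      (hsub (Finset.mem_insert_self r Q)) hPS hne ρbar habs (fun l hl hlS => hfrob l hl fun h => hlS (hSS h))
      fun A hA σ hσ x hx hrel =>
        hno_of_distinct (by omega) hp ρbar habs hSS hfrob (hSS hpS) hPrS hr hrS hrp hr1 har A hA σ hσ
          x hx hrel
    have ih' := ih ((Finset.subset_insert r Q).trans hsub) hQ'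
    have key : ∀ M : ℕ, M = P * r → ∀ [NeZero M],
        Module.finrank O (latLoc M (1 : (ZMod M)ˣ →* Unit) O S' a) =
          Module.finrank O (latLoc (P * r) (1 : (ZMod (P * r))ˣ →* Unit) O S' a) :=
      fun M h _ => by subst h; rfl
    rw [key _ (by rw [hP, Finset.prod_insert hrQ]; ring), Finset.card_insert_of_notMem hrQ,
      pow_succ', mul_assoc 2 (2 ^ Q.card)]
    exact hstep.trans (Nat.mul_le_mul_left 2 ih')

/-- Nothing lives at a level with no residual eigen-system. -/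
theorem latLoc_eq_bot_of_no_theta (hp2 : p ≠ 2) (hp : (p : O) ∈ maximalIdeal O)
    (ρbar : ResidualGaloisRep (ResidueField O)) (habs : ρbar.IsAbsolutelyIrreducible)
    {M : ℕ} [NeZero M] (hpS : p ∈ S) (hMS : ∀ l : ℕ, l.Prime → l ∣ M → l ∈ S)
    (hfrob : ∀ l : ℕ, l.Prime → l ∉ S → ∀ A : ValuationSubring (AlgebraicClosure ℚ),
      A.LiesOverPrime l → ∀ σ : GQ, A.IsFrobeniusAt σ l →
        LinearMap.charpoly (ρbar.ρ σ) = Polynomial.X ^ 2 -
          Polynomial.C (residue O (a l)) * Polynomial.X + Polynomial.C ((l : ResidueField O)))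
    (hnot : ∀ θ : CuspForm.heckeAlgebra M 2 (↑S : Set ℕ) →+* ResidueField O,
      ∃ (l : ℕ) (hl : l.Prime) (hlM : ¬ l ∣ M) (hlS : l ∉ (↑S : Set ℕ)),
        θ (CuspForm.heckeAlgebra.T hl hlM hlS) ≠ residue O (a l)) :
    latLoc M (1 : (ZMod M)ˣ →* Unit) O S a = ⊥ := by
  by_contra hne
  haveI : NeZero (M * 1) := ⟨by rw [mul_one]; exact NeZero.ne M⟩
  obtain ⟨θ, H, Φ, hres, -, -⟩ := exists_levelRep (p := p) (D := 1) ρbar hp2 hp
    (fun g => ⟨0, Subsingleton.elim _ _⟩) (one_dvd M) squarefree_one (fun u _ => rfl) hpS hMS habs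
    hfrob hne
  have hval : ∀ (l : ℕ) (hl : l.Prime) (hlM : ¬ l ∣ M * 1) (hlS : l ∉ (↑S : Set ℕ)),
      θ (CuspForm.heckeAlgebra.T hl hlM hlS) = residue O (a l) := by
    intro l hl hlM hlS
    obtain ⟨A, hA⟩ := Galois.exists_liesOverPrime hl
    obtain ⟨σ, hσ⟩ := Galois.exists_isFrobeniusAt hl hA
    have h1 := residue_trace H.ρ ρbar hres σ
    rw [trace_residual_frobenius ρbar (hfrob l hl hlS A hA σ hσ)] at h1
    obtain ⟨r, b, hb⟩ := Deform.exists_hasMatrix H.ρ
    have h2 := H.charpoly_frob l hl hlM hlS A hA σ hσ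
    rw [← LinearMap.charpoly_toMatrix _ b, Matrix.charpoly_fin_two] at h2
    have h3 := congrArg (fun P => Polynomial.coeff P 1) h2
    simp [Polynomial.coeff_X_pow, Polynomial.coeff_C] at h3
    rw [GaloisRepAdic.trace, LinearMap.trace_eq_matrix_trace _ b, h3, H.residue_π] at h1
    exact RingHom.injective _ h1
  have key : ∀ M' : ℕ, M' = M → ∀ [NeZero M'] (θ' : CuspForm.heckeAlgebra M' 2 (↑S : Set ℕ) →+* ResidueField O),
      (∀ (l : ℕ) (hl : l.Prime) (hlM : ¬ l ∣ M') (hlS : l ∉ (↑S : Set ℕ)),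
        θ' (CuspForm.heckeAlgebra.T hl hlM hlS) = residue O (a l)) → False := by
    intro M' h _ θ' hθ'
    subst h
    obtain ⟨l, hl, hlM, hlS, hneq⟩ := hnot θ'
    exact hneq (hθ' l hl hlM hlS)
  exact key _ (mul_one M) θ hval

end Fermat.Agent.Auto
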