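import Fermat.Agent.Auto.Level.Twisted
import Fermat.Agent.Auto.Level.Inertia
import Fermat.Agent.Auto.Level.Rank

/-!
The part of the residual lattice where the diamond operators of one factor act by a character.
-/

set_option autoImplicit false
set_option linter.unusedSectionVars false
set_option linter.style.haveILetI false
set_option synthInstance.maxHeartbeats 400000

noncomputable section

namespace Fermat.Agent.Auto

open IsLocalRing CongruenceSubgroup
open Fermat.Agent.Galois (GQ)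
open Fermat.Agent.GalRep.Level (cycM)

/-- `relOp` through the quadratic relation. -/
theorem relOp_eq_of_quadratic {O T L : Type} [CommRing O] [CommRing T] [Algebra O T]
    [AddCommGroup L] [Module O L] {V : Submodule O L} (Φ : T →ₐ[O] Module.End O V)
    (F F' : Module.End O L) (hF : ∀ x ∈ V, F x ∈ V) (hF' : ∀ x ∈ V, F' x ∈ V) (hinv : ∀ x, F (F' x) = x)
    (r : ℕ) (t : T) (hq : ∀ y : V, F (F y) - ((Φ t ⟨F y, hF y y.2⟩ : V) : L) + (r : O) • (y : L) = 0)
    (v : V) : relOp r F (F' (F' (v : L))) =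
      ((Φ (t ^ 2 - (((r + 1) ^ 2 : ℕ) : T)) v : V) : L) := by
  have hq' : ∀ y : V, F (F y) + (r : O) • (y : L) = ((Φ t ⟨F y, hF y y.2⟩ : V) : L) := fun y => by
    have := hq y
    rwa [sub_add_eq_add_sub, sub_eq_zero] at this
  have hcomm : ∀ y : V, F ((Φ t y : V) : L) = ((Φ t ⟨F y, hF y y.2⟩ : V) : L) := fun y => by
    have h3 := hq' ⟨F' y, hF' y y.2⟩
    have e4 : (⟨F (F' (y : L)), hF _ (hF' y y.2)⟩ : V) = y := Subtype.ext (hinv _)
    simp only [hinv] at h3
    rw [← h3, ← hq' y, map_add, map_smul, hinv]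
  have eA : ∀ y : V, (F ^ 2 + (r : Module.End O L)) (y : L) = ((Φ t ⟨F y, hF y y.2⟩ : V) : L) :=
    fun y => by
    rw [← hq' y, LinearMap.add_apply, pow_two, Module.End.mul_apply, Module.End.natCast_apply,
      Nat.cast_smul_eq_nsmul]
  have e2 : (F ^ 2) (F' (F' (v : L))) = v := by
    rw [pow_two, Module.End.mul_apply, hinv, hinv]
  have eW : (F ^ 2 + (r : Module.End O L)) (F' (F' (v : L))) =
      ((Φ t ⟨F (F' (F' (v : L))), hF _ (hF' _ (hF' v v.2))⟩ : V) : L) :=
    eA ⟨_, hF' _ (hF' v v.2)⟩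
  rw [relOp, LinearMap.sub_apply, Module.End.mul_apply, e2, pow_two (F ^ 2 + _),
    Module.End.mul_apply, eW, eA, map_sub, LinearMap.sub_apply, Submodule.coe_sub, map_natCast,
    Module.End.natCast_apply, Module.End.natCast_apply, Submodule.coe_smul_of_tower]
  congr 1
  rw [pow_two t, map_mul, Module.End.mul_apply]
  refine congrArg (fun z => ((Φ t z : V) : L)) (Subtype.ext ?_)
  show F ((Φ t ⟨F (F' (F' (v : L))), _⟩ : V) : L) = _
  rw [hcomm]
  refine congrArg (fun z => ((Φ t z : V) : L)) (Subtype.ext ?_)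
  show F (F (F' (F' (v : L)))) = (v : L)
  rw [hinv, hinv]

section Chi

variable {p : ℕ} [Fact p.Prime] {O : Type} [CommRing O] [IsDomain O] [IsDiscreteValuationRing O]
  [IsAdicComplete (maximalIdeal O) O] [Finite (ResidueField O)]
  [Algebra ℤ_[p] O] [Module.Finite ℤ_[p] O] [CharZero O]
  {M : ℕ} [NeZero M] {C B : Type} [CommGroup C] [Fintype C] [CommGroup B] [Fintype B]
  {c : (ZMod M)ˣ →* C × B} (hc : Function.Surjective c) {S : Finset ℕ} {a : ℕ → O}

variable (O) in
/-- The action of the quotient group on the lattice. -/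
def latAct : C × B →* Module.End O (Lat M c O) where
  toFun := latDelta M c O hc
  map_one' := latDia_eq_one (by rw [Function.surjInv_eq hc])
  map_mul' x y := by
    show latDia M c O _ = latDia M c O _ * latDia M c O _
    rw [← latDia_mul]
    refine latDia_eq_of_c ?_
    rw [map_mul, Function.surjInv_eq hc, Function.surjInv_eq hc, Function.surjInv_eq hc]

theorem latDia_eq_latAct (d : (ZMod M)ˣ) : latDia M c O d = latAct O hc (c d) :=
  latDia_eq_of_c (by rw [Function.surjInv_eq hc])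

theorem latAct_apply (x : C × B) :
    latAct O hc x = latDia M c O (Function.surjInv hc x) := rfl

theorem latAct_mem (x : C × B) {v : Lat M c O} (hv : v ∈ latLoc M c O S a) :
    latAct O hc x v ∈ latLoc M c O S a :=
  latDia_mem_part _ hv

variable (O S a) in
/-- The part where the first factor acts by `χ`. -/
def chiLoc (χ : C →* Oˣ) : Submodule O (Lat M c O) :=
  chiPart (latAct O hc) χ (latLoc M c O S a)

variable (χ : C →* Oˣ)

theorem chiLoc_le : chiLoc O hc S a χ ≤ latLoc M c O S a := fun _ h => h.1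

theorem mem_chiLoc_of_commute (R : Module.End O (Lat M c O))
    (hR : ∀ x, Commute R (latAct O hc x)) (hV : ∀ v ∈ latLoc M c O S a, R v ∈ latLoc M c O S a)
    {v : Lat M c O} (hv : v ∈ chiLoc O hc S a χ) : R v ∈ chiLoc O hc S a χ :=
  ⟨hV v hv.1, fun u => by
    rw [← Module.End.mul_apply, ← (hR (u, 1)).eq, Module.End.mul_apply, hv.2, map_smul]⟩

theorem latAct_mem_chiLoc (x : C × B) {v : Lat M c O} (hv : v ∈ chiLoc O hc S a χ) :
    latAct O hc x v ∈ chiLoc O hc S a χ :=
  mem_chiLoc_of_commute hc χ _ (fun _ => (Commute.all x _).map (latAct O hc))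
    (fun _ => latAct_mem hc x) hv

/-- Divisibility inside the part can be tested in the lattice. -/
theorem mem_smul_chiLoc {v : chiLoc O hc S a χ}
    (hv : (v : Lat M c O) ∈ maximalIdeal O • (⊤ : Submodule O (Lat M c O))) :
    v ∈ maximalIdeal O • (⊤ : Submodule O (chiLoc O hc S a χ)) := by
  obtain ⟨W, hW⟩ := exists_isCompl_latLoc (M := M) (c := c) (S := S) (a := a)
  have h1 := mem_smul_top_of_isCompl hW _ (x := ⟨v, v.2.1⟩) hv
  obtain ⟨ϖ, hϖ⟩ := IsDiscreteValuationRing.exists_irreducible O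
  rw [hϖ.maximalIdeal_eq, Submodule.ideal_span_singleton_smul] at h1 ⊢
  obtain ⟨y, -, hy⟩ := h1
  have hy' : ϖ • (y : Lat M c O) = (v : Lat M c O) := congrArg Subtype.val hy
  have hy2 : (y : Lat M c O) ∈ chiLoc O hc S a χ := ⟨y.2, fun u => by
    have h := v.2.2 u
    rw [← hy', map_smul, smul_comm (χ u : O) ϖ] at h
    exact smul_right_injective (Lat M c O) hϖ.ne_zero h⟩
  exact ⟨⟨y, hy2⟩, trivial, Subtype.ext hy'⟩

/-- The action of the second factor. -/
def chiDia : B →* Module.End O (chiLoc O hc S a χ) where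
  toFun d := (latAct O hc (1, d)).restrict fun _ hv => latAct_mem_chiLoc hc χ _ hv
  map_one' := LinearMap.ext fun v => Subtype.ext (by
    show latAct O hc (1, 1) (v : Lat M c O) = (v : Lat M c O)
    rw [show ((1, 1) : C × B) = 1 from rfl, map_one, Module.End.one_apply])
  map_mul' d e := LinearMap.ext fun v => Subtype.ext (by
    show latAct O hc (1, d * e) (v : Lat M c O) =
      latAct O hc (1, d) (latAct O hc (1, e) (v : Lat M c O))
    rw [← Module.End.mul_apply, ← map_mul, Prod.mk_mul_mk, one_mul])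

theorem chiDia_apply (d : B) (v : chiLoc O hc S a χ) :
    ((chiDia hc χ d v : chiLoc O hc S a χ) : Lat M c O) = latAct O hc (1, d) v := rfl

variable {T : Type} [CommRing T] [Algebra O T] (Φ : T →ₐ[O] Module.End O (latLoc M c O S a))
  (hΦ : ∀ (d : (ZMod M)ˣ) t (x : latLoc M c O S a),
    latDia M c O d ((Φ t x : latLoc M c O S a) : Lat M c O) =
      (Φ t ⟨latDia M c O d x, latDia_mem_part d x.2⟩ : latLoc M c O S a))

include hΦ in
theorem hPhi_mem (t : T) (v : chiLoc O hc S a χ) :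
    ((Φ t ⟨v, v.2.1⟩ : latLoc M c O S a) : Lat M c O) ∈ chiLoc O hc S a χ := by
  refine ⟨(Φ t ⟨v, v.2.1⟩).2, fun u => ?_⟩
  rw [latAct_apply, hΦ]
  have e : (⟨latDia M c O (Function.surjInv hc (u, 1)) v, latDia_mem_part _ v.2.1⟩ :
      latLoc M c O S a) = (χ u : O) • (⟨v, v.2.1⟩ : latLoc M c O S a) := Subtype.ext (v.2.2 u)
  exact (congrArg (fun z => ((Φ t z : latLoc M c O S a) : Lat M c O)) e).trans
    (by rw [map_smul, Submodule.coe_smul])

/-- An element of the Hecke algebra acting on the part. -/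
def chiAct (t : T) : Module.End O (chiLoc O hc S a χ) :=
  LinearMap.codRestrict (chiLoc O hc S a χ)
    ((latLoc M c O S a).subtype ∘ₗ (Φ t : latLoc M c O S a →ₗ[O] latLoc M c O S a) ∘ₗ
      Submodule.inclusion (chiLoc_le hc χ))
    fun v => hPhi_mem hc χ Φ hΦ t v

theorem chiAct_apply (t : T) (v : chiLoc O hc S a χ) :
    ((chiAct hc χ Φ hΦ t v : chiLoc O hc S a χ) : Lat M c O) =
      (Φ t ⟨v, v.2.1⟩ : latLoc M c O S a) := rfl

theorem chiAct_ext {f g : Module.End O (chiLoc O hc S a χ)}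
    (h : ∀ v, ((f v : chiLoc O hc S a χ) : Lat M c O) = ((g v : chiLoc O hc S a χ) : Lat M c O)) :
    f = g :=
  LinearMap.ext fun v => Subtype.ext (h v)

theorem chiAct_one : chiAct hc χ Φ hΦ 1 = 1 := chiAct_ext hc χ fun v => by
  rw [chiAct_apply, map_one]; rfl

theorem chiAct_mul (t s : T) :
    chiAct hc χ Φ hΦ (t * s) = chiAct hc χ Φ hΦ t * chiAct hc χ Φ hΦ s :=
  chiAct_ext hc χ fun v => by
    rw [chiAct_apply, map_mul]; rfl

theorem chiAct_add (t s : T) :
    chiAct hc χ Φ hΦ (t + s) = chiAct hc χ Φ hΦ t + chiAct hc χ Φ hΦ s :=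
  chiAct_ext hc χ fun v => by
    rw [chiAct_apply, map_add]; rfl

theorem chiAct_algebraMap (r : O) :
    chiAct hc χ Φ hΦ (algebraMap O T r) = algebraMap O _ r :=
  chiAct_ext hc χ fun v => by
    rw [chiAct_apply, AlgHom.commutes]; rfl

/-- The Hecke algebra acting on the part. -/
def chiAlgHom : T →ₐ[O] Module.End O (chiLoc O hc S a χ) where
  toFun := chiAct hc χ Φ hΦ
  map_one' := chiAct_one hc χ Φ hΦ
  map_mul' := chiAct_mul hc χ Φ hΦ
  map_zero' := by
    rw [← map_zero (algebraMap O T), chiAct_algebraMap, map_zero]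
  map_add' := chiAct_add hc χ Φ hΦ
  commutes' := chiAct_algebraMap hc χ Φ hΦ

theorem chiAlgHom_apply (t : T) (v : chiLoc O hc S a χ) :
    ((chiAlgHom hc χ Φ hΦ t v : chiLoc O hc S a χ) : Lat M c O) =
      (Φ t ⟨v, v.2.1⟩ : latLoc M c O S a) := rfl

theorem chiDia_commute (d : B) (t : T) :
    Commute (chiDia hc χ d) (chiAlgHom hc χ Φ hΦ t) := LinearMap.ext fun v => Subtype.ext (by
  show latAct O hc (1, d) ((Φ t ⟨v, v.2.1⟩ : latLoc M c O S a) : Lat M c O) =
    (Φ t ⟨latAct O hc (1, d) v, latAct_mem hc _ v.2.1⟩ : latLoc M c O S a)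
  exact hΦ _ t ⟨v, v.2.1⟩)

/-- Freeness over the group ring of the second factor. -/
theorem exists_chiLoc_basis {n : ℕ} {b : Fin n → Lat M c O} (hb : ∀ i, b i ∈ latLoc M c O S a)
    (hbasis : ∀ x ∈ latLoc M c O S a, ∃! f : Fin n → C × B → O,
      x = ∑ i, ∑ u, f i u • latDelta M c O hc u (b i)) :
    ∃ b' : Fin n → chiLoc O hc S a χ, ∀ v : chiLoc O hc S a χ,
      ∃! f : Fin n → B → O, v = ∑ i, ∑ x, f i x • chiDia hc χ x (b' i) := by
  refine ⟨fun i => ⟨_, chiNorm_mem (latAct O hc) χ (fun g x => latAct_mem hc g) (hb i)⟩, fun v => ?_⟩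
  obtain ⟨f, hf, hu⟩ := chiPart_basis (latAct O hc) χ (fun g x => latAct_mem hc g) hb hbasis v.2
  refine ⟨f, Subtype.ext ?_, fun g hg => hu g ?_⟩
  · simp only [Submodule.coe_sum, Submodule.coe_smul, chiDia_apply]
    exact hf
  · have := congrArg Subtype.val hg
    simp only [Submodule.coe_sum, Submodule.coe_smul, chiDia_apply] at this
    exact this

/-- The trace of inertia on the part. -/
theorem chi_inertia (t : T) (u : (ZMod M)ˣ) (x : C) (y : B) (hu : c u = (x, y))
    (h : ∀ v : latLoc M c O S a, ((Φ t v : latLoc M c O S a) : Lat M c O) =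
      latDia M c O u v + latDia M c O u⁻¹ v) :
    chiAlgHom hc χ Φ hΦ t = (χ x : O) • chiDia hc χ y + (((χ x)⁻¹ : Oˣ) : O) • chiDia hc χ y⁻¹ := by
  refine LinearMap.ext fun v => Subtype.ext ?_
  rw [chiAlgHom_apply, h, latDia_eq_latAct hc, latDia_eq_latAct hc, map_inv, hu]
  show latAct O hc (x, y) (v : Lat M c O) + latAct O hc (x, y)⁻¹ (v : Lat M c O) =
    (χ x : O) • latAct O hc (1, y) (v : Lat M c O) +
      (((χ x)⁻¹ : Oˣ) : O) • latAct O hc (1, y⁻¹) (v : Lat M c O)
  have key : ∀ (x' : C) (y' : B), latAct O hc (x', y') (v : Lat M c O) =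
      (χ x' : O) • latAct O hc (1, y') (v : Lat M c O) := fun x' y' => by
    rw [← (latAct_mem_chiLoc hc χ (1, y') v.2).2 x', ← Module.End.mul_apply, ← map_mul,
      Prod.mk_mul_mk, mul_one, one_mul]
  rw [Prod.inv_mk, key x y, key x⁻¹ y⁻¹, map_inv]

/-- The relation at a prime where the norms to the level of the second factor are killed. -/
theorem chi_qnew (hres : ∀ u, ((χ u)⁻¹ : Oˣ).1 - 1 ∈ maximalIdeal O) {n : ℕ} {b : Fin n → Lat M c O}
    (hb : ∀ i, b i ∈ latLoc M c O S a)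
    (hbasis : ∀ x ∈ latLoc M c O S a, ∃! f : Fin n → C × B → O,
      x = ∑ i, ∑ u, f i u • latDelta M c O hc u (b i))
    (q : ℕ) (σ : GQ) (t : T)
    (hquad : ∀ x : latLoc M c O S a, galTw M c p O σ (galTw M c p O σ x) -
      (Φ t ⟨galTw M c p O σ x, galTw_mem_latLoc σ x.2⟩ : latLoc M c O S a) +
        (q : O) • (x : Lat M c O) = 0)
    (hnorm : ∀ x ∈ latLoc M c O S a, relOp q (galTw M c p O σ) (cNorm (latAct O hc) x) = 0)
    (v : chiLoc O hc S a χ) :
    chiAlgHom hc χ Φ hΦ (t ^ 2 - (((q + 1) ^ 2 : ℕ) : T)) v ∈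
      maximalIdeal O • (⊤ : Submodule O (chiLoc O hc S a χ)) := by
  set F := galTw M c p O σ with hF
  set R := relOp q F with hR
  have hFact : ∀ (τ : GQ) x, Commute (galTw M c p O τ) (latAct O hc x) := fun τ x => galTw_latDia τ _
  have hRact : ∀ x, Commute R (latAct O hc x) := fun x =>
    ((((hFact σ x).pow_left 2).add_left (Nat.cast_commute _ _)).pow_left 2).sub_left
      ((Nat.cast_commute _ _).mul_left ((hFact σ x).pow_left 2))
  have hall : ∀ w ∈ chiLoc O hc S a χ, R w ∈ maximalIdeal O • (⊤ : Submodule O (Lat M c O)) := by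
    intro w hw
    obtain ⟨z, hz, rfl⟩ := exists_chiNorm_eq (latAct O hc) χ (fun g x => latAct_mem hc g) hb hbasis hw
    have h0 : cNorm (latAct O hc) (R z) = 0 := by
      rw [← Module.End.mul_apply, ← (commute_cNorm (latAct O hc) hRact).eq, Module.End.mul_apply]
      exact hnorm z hz
    rw [← Module.End.mul_apply, (commute_chiNorm (latAct O hc) χ hRact).eq, Module.End.mul_apply,
      ← sub_zero (chiNorm (latAct O hc) χ (R z)), ← h0]
    exact chiNorm_sub_cNorm_mem (latAct O hc) χ (maximalIdeal O) hres (R z)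
  -- substitute v = F F w
  have hw : galTw M c p O σ⁻¹ (galTw M c p O σ⁻¹ (v : Lat M c O)) ∈ chiLoc O hc S a χ :=
    mem_chiLoc_of_commute hc χ _ (hFact σ⁻¹) (fun _ h => galTw_mem_latLoc σ⁻¹ h)
      (mem_chiLoc_of_commute hc χ _ (hFact σ⁻¹) (fun _ h => galTw_mem_latLoc σ⁻¹ h) v.2)
  refine mem_smul_chiLoc hc χ ?_
  rw [chiAlgHom_apply]
  have h1 := hall _ hw
  rw [← relOp_eq_of_quadratic Φ F (galTw M c p O σ⁻¹) (fun x hx => galTw_mem_latLoc σ hx)
    (fun x hx => galTw_mem_latLoc σ⁻¹ hx) (fun y => by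
      rw [hF, ← Module.End.mul_apply, ← map_mul, mul_inv_cancel, map_one, Module.End.one_apply])
    q t hquad ⟨v, v.2.1⟩]
  exact h1

end Chi

end Fermat.Agent.Auto
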