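import Fermat.Agent.Auto.Level.Piece
import Fermat.Agent.Auto.Level.Rank
import Fermat.Agent.S31

/-!
Consequences of the residual setting used at every level: the residual representation is unramified
outside `S`; determinants and traces of the representations over the localised Hecke algebras.
-/

set_option autoImplicit false
set_option linter.unusedSectionVars false
set_option linter.style.haveILetI false
set_option synthInstance.maxHeartbeats 400000

noncomputable section

namespace Fermat.Agent.Auto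

open IsLocalRing CongruenceSubgroup CuspForm
open Fermat.Agent.Galois (GQ)

theorem squarefree_prod_primes (s : Finset ℕ) (hs : ∀ l ∈ s, l.Prime) :
    Squarefree (∏ l ∈ s, l) := by
  classical
  induction s using Finset.induction_on with
  | empty => simp
  | insert r s hr ih =>
    have hs' : ∀ l ∈ s, l.Prime := fun l hl => hs l (Finset.mem_insert_of_mem hl)
    rw [Finset.prod_insert hr, Nat.squarefree_mul_iff]
    exact ⟨Nat.Coprime.prod_right fun l hl =>
      (Nat.coprime_primes (hs r (Finset.mem_insert_self r s)) (hs' l hl)).mpr fun e => hr (e ▸ hl),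
      (hs r (Finset.mem_insert_self r s)).squarefree, ih hs'⟩

/-- An endomorphism trivial after an extension of fields is trivial. -/
theorem eq_one_of_baseChangeAlong {k k' : Type} [Field k] [Field k'] (ψ : k →+* k')
    (ρ : ResidualGaloisRep k) {σ : GQ} (h : (ρ.baseChangeAlong ψ).ρ σ = 1) : ρ.ρ σ = 1 := by
  obtain ⟨r, hr⟩ := Deform.exists_rhasMatrix ρ
  obtain ⟨b', hb'⟩ := hr.baseChangeAlong ψ
  obtain ⟨b, hb⟩ := hr
  have h1 := hb' σ
  rw [h, LinearMap.toMatrix_one] at h1
  have h2 : r σ = 1 := by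
    ext i j
    apply ψ.injective
    have h3 := congrFun (congrFun h1.symm i) j
    rw [MonoidHom.comp_apply, Deform.mapHom_apply, Matrix.map_apply] at h3
    rw [h3]
    by_cases hij : i = j <;> simp [Matrix.one_apply, hij]
  apply (LinearMap.toMatrix b b).injective
  rw [hb, h2, LinearMap.toMatrix_one]

section Datum

variable {O : Type} [CommRing O] [IsDomain O] [IsDiscreteValuationRing O]
  [IsAdicComplete (maximalIdeal O) O] {N : ℕ} [NeZero N] {S : Finset ℕ}
  {θ : heckeAlgebra N 2 (↑S : Set ℕ) →+* ResidueField O} {T : Type} [CommRing T] [IsLocalRing T]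
  [IsNoetherianRing T] [IsAdicComplete (maximalIdeal T) T] [Algebra O T]
  [IsLocalHom (algebraMap O T)] [Module.Finite O T] [Module.Free O T]
  (H : HeckeGaloisRepDatum N (↑S : Set ℕ) O θ T)

/-- Trace and determinant at a Frobenius element. -/
theorem trace_det_frobenius {l : ℕ} (hl : l.Prime) (hlN : ¬ l ∣ N) (hlS : l ∉ (↑S : Set ℕ))
    {A : ValuationSubring (AlgebraicClosure ℚ)} (hA : A.LiesOverPrime l) {σ : GQ}
    (hσ : A.IsFrobeniusAt σ l) :
    H.ρ.trace σ = H.π (heckeAlgebra.T hl hlN hlS) ∧ LinearMap.det (H.ρ.ρ σ) = (l : T) := by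
  obtain ⟨r, b, hb⟩ := Deform.exists_hasMatrix H.ρ
  have h2 := H.charpoly_frob l hl hlN hlS A hA σ hσ
  rw [← LinearMap.charpoly_toMatrix _ b, Matrix.charpoly_fin_two] at h2
  have h3 := congrArg (fun P => Polynomial.coeff P 1) h2
  have h4 := congrArg (fun P => Polynomial.coeff P 0) h2
  simp [Polynomial.coeff_X_pow, Polynomial.coeff_C] at h3 h4
  exact ⟨by rw [GaloisRepAdic.trace, LinearMap.trace_eq_matrix_trace _ b, h3], h4⟩

/-- The traces of Frobenius elements generate. -/
theorem adjoin_trace_frobenius_eq_top (hS : ∀ r : ℕ, r.Prime → r ∣ N → r ∈ S) :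
    Algebra.adjoin O {t : T | ∃ l : ℕ, l.Prime ∧ l ∉ S ∧ ∃ A : ValuationSubring (AlgebraicClosure ℚ),
      A.LiesOverPrime l ∧ ∃ σ : GQ, A.IsFrobeniusAt σ l ∧ t = H.ρ.trace σ} = ⊤ := by
  rw [eq_top_iff, ← H.adjoin_range_π]
  refine Algebra.adjoin_le ?_
  rintro _ ⟨t, rfl⟩
  obtain ⟨P, rfl⟩ := evFormsOff_surjective N (↑S : Set ℕ) hS t
  induction P using MvPolynomial.induction_on with
  | C r => simp [GalRep.evFormsOff]
  | add P Q hP hQ => rw [map_add, map_add]; exact add_mem hP hQ
  | mul_X P i hP =>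
    rw [map_mul, map_mul]
    refine mul_mem hP (Algebra.subset_adjoin ⟨_, i.1.1.2, i.2, ?_⟩)
    obtain ⟨A, hA⟩ := Galois.exists_liesOverPrime i.1.1.2
    obtain ⟨σ, hσ⟩ := Galois.exists_isFrobeniusAt i.1.1.2 hA
    exact ⟨A, hA, σ, hσ, by rw [(trace_det_frobenius H i.1.1.2 i.1.2 i.2 hA hσ).1, evFormsOff_X]⟩

end Datum

variable {p : ℕ} [Fact p.Prime] {O : Type} [CommRing O] [IsDomain O] [IsDiscreteValuationRing O]
  [IsAdicComplete (maximalIdeal O) O] [Finite (ResidueField O)]
  [Algebra ℤ_[p] O] [Module.Finite ℤ_[p] O] [CharZero O]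

theorem natCast_p_mem_maximalIdeal : (p : O) ∈ maximalIdeal O := by
  rw [mem_maximalIdeal, mem_nonunits_iff]
  intro hu
  have hmax : (maximalIdeal O).comap (algebraMap ℤ_[p] O) = maximalIdeal ℤ_[p] :=
    IsLocalRing.eq_maximalIdeal (Ideal.isMaximal_comap_of_isIntegral_of_isMaximal _)
  have hmem : (p : ℤ_[p]) ∈ maximalIdeal ℤ_[p] := PadicInt.p_nonunit
  rw [← hmax, Ideal.mem_comap, map_natCast] at hmem
  exact hmem hu

/-- The residual representation is unramified outside `S`. -/
theorem residual_unramified {ρbar : ResidualGaloisRep (ResidueField O)} (hp2 : p ≠ 2)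
    {N : ℕ} [NeZero N] {S : Finset ℕ} {a : ℕ → O} (hpS : p ∈ S)
    (hNS : ∀ r : ℕ, r.Prime → r ∣ N → r ∈ S) (habs : ρbar.IsAbsolutelyIrreducible)
    (hfrob : ∀ l : ℕ, l.Prime → l ∉ S → ∀ A : ValuationSubring (AlgebraicClosure ℚ),
      A.LiesOverPrime l → ∀ σ : GQ, A.IsFrobeniusAt σ l →
        LinearMap.charpoly (ρbar.ρ σ) = Polynomial.X ^ 2 -
          Polynomial.C (residue O (a l)) * Polynomial.X + Polynomial.C ((l : ResidueField O)))
    (hne : latLoc N (1 : (ZMod N)ˣ →* Unit) O S a ≠ ⊥) {v : ℕ} (hv : v.Prime) (hvS : v ∉ S)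
    (A : ValuationSubring (AlgebraicClosure ℚ)) (hA : A.LiesOverPrime v) {σ : GQ}
    (hσ : σ ∈ A.inertiaSubgroupIn ℚ) : ρbar.ρ σ = 1 := by
  haveI : NeZero (N * 1) := ⟨by rw [mul_one]; exact NeZero.ne N⟩
  obtain ⟨θ, H, Φ, hres, -, -⟩ := exists_levelRep (p := p) (D := 1) ρbar hp2
    natCast_p_mem_maximalIdeal (fun g => ⟨0, Subsingleton.elim _ _⟩) (one_dvd N) squarefree_one
    (fun u _ => rfl) hpS hNS habs hfrob hne
  have h := Fermat.Agent.S31.result (Fact.out : p.Prime) natCast_p_mem_maximalIdeal hpS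
    (fun r hr h => hNS r hr (by rwa [mul_one] at h)) H v hv hvS A hA σ hσ
  obtain ⟨e⟩ := hres
  refine eq_one_of_baseChangeAlong
    (ResidueField.map (algebraMap O (heckeLocal (N * 1) (↑S : Set ℕ) O θ))) ρbar
    (LinearMap.ext fun z => ?_)
  obtain ⟨y, rfl⟩ := e.toLinearEquiv.surjective z
  rw [← e.map_apply]
  show e.toLinearEquiv ((H.ρ.ρ σ).baseChange _ y) = _
  rw [h, LinearMap.baseChange_one]
  rfl

end Fermat.Agent.Auto
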