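import Fermat.Agent.Auto.OutputDefs
import Fermat.Agent.Auto.Descent
import Fermat.Agent.Auto.Level.Setting

/-!
Ranks at the levels with Taylor-Wiles primes: positive, bounded, and zero once `q` is removed.
-/

set_option autoImplicit false
set_option linter.unusedSectionVars false
set_option linter.style.haveILetI false
set_option synthInstance.maxHeartbeats 400000

noncomputable section

namespace Fermat.Agent.Auto

open IsLocalRing CongruenceSubgroup
open Fermat.Agent.Galois (GQ)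

variable {p : ℕ} [Fact p.Prime] {O : Type} [CommRing O] [IsDomain O] [IsDiscreteValuationRing O]
  [IsAdicComplete (maximalIdeal O) O] [Finite (ResidueField O)]
  [Algebra ℤ_[p] O] [Module.Finite ℤ_[p] O] [CharZero O]
  {ρbar : ResidualGaloisRep (ResidueField O)} {N : ℕ} [NeZero N]
  {S sig : Finset ℕ} {q : ℕ} {a : ℕ → O}

/-- The conditions on Taylor-Wiles primes in the form used at each level. -/
theorem tw_prime {n : ℕ} {Q : Finset ℕ}
    (hQ : ∀ v ∈ Q, v.Prime ∧ v ∉ S ∧ v ≡ 1 [MOD p ^ (n + 1)] ∧ residue O (a v) ^ 2 ≠ 4) :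
    ∀ v ∈ Q, v.Prime ∧ v ∉ S ∧ v ≡ 1 [MOD p] ∧ residue O (a v) ^ 2 ≠ 4 := fun v hv =>
  ⟨(hQ v hv).1, (hQ v hv).2.1, (hQ v hv).2.2.1.of_dvd (dvd_pow_self p n.succ_ne_zero),
    (hQ v hv).2.2.2⟩

theorem LevelSetting.level_mem_prod (H : LevelSetting p O ρbar N S sig q a) {Q : Finset ℕ}
    (hQp : ∀ v ∈ Q, v.Prime) {M : ℕ} (hM : M ∣ N * ∏ v ∈ Q, v) :
    ∀ l : ℕ, l.Prime → l ∣ M → l ∈ S ∪ Q := fun l hl h => by
  rcases hl.dvd_mul.mp (h.trans hM) with h | h
  · exact Finset.mem_union_left _ (H.level_mem l hl h)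
  · obtain ⟨v, hv, hlv⟩ := (Prime.dvd_finsetProd_iff hl.prime _).mp h
    exact Finset.mem_union_right _ (((Nat.prime_dvd_prime_iff_eq hl (hQp v hv)).mp hlv) ▸ hv)

theorem LevelSetting.frob_union (H : LevelSetting p O ρbar N S sig q a) (Q : Finset ℕ) :
    ∀ l : ℕ, l.Prime → l ∉ S ∪ Q → ∀ A : ValuationSubring (AlgebraicClosure ℚ),
      A.LiesOverPrime l → ∀ σ : GQ, A.IsFrobeniusAt σ l →
        LinearMap.charpoly (ρbar.ρ σ) = Polynomial.X ^ 2 -
          Polynomial.C (residue O (a l)) * Polynomial.X + Polynomial.C ((l : ResidueField O)) :=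
  fun l hl hlS => H.charpoly_frob l hl fun h => hlS (Finset.mem_union_left _ h)

theorem LevelSetting.nonEis_union (H : LevelSetting p O ρbar N S sig q a) (Q : Finset ℕ) :
    NonEis (S ∪ Q) a :=
  nonEis_of_absIrr (natCast_p_mem_maximalIdeal (p := p)) H.absIrr (H.frob_union Q)

theorem LevelSetting.latLoc_ne_bot (H : LevelSetting p O ρbar N S sig q a) :
    latLoc N (1 : (ZMod N)ˣ →* Unit) O S a ≠ ⊥ := by
  obtain ⟨θ, hθ⟩ := H.modular
  exact latLoc_ne_bot_of_theta H.five_le H.p_mem H.level_mem θ hθ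

theorem LevelSetting.unramified (H : LevelSetting p O ρbar N S sig q a) {v : ℕ} (hv : v.Prime)
    (hvS : v ∉ S) (A : ValuationSubring (AlgebraicClosure ℚ)) (hA : A.LiesOverPrime v) {σ : GQ}
    (hσ : σ ∈ A.inertiaSubgroupIn ℚ) : ρbar.ρ σ = 1 :=
  residual_unramified (by have := H.five_le; omega) H.p_mem H.level_mem H.absIrr H.charpoly_frob
    H.latLoc_ne_bot hv hvS A hA hσ

/-- Positive and bounded rank at level `N` times Taylor-Wiles primes. -/
theorem LevelSetting.finrank_pos_le (H : LevelSetting p O ρbar N S sig q a) {Q : Finset ℕ}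
    (hQ : ∀ v ∈ Q, v.Prime ∧ v ∉ S ∧ v ≡ 1 [MOD p] ∧ residue O (a v) ^ 2 ≠ 4)
    [NeZero (N * ∏ v ∈ Q, v)] :
    0 < Module.finrank O (latLoc (N * ∏ v ∈ Q, v) (1 : (ZMod (N * ∏ v ∈ Q, v))ˣ →* Unit) O
      (S ∪ Q) a) ∧
    Module.finrank O (latLoc (N * ∏ v ∈ Q, v) (1 : (ZMod (N * ∏ v ∈ Q, v))ˣ →* Unit) O
      (S ∪ Q) a) ≤ 2 ^ Q.card * Module.finrank O (Lat N (1 : (ZMod N)ˣ →* Unit) O) := by
  constructor
  · have hN : latLoc N (1 : (ZMod N)ˣ →* Unit) O (S ∪ Q) a ≠ ⊥ := fun h =>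
      H.latLoc_ne_bot (le_bot_iff.mp (h ▸ latLoc_mono Finset.subset_union_left))
    have h1 := latLoc_ne_bot_of_dvd (M' := N * ∏ v ∈ Q, v) (dvd_mul_right N _)
      (H.level_mem_prod (fun v hv => (hQ v hv).1) dvd_rfl) hN
    exact Nat.pos_of_ne_zero fun h => h1 (Submodule.finrank_eq_zero.mp h)
  · refine (finrank_latLoc_prod_le H.five_le (natCast_p_mem_maximalIdeal (p := p)) ρbar H.absIrr
      Finset.subset_union_left H.charpoly_frob H.p_mem H.level_mem Q Finset.subset_union_right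
      hQ).trans ?_
    exact Nat.mul_le_mul_left _ (Submodule.finrank_le _)

/-- Nothing lives at the level with `q` removed. -/
theorem LevelSetting.lower_eq_bot (H : LevelSetting p O ρbar N S sig q a) {Q : Finset ℕ}
    (hQ : ∀ v ∈ Q, v.Prime ∧ v ∉ S ∧ v ≡ 1 [MOD p] ∧ residue O (a v) ^ 2 ≠ 4)
    [NeZero ((N * ∏ v ∈ Q, v) / q)] :
    latLoc ((N * ∏ v ∈ Q, v) / q) (1 : (ZMod ((N * ∏ v ∈ Q, v) / q))ˣ →* Unit) O (S ∪ Q) a = ⊥ := by
  have hqN : q ∣ N := (H.sig_spec q H.q_mem).2.1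
  have hq0 : 0 < q := (H.sig_spec q H.q_mem).1.pos
  haveI : NeZero (N / q) :=
    ⟨(Nat.div_pos (Nat.le_of_dvd (NeZero.pos N) hqN) hq0).ne'⟩
  haveI : NeZero (N / q * ∏ v ∈ Q, v) :=
    ⟨mul_ne_zero (NeZero.ne _) (Finset.prod_ne_zero_iff.mpr fun v hv => (hQ v hv).1.ne_zero)⟩
  have hlev : ∀ l : ℕ, l.Prime → l ∣ N / q → l ∈ S := fun l hl h =>
    H.level_mem l hl (h.trans (Nat.div_dvd_of_dvd hqN))
  have hp2 : p ≠ 2 := by have := H.five_le; omega
  have h0 : latLoc (N / q) (1 : (ZMod (N / q))ˣ →* Unit) O (S ∪ Q) a = ⊥ :=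
    latLoc_eq_bot_of_no_theta hp2 (natCast_p_mem_maximalIdeal (p := p)) ρbar H.absIrr
      (Finset.mem_union_left _ H.p_mem) (fun l hl h => Finset.mem_union_left _ (hlev l hl h))
      (H.frob_union Q) (H.not_lower (S ∪ Q) Finset.subset_union_left)
  have h1 := finrank_latLoc_prod_le H.five_le (natCast_p_mem_maximalIdeal (p := p)) ρbar H.absIrr
    (S := S) (S' := S ∪ Q) Finset.subset_union_left H.charpoly_frob (N := N / q) H.p_mem hlev Q
    Finset.subset_union_right hQ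
  rw [h0, finrank_bot, mul_zero, Nat.le_zero] at h1
  have h2 := Submodule.finrank_eq_zero.mp h1
  have key : ∀ K : ℕ, K = N / q * ∏ v ∈ Q, v → ∀ [NeZero K],
      latLoc K (1 : (ZMod K)ˣ →* Unit) O (S ∪ Q) a = ⊥ := fun K h _ => by subst h; exact h2
  exact key _ (Nat.mul_div_right_comm hqN _).symm.symm

end Fermat.Agent.Auto
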