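import Fermat.Agent.Auto.Level.Char
import Fermat.Agent.DS.FrobConj

/-!
A pair of characters at two disjoint sets of primes, and its values on the cyclotomic exponents of
inertia elements.
-/

set_option autoImplicit false
set_option linter.unusedSectionVars false
set_option linter.style.haveILetI false

noncomputable section

namespace Fermat.Agent.Auto

open Fermat.Agent.Galois (GQ)
open Fermat.Agent.GalRep.Level (cycM)

variable {p : ℕ} [Fact p.Prime] {M : ℕ} [NeZero M]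

/-- Each component factors through the units modulo its prime. -/
theorem exists_char_factor (s : Finset ℕ) (k : ℕ → ℕ)
    (hs : ∀ l ∈ s, l.Prime ∧ l ∣ M ∧ p ^ k l ∣ l - 1) :
    ∃ (c : (ZMod M)ˣ →* CharGrp p s k) (f : (l : s) → (ZMod (l : ℕ))ˣ →* Multiplicative (ZMod (p ^ k l))),
      Function.Surjective c ∧ (∀ l, Function.Surjective (f l)) ∧
        ∀ (u : (ZMod M)ˣ) (l : s), c u l = f l (ZMod.unitsMap (hs _ l.2).2.1 u) := by
  obtain ⟨c, hc, hc1⟩ := exists_char (p := p) s k hs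
  have hl : ∀ l : s, Function.Surjective (ZMod.unitsMap (hs _ l.2).2.1) := fun l =>
    ZMod.unitsMap_surjective _
  have key : ∀ (l : s) (u : (ZMod M)ˣ), ZMod.unitsMap (hs _ l.2).2.1 u = 1 → c u l = 1 := by
    intro l u hu
    refine hc1 u l ?_
    have h := congrArg Units.val hu
    rw [ZMod.unitsMap_def, Units.coe_map, Units.val_one] at h
    rw [ZMod.natCast_val]
    exact h
  let g : (l : s) → (ZMod M)ˣ →* Multiplicative (ZMod (p ^ k l)) := fun l =>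
    (Pi.evalMonoidHom _ l).comp c
  let f : (l : s) → (ZMod (l : ℕ))ˣ →* Multiplicative (ZMod (p ^ k l)) := fun l =>
    (ZMod.unitsMap (hs _ l.2).2.1).liftOfSurjective (hl l)
      ⟨g l, fun u hu => MonoidHom.mem_ker.mpr (key l u (MonoidHom.mem_ker.mp hu))⟩
  have hf : ∀ (u : (ZMod M)ˣ) (l : s), f l (ZMod.unitsMap (hs _ l.2).2.1 u) = c u l := fun u l =>
    MonoidHom.liftOfRightInverse_comp_apply _ _ _ _ u
  refine ⟨c, f, hc, fun l x => ?_, fun u l => (hf u l).symm⟩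
  obtain ⟨u, hu⟩ := hc (Pi.mulSingle l x)
  exact ⟨ZMod.unitsMap (hs _ l.2).2.1 u, by rw [hf, hu, Pi.mulSingle_eq_same]⟩

/-- Units prescribed modulo two coprime divisors. -/
theorem exists_unit_crt {A B : ℕ} (hA : A ∣ M) (hB : B ∣ M) (hco : A.Coprime B) (a : (ZMod A)ˣ)
    (b : (ZMod B)ˣ) : ∃ u : (ZMod M)ˣ, ZMod.unitsMap hA u = a ∧ ZMod.unitsMap hB u = b := by
  have hAB : A * B ∣ M := hco.mul_dvd_of_dvd_of_dvd hA hB
  let e := ZMod.chineseRemainder hco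
  let w : (ZMod (A * B))ˣ := Units.map e.symm.toMonoidHom (MulEquiv.prodUnits.symm (a, b))
  obtain ⟨u, hu⟩ := ZMod.unitsMap_surjective hAB w
  have he : ∀ z, (ZMod.castHom (dvd_mul_right A B) (ZMod A) z, ZMod.castHom (dvd_mul_left B A) (ZMod B) z) = e z :=
    fun z => by
    rw [show e z = ((RingHom.fst (ZMod A) (ZMod B)).comp e.toRingHom z,
      (RingHom.snd (ZMod A) (ZMod B)).comp e.toRingHom z) from rfl]
    exact Prod.ext (RingHom.congr_fun (RingHom.ext_zmod _ _) z) (RingHom.congr_fun (RingHom.ext_zmod _ _) z)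
  have hw : (ZMod.castHom (dvd_mul_right A B) (ZMod A) (w : ZMod (A * B)),
      ZMod.castHom (dvd_mul_left B A) (ZMod B) (w : ZMod (A * B))) = ((a : ZMod A), (b : ZMod B)) := by
    rw [he]
    exact e.apply_symm_apply _
  refine ⟨u, Units.ext ?_, Units.ext ?_⟩
  · rw [← ZMod.unitsMap_comp (dvd_mul_right A B) hAB, MonoidHom.comp_apply, hu]
    exact congrArg Prod.fst hw
  · rw [← ZMod.unitsMap_comp (dvd_mul_left B A) hAB, MonoidHom.comp_apply, hu]
    exact congrArg Prod.snd hw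

/-- The components depend only on the class modulo the product of the primes. -/
theorem char_eq_one_of_prod {s : Finset ℕ} {k : ℕ → ℕ}
    (hs : ∀ l ∈ s, l.Prime ∧ l ∣ M ∧ p ^ k l ∣ l - 1) {c : (ZMod M)ˣ →* CharGrp p s k}
    {f : (l : s) → (ZMod (l : ℕ))ˣ →* Multiplicative (ZMod (p ^ k l))}
    (hf : ∀ (u : (ZMod M)ˣ) (l : s), c u l = f l (ZMod.unitsMap (hs _ l.2).2.1 u))
    (u : (ZMod M)ˣ) (hu : ((u : ZMod M).val : ZMod (∏ l ∈ s, l)) = 1) : c u = 1 := by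
  funext l
  rw [hf, show ZMod.unitsMap (hs _ l.2).2.1 u = 1 from Units.ext ?_, map_one]
  · rfl
  · have h := congrArg (ZMod.castHom (Finset.dvd_prod_of_mem (fun l => l) l.2) (ZMod (l : ℕ))) hu
    rw [map_natCast, map_one] at h
    rw [ZMod.unitsMap_def, Units.coe_map, Units.val_one]
    show ZMod.castHom (hs _ l.2).2.1 (ZMod (l : ℕ)) (u : ZMod M) = 1
    rw [ZMod.castHom_apply, ← ZMod.natCast_val, h]

/-- A pair of characters at disjoint sets of primes is jointly surjective. -/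
theorem exists_char_pair (s t : Finset ℕ) (hst : Disjoint s t) (k k' : ℕ → ℕ)
    (hs : ∀ l ∈ s, l.Prime ∧ l ∣ M ∧ p ^ k l ∣ l - 1)
    (ht : ∀ l ∈ t, l.Prime ∧ l ∣ M ∧ p ^ k' l ∣ l - 1) :
    ∃ (c : (ZMod M)ˣ →* CharGrp p s k × CharGrp p t k')
      (f : (l : s) → (ZMod (l : ℕ))ˣ →* Multiplicative (ZMod (p ^ k l)))
      (g : (l : t) → (ZMod (l : ℕ))ˣ →* Multiplicative (ZMod (p ^ k' l))),
      Function.Surjective c ∧ (∀ l, Function.Surjective (f l)) ∧ (∀ l, Function.Surjective (g l)) ∧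
        (∀ (u : (ZMod M)ˣ) (l : s), (c u).1 l = f l (ZMod.unitsMap (hs _ l.2).2.1 u)) ∧
        ∀ (u : (ZMod M)ˣ) (l : t), (c u).2 l = g l (ZMod.unitsMap (ht _ l.2).2.1 u) := by
  obtain ⟨c₁, f, hc₁, hf, hc₁f⟩ := exists_char_factor (p := p) s k hs
  obtain ⟨c₂, g, hc₂, hg, hc₂g⟩ := exists_char_factor (p := p) t k' ht
  refine ⟨c₁.prod c₂, f, g, fun x => ?_, hf, hg, hc₁f, hc₂g⟩
  obtain ⟨u₁, hu₁⟩ := hc₁ x.1
  obtain ⟨u₂, hu₂⟩ := hc₂ x.2
  have hA : (∏ l ∈ s, l) ∣ M :=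
    Finset.prod_primes_dvd M (fun l hl => (hs l hl).1.prime) fun l hl => (hs l hl).2.1
  have hB : (∏ l ∈ t, l) ∣ M :=
    Finset.prod_primes_dvd M (fun l hl => (ht l hl).1.prime) fun l hl => (ht l hl).2.1
  have hco : Nat.Coprime (∏ l ∈ s, l) (∏ l ∈ t, l) :=
    Nat.Coprime.prod_left fun l hl => Nat.Coprime.prod_right fun l' hl' =>
      (Nat.coprime_primes (hs l hl).1 (ht l' hl').1).mpr fun e =>
        Finset.disjoint_left.mp hst hl (e ▸ hl')
  obtain ⟨u, hu, hu'⟩ := exists_unit_crt hA hB hco (ZMod.unitsMap hA u₁) (ZMod.unitsMap hB u₂)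
  refine ⟨u, Prod.ext (Eq.trans ?_ hu₁) (Eq.trans ?_ hu₂)⟩
  · funext l
    have hl : (l : ℕ) ∣ ∏ l ∈ s, l := Finset.dvd_prod_of_mem (fun l => l) l.2
    show c₁ u l = c₁ u₁ l
    rw [hc₁f, hc₁f, ← ZMod.unitsMap_comp hl hA, MonoidHom.comp_apply, MonoidHom.comp_apply, hu]
  · funext l
    have hl : (l : ℕ) ∣ ∏ l ∈ t, l := Finset.dvd_prod_of_mem (fun l => l) l.2
    show c₂ u l = c₂ u₂ l
    rw [hc₂g, hc₂g, ← ZMod.unitsMap_comp hl hB, MonoidHom.comp_apply, MonoidHom.comp_apply, hu']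

/-- Inertia at `r` moves only the component at `r`. -/
theorem char_cycM_inertia {s : Finset ℕ} {k : ℕ → ℕ}
    (hs : ∀ l ∈ s, l.Prime ∧ l ∣ M ∧ p ^ k l ∣ l - 1) {r : ℕ} [NeZero r] (hr : r.Prime)
    {A : ValuationSubring (AlgebraicClosure ℚ)} (hA : A.LiesOverPrime r) {σ : GQ}
    (hσ : σ ∈ A.inertiaSubgroupIn ℚ) (l : s)
    (f : (ZMod (l : ℕ))ˣ →* Multiplicative (ZMod (p ^ k l))) (hl : (l : ℕ) ≠ r) :
    f (ZMod.unitsMap (hs _ l.2).2.1 (cycM M σ)) = 1 := by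
  haveI : NeZero (l : ℕ) := ⟨(hs _ l.2).1.ne_zero⟩
  rw [ZMod.unitsMap_def, show Units.map (ZMod.castHom (hs _ l.2).2.1 (ZMod (l : ℕ)) : _ →* _) (cycM M σ) =
    cycM (l : ℕ) σ from GalRep.Level.cycM_castHom (hs _ l.2).2.1 σ,
    DS.cycM_inertia hr hA (fun h => hl ((Nat.prime_dvd_prime_iff_eq hr (hs _ l.2).1).mp h).symm) hσ,
    map_one]

end Fermat.Agent.Auto
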