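import Fermat.Agent.Auto.Level.Char

/-!
Characters of elementary `p`-groups with values in a ring with a primitive `p`th root of unity, and
halving in groups of odd order.
-/

set_option autoImplicit false
set_option linter.unusedSectionVars false
set_option linter.style.haveILetI false

noncomputable section

namespace Fermat.Agent.Auto

open IsLocalRing

/-- A root of unity gives a character of the cyclic group. -/
theorem exists_zetaHom {p : ℕ} [Fact p.Prime] {O : Type} [CommRing O] [IsDomain O] [IsLocalRing O]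
    (hp : (p : O) ∈ maximalIdeal O) {ζ : O} (hζ : IsPrimitiveRoot ζ p) :
    ∃ z : Multiplicative (ZMod p) →* Oˣ, Function.Injective z ∧ (∀ x, z x ^ p = 1) ∧
      ∀ x, (z x : O) - 1 ∈ maximalIdeal O := by
  haveI : NeZero p := ⟨(Fact.out : p.Prime).ne_zero⟩
  have hu : IsPrimitiveRoot hζ.toRootsOfUnity.1 p := IsPrimitiveRoot.coe_units_iff.mp hζ
  let e := hu.zmodEquivZPowers
  let z : Multiplicative (ZMod p) →* Oˣ :=
    (Subgroup.subtype _).comp (AddMonoidHom.toMultiplicativeLeft e.toAddMonoidHom)
  have hzp : ∀ x, z x ^ p = 1 := fun x => by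
    rw [← map_pow, show x ^ p = 1 from by
      rw [← ofAdd_toAdd x, ← ofAdd_nsmul, nsmul_eq_mul, ZMod.natCast_self, zero_mul, ofAdd_zero],
      map_one]
  refine ⟨z, fun x y h => ?_, hzp, fun x => ?_⟩
  · exact Multiplicative.toAdd.injective (e.injective (Additive.toMul.injective (Subtype.ext h)))
  · rw [← residue_eq_zero_iff, map_sub, map_one]
    haveI : CharP (ResidueField O) p := by
      refine (CharP.charP_iff_prime_eq_zero (Fact.out : p.Prime)).mpr ?_
      rw [← map_natCast (residue O), residue_eq_zero_iff]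
      exact hp
    have h1 : residue O (z x : O) ^ p = 1 := by
      rw [← map_pow, ← Units.val_pow_eq_pow_val, hzp, Units.val_one, map_one]
    have h2 : (residue O (z x : O) - 1) ^ p = 0 := by
      rw [sub_pow_char, h1, one_pow, sub_self]
    exact pow_eq_zero_iff (Fact.out : p.Prime).ne_zero |>.mp h2

variable {G : Type} [CommGroup G] [Fintype G]

/-- Half of the order minus one is invertible on elements. -/
theorem pow_half_eq_one {x : G} (hodd : Odd (Nat.card G)) (h : x ^ ((Nat.card G - 1) / 2) = 1) :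
    x = 1 := by
  obtain ⟨m, hm⟩ := hodd
  have h1 : (Nat.card G - 1) / 2 = m := by omega
  have h2 := pow_card_eq_one' (x := x)
  rw [h1] at h
  rwa [hm, pow_succ, mul_comm 2, pow_mul, h, one_pow, one_mul] at h2

theorem pow_half_surjective (hodd : Odd (Nat.card G)) (x : G) :
    (x⁻¹ * x⁻¹) ^ ((Nat.card G - 1) / 2) = x := by
  obtain ⟨m, hm⟩ := hodd
  rw [show (Nat.card G - 1) / 2 = m by omega, mul_pow, ← pow_add, inv_pow]
  exact inv_eq_of_mul_eq_one_right (by
    rw [← pow_succ, show m + m + 1 = 2 * m + 1 by ring, ← hm]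
    exact pow_card_eq_one')

/-- The product of a family of characters, one for each factor. -/
def prodChar {p : ℕ} {O : Type} [CommRing O] (s : Finset ℕ) (z : Multiplicative (ZMod p) →* Oˣ) :
    CharGrp p s (fun _ => 1) →* Oˣ :=
  ∏ l : s, (z.comp (AddMonoidHom.toMultiplicative
    (ZMod.castHom (dvd_of_eq (pow_one p).symm) (ZMod p)).toAddMonoidHom)).comp (Pi.evalMonoidHom _ l)

theorem prodChar_sub_one_mem {p : ℕ} {O : Type} [CommRing O] (s : Finset ℕ)
    (z : Multiplicative (ZMod p) →* Oˣ) {I : Ideal O} (hz : ∀ x, (z x : O) - 1 ∈ I)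
    (x : CharGrp p s (fun _ => 1)) : ((prodChar s z x : Oˣ) : O) - 1 ∈ I := by
  rw [← Ideal.Quotient.mk_eq_mk_iff_sub_mem, map_one, prodChar, MonoidHom.finsetProd_apply,
    Units.coe_prod, map_prod]
  exact Finset.prod_eq_one fun l _ => by
    rw [← map_one (Ideal.Quotient.mk I), Ideal.Quotient.mk_eq_mk_iff_sub_mem]
    exact hz _

theorem prodChar_mulSingle {p : ℕ} {O : Type} [CommRing O] (s : Finset ℕ) [DecidableEq s]
    (z : Multiplicative (ZMod p) →* Oˣ) (l : s) (x : Multiplicative (ZMod (p ^ 1))) :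
    prodChar s z (Pi.mulSingle l x) =
      z (Multiplicative.ofAdd (ZMod.castHom (dvd_of_eq (pow_one p).symm) (ZMod p) x.toAdd)) := by
  rw [prodChar, MonoidHom.finsetProd_apply, Finset.prod_eq_single l]
  · simp only [MonoidHom.comp_apply, Pi.evalMonoidHom_apply, Pi.mulSingle_eq_same]
    rfl
  · intro l' _ hl'
    simp [Pi.mulSingle_eq_of_ne hl']
  · exact fun h => absurd (Finset.mem_univ l) h

end Fermat.Agent.Auto
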