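import Fermat.Agent.Auto.Level.Build
import Fermat.Agent.Auto.Level.Chi
import Fermat.Agent.Auto.Level.Ranks
import Fermat.Agent.Auto.Level.Split
import Fermat.Agent.Auto.Level.Zeta
import Fermat.Agent.S31
import Fermat.Agent.S32
import Fermat.Agent.S34

/-!
Assembly of the data at a level with Taylor-Wiles primes.
-/

set_option autoImplicit false
set_option linter.unusedSectionVars false
set_option linter.style.haveILetI false
set_option synthInstance.maxHeartbeats 400000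

noncomputable section

namespace Fermat.Agent.Auto

open IsLocalRing CongruenceSubgroup CuspForm
open Fermat.Agent.Galois (GQ)
open Fermat.Agent.GalRep (cyc_inertia)
open Fermat.Agent.GalRep.Level (cycM)

/-- A prime outside a set of primes does not divide their product. -/
theorem not_dvd_prod_primes {s : Finset ℕ} (hs : ∀ v ∈ s, v.Prime) {l : ℕ} (hl : l.Prime)
    (hls : l ∉ s) : ¬ l ∣ ∏ v ∈ s, v := fun h => by
  obtain ⟨v, hv, hlv⟩ := (Prime.dvd_finsetProd_iff hl.prime _).mp h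
  exact hls (((Nat.prime_dvd_prime_iff_eq hl (hs v hv)).mp hlv) ▸ hv)

section Comp

variable {p : ℕ} [Fact p.Prime] {M : ℕ} [NeZero M] {s : Finset ℕ} {k : ℕ → ℕ}
  (hs : ∀ l ∈ s, l.Prime ∧ l ∣ M ∧ p ^ k l ∣ l - 1) {c : (ZMod M)ˣ →* CharGrp p s k}
  {f : (l : s) → (ZMod (l : ℕ))ˣ →* Multiplicative (ZMod (p ^ k l))}
  (hf : ∀ (u : (ZMod M)ˣ) (l : s), c u l = f l (ZMod.unitsMap (hs _ l.2).2.1 u))
  {r : ℕ} [NeZero r] (hr : r.Prime) {A : ValuationSubring (AlgebraicClosure ℚ)}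
  (hA : A.LiesOverPrime r) {σ : GQ} (hσ : σ ∈ A.inertiaSubgroupIn ℚ)

include hs hf hr hA hσ

theorem char_cycM_of_notMem (hrs : r ∉ s) : c (cycM M σ) = 1 := funext fun l => by
  rw [hf]
  exact char_cycM_inertia hs hr hA hσ l (f l) fun h => hrs (h ▸ l.2)

theorem char_cycM_of_mem (hrs : r ∈ s) :
    c (cycM M σ) = Pi.mulSingle (⟨r, hrs⟩ : s) (f ⟨r, hrs⟩ (cycM r σ)) := funext fun l => by
  rw [hf]
  rcases eq_or_ne l ⟨r, hrs⟩ with rfl | hl
  · rw [Pi.mulSingle_eq_same]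
    congr 1
    exact GalRep.Level.cycM_castHom (hs r hrs).2.1 σ
  · rw [Pi.mulSingle_eq_of_ne hl]
    exact char_cycM_inertia hs hr hA hσ l (f l) fun h => hl (Subtype.ext h)

end Comp

variable {p : ℕ} [Fact p.Prime] {O : Type} [CommRing O] [IsDomain O] [IsDiscreteValuationRing O]
  [IsAdicComplete (maximalIdeal O) O] [Finite (ResidueField O)]
  [Algebra ℤ_[p] O] [Module.Finite ℤ_[p] O] [CharZero O]
  {ρbar : ResidualGaloisRep (ResidueField O)} {N : ℕ} [NeZero N]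
  {S sig : Finset ℕ} {q : ℕ} {a : ℕ → O}

theorem cycO_inertia {r : ℕ} (hr : r.Prime) (hrp : r ≠ p)
    {A : ValuationSubring (AlgebraicClosure ℚ)} (hA : A.LiesOverPrime r) {σ : GQ}
    (hσ : σ ∈ A.inertiaSubgroupIn ℚ) : cycO (p := p) O σ = 1 := by
  show algebraMap ℤ_[p] O (GalRep.cyc p σ).val = 1
  rw [cyc_inertia p hr hrp hA hσ, Units.val_one, map_one]

/-- The trace of inertia on the residual part, at a prime `r ≡ 1` exactly dividing the level with
trivial residual inertia. -/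
theorem trace_inertia_levelRep {M : ℕ} [NeZero M] {Δ : Type} [CommGroup Δ] [Fintype Δ]
    {c : (ZMod M)ˣ →* Δ} {S' : Finset ℕ} (hp5 : 5 ≤ p) (hΔ : IsPGroup p Δ)
    (hc : Function.Surjective c) (hpS : p ∈ S') (hMS : ∀ l : ℕ, l.Prime → l ∣ M → l ∈ S')
    (hne : NonEis S' a)
    (hred : ∀ z ∈ Algebra.adjoin O (Set.range (twT M c O) ∪ Set.range (latDia M c O)),
      z * z = 0 → z = 0)
    {T : Type} [CommRing T] [IsLocalRing T] [Algebra O T] [IsLocalHom (algebraMap O T)]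
    [Module.Finite O T] (ρ : GaloisRepAdic T)
    (hres : ρ.residual.IsEquiv (ρbar.baseChangeAlong (ResidueField.map (algebraMap O T))))
    (Φ : T →ₐ[O] Module.End O (latLoc M c O S' a))
    (hgal : ∀ (σ : GQ) t (x : latLoc M c O S' a),
      galTw M c p O σ ((Φ t x : latLoc M c O S' a) : Lat M c O) =
        (Φ t ⟨galTw M c p O σ x, galTw_mem_latLoc σ x.2⟩ : latLoc M c O S' a))
    (hquad : ∀ (σ : GQ) (x : latLoc M c O S' a),
      galTw M c p O σ (galTw M c p O σ x) -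
        (Φ (ρ.trace σ) ⟨galTw M c p O σ x, galTw_mem_latLoc σ x.2⟩ : latLoc M c O S' a) +
          cycO (p := p) O σ • (x : Lat M c O) = 0)
    {r : ℕ} (hr : r.Prime) (hrp : r ≠ p) (hrM : r ∣ M) (hr2 : ¬ r ^ 2 ∣ M) (hr1 : r ≡ 1 [MOD p])
    {A : ValuationSubring (AlgebraicClosure ℚ)} (hA : A.LiesOverPrime r)
    (hbar : ∀ τ ∈ A.inertiaSubgroupIn ℚ, ρbar.ρ τ = 1)
    {σ : GQ} (hσ : σ ∈ A.inertiaSubgroupIn ℚ) (x : latLoc M c O S' a) :
    ((Φ (ρ.trace σ) x : latLoc M c O S' a) : Lat M c O) =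
      latDia M c O (cycM M σ ^ ((Nat.card Δ - 1) / 2)) x +
        latDia M c O (cycM M σ ^ ((Nat.card Δ - 1) / 2))⁻¹ x := by
  have hodd : Odd (Nat.card Δ) := by
    obtain ⟨e, he⟩ := IsPGroup.iff_card.mp hΔ
    rw [he]
    exact ((Fact.out : p.Prime).odd_of_ne_two (by omega)).pow
  have hq1 : ∀ τ ∈ A.inertiaSubgroupIn ℚ, ∀ y : latLoc M c O S' a,
      galTw M c p O τ (galTw M c p O τ y) -
        (Φ (ρ.trace τ) ⟨galTw M c p O τ y, galTw_mem_latLoc τ y.2⟩ : latLoc M c O S' a) +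
          (y : Lat M c O) = 0 := fun τ hτ y => by
    have h := hquad τ y
    rwa [cycO_inertia hr hrp hA hτ, one_smul] at h
  refine trace_inertia_eq hodd Φ (ρ.trace σ) σ (hq1 σ hσ) (fun y hy => ?_) x
  refine galLat_inertia hp5 hΔ hc hpS hMS hne hr hrp hrM hr2 hr1 hred A hA ?_ hσ hy
  intro τ hτ z hz
  exact hres_of_levelRep natCast_p_mem_maximalIdeal hΔ Φ (ρ.trace τ)
    (trace_sub_two_mem ρ ρbar hres (hbar τ hτ)) τ
    ((galTw M c p O τ).restrict fun w hw => galTw_mem_latLoc τ hw) (fun w => rfl)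
    (fun t => LinearMap.ext fun w => Subtype.ext (hgal τ t w)) (hq1 τ hτ) z hz

set_option maxHeartbeats 1600000 in
/-- The data at one level. -/
theorem exists_levelOut_at (H : LevelSetting p O ρbar N S sig q a) {n : ℕ} {Q : Finset ℕ}
    (hQn : ∀ v ∈ Q, v.Prime ∧ v ∉ S ∧ v ≡ 1 [MOD p ^ (n + 1)] ∧ residue O (a v) ^ 2 ≠ 4) :
    ∃ X : LevelOut p O ρbar N S sig Q q n,
      X.rank ≤ 2 ^ Q.card * Module.finrank O (Lat N (1 : (ZMod N)ˣ →* Unit) O) := by
  classical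
  have hp5 := H.five_le
  have hp2 : p ≠ 2 := by omega
  have hp : (p : O) ∈ maximalIdeal O := natCast_p_mem_maximalIdeal
  have hQ := tw_prime (p := p) hQn
  have hsigp : ∀ l ∈ sig, l.Prime := fun l hl => (H.sig_spec l hl).1
  have hQp : ∀ v ∈ Q, v.Prime := fun v hv => (hQ v hv).1
  have hdisj : Disjoint sig Q := Finset.disjoint_left.mpr fun l hl hlQ =>
    (hQ l hlQ).2.1 (H.level_mem l (hsigp l hl) (H.sig_spec l hl).2.1)
  set M := N * ∏ v ∈ Q, v with hMdef
  haveI : NeZero M :=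
    ⟨mul_ne_zero (NeZero.ne N) (Finset.prod_ne_zero_iff.mpr fun v hv => (hQp v hv).ne_zero)⟩
  have hsigM : ∀ l ∈ sig, l.Prime ∧ l ∣ M ∧ p ^ (fun _ => 1 : ℕ → ℕ) l ∣ l - 1 := fun l hl =>
    ⟨hsigp l hl, (H.sig_spec l hl).2.1.trans (dvd_mul_right N _), by
      rw [pow_one]
      exact (Nat.modEq_iff_dvd' (hsigp l hl).one_le).mp (H.sig_spec l hl).2.2.1.symm⟩
  have hQM : ∀ l ∈ Q, l.Prime ∧ l ∣ M ∧ p ^ (fun _ => n + 1 : ℕ → ℕ) l ∣ l - 1 := fun l hl =>
    ⟨hQp l hl, (Finset.dvd_prod_of_mem (fun v => v) hl).trans (dvd_mul_left _ N),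
      (Nat.modEq_iff_dvd' (hQp l hl).one_le).mp (hQn l hl).2.2.1.symm⟩
  obtain ⟨c, f, g, hc, hfs, hgs, hf, hg⟩ := exists_char_pair (p := p) (M := M) sig Q hdisj
    (fun _ => 1) (fun _ => n + 1) hsigM hQM
  set Δ := CharGrp p sig (fun _ => 1) × CharGrp p Q (fun _ => n + 1) with hΔdef
  have hΔ : IsPGroup p Δ := by
    obtain ⟨e₁, he₁⟩ := IsPGroup.iff_card.mp (isPGroup_charGrp (p := p) sig fun _ => 1)
    obtain ⟨e₂, he₂⟩ := IsPGroup.iff_card.mp (isPGroup_charGrp (p := p) Q fun _ => n + 1)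
    exact IsPGroup.of_card (n := e₁ + e₂) (by rw [Nat.card_prod, he₁, he₂, pow_add])
  have hodd : Odd (Nat.card Δ) := by
    obtain ⟨e, he⟩ := IsPGroup.iff_card.mp hΔ
    rw [he]
    exact ((Fact.out : p.Prime).odd_of_ne_two hp2).pow
  set hh := (Nat.card Δ - 1) / 2 with hhdef
  set D := (∏ l ∈ sig, l) * ∏ v ∈ Q, v with hDdef
  haveI : NeZero (M * D) := ⟨mul_ne_zero (NeZero.ne M) (mul_ne_zero
    (Finset.prod_ne_zero_iff.mpr fun l hl => (hsigp l hl).ne_zero)
    (Finset.prod_ne_zero_iff.mpr fun v hv => (hQp v hv).ne_zero))⟩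
  have hD : D ∣ M := mul_dvd_mul_right (Finset.prod_primes_dvd N (fun l hl => (hsigp l hl).prime)
    fun l hl => (H.sig_spec l hl).2.1) _
  have hsqM : Squarefree M := Nat.squarefree_mul_iff.mpr
    ⟨Nat.Coprime.prod_right fun v hv => ((hQp v hv).coprime_iff_not_dvd.mpr fun h =>
      (hQ v hv).2.1 (H.level_mem v (hQp v hv) h)).symm, H.squarefree, squarefree_prod_primes Q hQp⟩
  have hsq : Squarefree D := hsqM.squarefree_of_dvd hD
  have hr2 : ∀ l : ℕ, l.Prime → ¬ l ^ 2 ∣ M := fun l hl h =>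
    hl.not_isUnit (hsqM l (by rwa [← pow_two]))
  have hcast : ∀ (u : (ZMod M)ˣ) (d e : ℕ), d ∣ e → (((u : ZMod M).val : ZMod e) = 1) →
      ((u : ZMod M).val : ZMod d) = 1 := fun u d e hde h => by
    have := congrArg (ZMod.castHom hde (ZMod d)) h
    rwa [map_natCast, map_one] at this
  have hcQ : ∀ u : (ZMod M)ˣ, ((u : ZMod M).val : ZMod (∏ v ∈ Q, v)) = 1 → (c u).2 = 1 := fun u hu =>
    char_eq_one_of_prod (c := (MonoidHom.snd _ _).comp c) hQM hg u hu
  have hcD : ∀ u : (ZMod M)ˣ, ((u : ZMod M).val : ZMod D) = 1 → c u = 1 := fun u hu =>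
    Prod.ext (char_eq_one_of_prod (c := (MonoidHom.fst _ _).comp c) hsigM hf u
      (hcast u _ _ (dvd_mul_right _ _) hu)) (hcQ u (hcast u _ _ (dvd_mul_left _ _) hu))
  set S' := S ∪ Q with hS'
  have hpS' : p ∈ S' := Finset.mem_union_left _ H.p_mem
  have hMS : ∀ l : ℕ, l.Prime → l ∣ M → l ∈ S' := H.level_mem_prod hQp dvd_rfl
  have hne := H.nonEis_union Q
  obtain ⟨hpos, hle⟩ := H.finrank_pos_le hQ
  obtain ⟨n₀, b, hb, hn₀, hbasis⟩ :=
    exists_latLoc_basis (M := M) (c := c) (S := S') (a := a) hp5 hp hΔ hc hpS' hMS hne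
  rw [finrank_latLoc_one] at hn₀
  have hbot : latLoc M c O S' a ≠ ⊥ := fun h => by
    obtain ⟨f₀, -, huni⟩ := hbasis 0 (zero_mem _)
    have hb0 : ∀ i, b i = 0 := fun i => by
      have := hb i
      rwa [h, Submodule.mem_bot] at this
    have h1 := huni 0 (by simp)
    have h2 := huni 1 (by simp [hb0])
    have i₀ : Fin n₀ := ⟨0, hn₀ ▸ hpos⟩
    have := congrFun (congrFun (h1.trans h2.symm) i₀) 1
    exact zero_ne_one this
  obtain ⟨θ, HR, Φ, hres, hdiaΦ, hgalΦ, hquad⟩ := exists_levelRep (p := p) ρbar hp2 hp hΔ hD hsq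
    hcD hpS' hMS H.absIrr (H.frob_union Q) hbot
  set T := heckeLocal (M * D) (↑S' : Set ℕ) O θ
  have hMDS : ∀ l : ℕ, l.Prime → l ∣ M * D → l ∈ S' := fun l hl h =>
    hMS l hl ((hl.dvd_mul.mp h).elim id fun h' => h'.trans hD)
  have hred : ∀ z ∈ Algebra.adjoin O (Set.range (twT M c O) ∪ Set.range (latDia M c O)),
      z * z = 0 → z = 0 := fun z hz h => twAlg_sq_eq_zero hD hsq hcD hodd hz h
  obtain ⟨ζ, hζ⟩ := H.exists_zeta
  obtain ⟨z, hzinj, hzp, hz1⟩ := exists_zetaHom hp hζ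
  set χ := prodChar (p := p) sig z with hχ
  set V := chiLoc O hc S' a χ with hV
  haveI : Module.IsTorsionFree O V :=
    Function.Injective.moduleIsTorsionFree _ V.injective_subtype fun r x => map_smul V.subtype r x
  haveI hVfin : Module.Finite O V := inferInstance
  have hVfree : Module.Free O V := @Module.free_of_finite_type_torsion_free' O _ V V.addCommGroup
    V.module _ _ _ _
  obtain ⟨b', hb'⟩ := exists_chiLoc_basis hc χ hb hbasis
  let delta : (r : Q) → (ZMod (r : ℕ))ˣ →* CharGrp p Q (fun _ => n + 1) := fun r =>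
    (powMonoidHom hh).comp
      ((MonoidHom.mulSingle (fun l : Q => Multiplicative (ZMod (p ^ (fun _ => n + 1 : ℕ → ℕ) l))) r).comp
        (g r))
  let xi : (l : sig) → (ZMod (l : ℕ))ˣ →* Oˣ := fun l =>
    χ.comp ((powMonoidHom hh).comp
      ((MonoidHom.mulSingle (fun l' : sig => Multiplicative (ZMod (p ^ (fun _ => 1 : ℕ → ℕ) l'))) l).comp
        (f l)))
  have hCp : ∀ x : CharGrp p sig (fun _ => 1), x ^ p = 1 := fun x => funext fun l => by
    rw [Pi.pow_apply, ← ofAdd_toAdd (x l), ← ofAdd_nsmul, nsmul_eq_mul,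
      (ZMod.natCast_eq_zero_iff p (p ^ 1)).mpr (dvd_of_eq (pow_one p)), zero_mul]
    rfl
  have hact : ∀ (r : ℕ) (A : ValuationSubring (AlgebraicClosure ℚ)), r.Prime → r ∣ M → r ≠ p →
      r ≡ 1 [MOD p] → A.LiesOverPrime r → (∀ τ ∈ A.inertiaSubgroupIn ℚ, ρbar.ρ τ = 1) →
      ∀ σ ∈ A.inertiaSubgroupIn ℚ, ∀ (x : CharGrp p sig (fun _ => 1)) y,
        c (cycM M σ) = (x, y) →
        chiAlgHom hc χ Φ hdiaΦ (HR.ρ.trace σ) =
          (χ (x ^ hh) : O) • chiDia hc χ (y ^ hh) +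
            (((χ (x ^ hh))⁻¹ : Oˣ) : O) • chiDia hc χ (y ^ hh)⁻¹ :=
    fun r A hr hrM hrp hr1 hA hbar σ hσ x y hxy =>
      chi_inertia hc χ Φ hdiaΦ (HR.ρ.trace σ) (cycM M σ ^ hh) (x ^ hh) (y ^ hh)
        (by rw [map_pow, hxy, Prod.pow_mk])
        (trace_inertia_levelRep (ρbar := ρbar) hp5 hΔ hc hpS' hMS hne hred HR.ρ hres Φ hgalΦ hquad
          hr hrp hrM (hr2 r hr) hr1 hA hbar hσ)
  refine exists_levelOut_of (T := T) HR.residue_surjective HR.ρ hres ?_
    (fun σ => det_eq_cycO hp HR.ρ S' (fun l hl hlS A hA τ hτ =>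
      (trace_det_frobenius HR hl (fun h => hlS (hMDS l hl h)) hlS hA hτ).2) σ)
    (fun l hl hlS hlQ => Fermat.Agent.S31.result (Fact.out : p.Prime) hp hpS' hMDS HR l
      hl fun h => (Finset.mem_union.mp h).elim hlS hlQ)
    (Fermat.Agent.S32.result (Fact.out : p.Prime) hp2 hp ?_ hpS' hMDS HR)
    (fun l hl hlN hlsig => Fermat.Agent.S34.result (Fact.out : p.Prime) hp hpS' hMDS HR
      l hl (fun h => H.not_dvd (h ▸ hlN)) ((hlN.trans (dvd_mul_right N _)).trans (dvd_mul_right M D))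
      ?_)
    (chiAlgHom hc χ Φ hdiaΦ) (chiDia hc χ) (fun x t => chiDia_commute hc χ Φ hdiaΦ x t)
    n₀ (hn₀ ▸ hpos) ⟨b', fun v => by convert hb' v⟩ delta (fun r r' u h => ?_) (fun r y => ?_)
    (fun r _ A hA σ hσ => ?_) xi (fun l u => ?_) (fun l h => ?_) (fun l _ A hA σ hσ => ?_)
    (fun A hA σ hσ v => ?_) ?_
  · refine eq_top_iff.mpr ((adjoin_trace_frobenius_eq_top HR hMDS).ge.trans (Algebra.adjoin_mono ?_))
    rintro t ⟨l, hl, hlS, hAσ⟩
    exact ⟨l, hl, fun h => hlS (Finset.mem_union_left _ h), fun h => hlS (Finset.mem_union_right _ h),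
      hAσ⟩
  · intro h
    have h' : p ∣ M := ((Fact.out : p.Prime).dvd_mul.mp h).elim id fun h' => h'.trans hD
    rcases (Fact.out : p.Prime).dvd_mul.mp h' with h'' | h''
    · exact H.not_dvd h''
    · exact not_dvd_prod_primes hQp Fact.out (fun hpQ => (hQ p hpQ).2.1 H.p_mem) h''
  · intro h
    refine hr2 l hl ((Nat.Coprime.pow_left 2 ((hl.coprime_iff_not_dvd).mpr fun h' => ?_)).dvd_of_dvd_mul_right h)
    rcases hl.dvd_mul.mp h' with h'' | h''
    · exact not_dvd_prod_primes hsigp hl hlsig h''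
    · exact not_dvd_prod_primes hQp hl (fun hlQ => (hQ l hlQ).2.1 (H.level_mem l hl hlN)) h''
  · show ((Pi.mulSingle r (g r u) : CharGrp p Q (fun _ => n + 1)) ^ hh) r' = 1
    rw [Pi.pow_apply, Pi.mulSingle_eq_of_ne h, one_pow]
  · obtain ⟨v, hv⟩ := hgs r (y⁻¹ * y⁻¹)
    refine ⟨v, ?_⟩
    show ((Pi.mulSingle r (g r v) : CharGrp p Q (fun _ => n + 1)) ^ hh) r = y
    rw [Pi.pow_apply, Pi.mulSingle_eq_same, hv]
    let π : Δ →* Multiplicative (ZMod (p ^ (fun _ => n + 1 : ℕ → ℕ) r)) :=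
      (Pi.evalMonoidHom (fun l : Q => Multiplicative (ZMod (p ^ (fun _ => n + 1 : ℕ → ℕ) l))) r).comp
        (MonoidHom.snd _ _)
    have h1 := congrArg π (pow_half_surjective hodd ((1, Pi.mulSingle r y) : Δ))
    have h2 : π ((1, Pi.mulSingle r y) : Δ) = y := by
      show (Pi.mulSingle r y : CharGrp p Q (fun _ => n + 1)) r = y
      simp
    rw [map_pow, map_mul, map_inv, h2] at h1
    exact h1
  · have hr := hQp r r.2
    have hrS := (hQ r r.2).2.1
    have h1 := hact r A hr ((hQM r r.2).2.1) (fun h => hrS (h ▸ H.p_mem)) (hQ r r.2).2.2.1 hA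
      (fun τ hτ => H.unramified hr hrS A hA hτ) σ hσ 1
      (Pi.mulSingle r (g r (cycM (r : ℕ) σ)))
      (Prod.ext (char_cycM_of_notMem (c := (MonoidHom.fst _ _).comp c) hsigM hf hr hA hσ
          (Finset.disjoint_right.mp hdisj r.2))
        (char_cycM_of_mem (c := (MonoidHom.snd _ _).comp c) hQM hg hr hA hσ r.2))
    rw [one_pow, map_one, inv_one, Units.val_one, one_smul, one_smul] at h1
    exact h1
  · show χ _ ^ p = 1
    rw [← map_pow, hCp, map_one]
  · obtain ⟨v, hv⟩ := hfs l (Multiplicative.ofAdd 1)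
    have h1 : xi l v = 1 := by rw [h]; rfl
    change χ ((Pi.mulSingle l (f l v) : CharGrp p sig (fun _ => 1)) ^ hh) = 1 at h1
    rw [hv, ← Pi.mulSingle_pow, hχ, prodChar_mulSingle, ← map_one z] at h1
    have h2 := Multiplicative.ofAdd.injective (hzinj h1)
    have h3 : (Multiplicative.ofAdd (1 : ZMod (p ^ 1))) ^ hh = 1 := by
      have hbij : Function.Injective (ZMod.castHom (dvd_of_eq (pow_one p).symm) (ZMod p)) :=
        (injective_iff_map_eq_zero _).mpr fun w hw => by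
          haveI : NeZero (p ^ 1) := ⟨pow_ne_zero 1 (Fact.out : p.Prime).ne_zero⟩
          rw [← ZMod.natCast_zmod_val w, map_natCast, ZMod.natCast_eq_zero_iff] at hw
          rw [← ZMod.natCast_zmod_val w, ZMod.natCast_eq_zero_iff]
          exact (dvd_of_eq (pow_one p)).trans hw
      exact Multiplicative.toAdd.injective (hbij (h2.trans (map_zero _).symm))
    have h4 : ((Pi.mulSingle l (Multiplicative.ofAdd (1 : ZMod (p ^ 1))), 1) : Δ) = 1 :=
      pow_half_eq_one hodd (by rw [Prod.pow_mk, one_pow, ← Pi.mulSingle_pow, h3]; simp)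
    have h5 := congrArg (fun w : Δ => Multiplicative.toAdd (w.1 l)) h4
    simp at h5
    haveI : Fact (1 < p ^ 1) := ⟨by rw [pow_one]; exact (Fact.out : p.Prime).one_lt⟩
    exact one_ne_zero h5
  · have hl := hsigp l l.2
    have hlp : (l : ℕ) ≠ p := fun h => H.not_dvd (h ▸ (H.sig_spec l l.2).2.1)
    have h1 := hact l A hl ((hsigM l l.2).2.1) hlp (H.sig_spec l l.2).2.2.1 hA
      ((H.sig_spec l l.2).2.2.2 A hA) σ hσ (Pi.mulSingle l (f l (cycM (l : ℕ) σ))) 1
      (Prod.ext (char_cycM_of_mem (c := (MonoidHom.fst _ _).comp c) hsigM hf hl hA hσ l.2)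
        (char_cycM_of_notMem (c := (MonoidHom.snd _ _).comp c) hQM hg hl hA hσ
          (Finset.disjoint_left.mp hdisj l.2)))
    rw [one_pow, inv_one, map_one (chiDia hc χ), ← add_smul] at h1
    rw [h1, Algebra.algebraMap_eq_smul_one]
    rfl
  · obtain ⟨hqpr, hqN, hq1, -⟩ := H.sig_spec q H.q_mem
    haveI : NeZero (M / q) := ⟨(Nat.div_pos (Nat.le_of_dvd (NeZero.pos M)
      (hqN.trans (dvd_mul_right N _))) hqpr.pos).ne'⟩
    have hqp : q ≠ p := fun h => H.not_dvd (h ▸ hqN)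
    refine chi_qnew (p := p) hc χ Φ hdiaΦ (fun u => ?_) hb hbasis q σ (HR.ρ.trace σ) (fun x => ?_)
      (fun x hx => ?_) v
    · rw [← map_inv]
      exact prodChar_sub_one_mem sig z hz1 _
    · have h := hquad σ x
      rwa [cycO_frobenius (p := p) (O := O) hqpr hqp hA hσ] at h
    · have h := qnew_norm (c := c) hp5 hp hΔ hc (MonoidHom.snd (CharGrp p sig (fun _ => 1))
        (CharGrp p Q (fun _ => n + 1))) Prod.snd_surjective (D := ∏ v ∈ Q, v) (dvd_mul_left _ N)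
        (squarefree_prod_primes Q hQp) hcQ hpS' hMS hne ρbar H.absIrr (H.frob_union Q) hqpr hqp
        (hqN.trans (dvd_mul_right N _))
        (hr2 q hqpr) (not_dvd_prod_primes hQp hqpr fun hqQ => (hQ q hqQ).2.1 (H.level_mem q hqpr hqN))
        hq1 (H.lower_eq_bot hQ) A hA σ hσ hx
      refine Eq.trans ?_ h
      congr 1
      rw [cNorm, LinearMap.sum_apply]
      refine Finset.sum_nbij' (fun x => (x, 1)) (fun u => u.1) ?_ ?_ ?_ ?_ fun x _ => rfl
      · exact fun x _ => Finset.mem_filter.mpr ⟨Finset.mem_univ _, rfl⟩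
      · exact fun u _ => Finset.mem_univ _
      · exact fun x _ => rfl
      · exact fun u hu => Prod.ext rfl (Finset.mem_filter.mp hu).2.symm
  · rw [hn₀]
    exact hle

end Fermat.Agent.Auto
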