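import Fermat.Agent.Auto.OutputDefs

/-!
The data at a level with Taylor-Wiles primes, from its components.
-/

set_option autoImplicit false
set_option linter.unusedSectionVars false

noncomputable section

namespace Fermat.Agent.Auto

open IsLocalRing CongruenceSubgroup
open Fermat.Agent.Galois (GQ)
open Fermat.Agent.GalRep (cyc)
open Fermat.Agent.GalRep.Level (cycM)

variable {p : ℕ} [Fact p.Prime] {O : Type} [CommRing O] [IsDomain O] [IsDiscreteValuationRing O]
  [IsAdicComplete (maximalIdeal O) O] [Finite (ResidueField O)]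
  [Algebra ℤ_[p] O] [Module.Finite ℤ_[p] O] [CharZero O]
  {ρbar : ResidualGaloisRep (ResidueField O)} {N : ℕ} {S sig Q : Finset ℕ} {q n : ℕ}

/-- The data from its components, keeping track of the rank. -/
theorem exists_levelOut_of {T : Type} [CommRing T] [IsLocalRing T] [Algebra O T]
    [IsLocalHom (algebraMap O T)] [IsNoetherianRing T] [IsAdicComplete (maximalIdeal T) T]
    [Module.Finite O T] [Module.Free O T]
    (residue_surjective : Function.Surjective (residue T ∘ algebraMap O T)) (ρ : GaloisRepAdic T)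
    (residual : ρ.residual.IsEquiv (ρbar.baseChangeAlong (ResidueField.map (algebraMap O T))))
    (adjoin_trace : Algebra.adjoin O {t : T | ∃ l : ℕ, l.Prime ∧ l ∉ S ∧ l ∉ Q ∧
      ∃ A : ValuationSubring (AlgebraicClosure ℚ), A.LiesOverPrime l ∧
        ∃ σ : GQ, A.IsFrobeniusAt σ l ∧ t = ρ.trace σ} = ⊤)
    (det_eq : ∀ σ : GQ,
      LinearMap.det (ρ.ρ σ) = algebraMap O T (algebraMap ℤ_[p] O (cyc p σ : ℤ_[p])))
    (unramified : ∀ l : ℕ, l.Prime → l ∉ S → l ∉ Q → ρ.IsUnramifiedAt l)
    (flat : ρ.IsFlatAt p)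
    (unipotent : ∀ l : ℕ, l.Prime → l ∣ N → l ∉ sig → ρ.IsUnipotentOnInertiaAt l)
    {V : Type} [AddCommGroup V] [Module O V] [Module.Finite O V] [Module.Free O V]
    (act : T →ₐ[O] Module.End O V) (dia : CharGrp p Q (fun _ => n + 1) →* Module.End O V)
    (dia_commute : ∀ x t, Commute (dia x) (act t)) (rank : ℕ) (rank_pos : 0 < rank)
    (basis : ∃ b : Fin rank → V, ∀ v : V, ∃! f : Fin rank → CharGrp p Q (fun _ => n + 1) → O,
      v = ∑ i, ∑ x, f i x • dia x (b i))
    (delta : (r : Q) → (ZMod (r : ℕ))ˣ →* CharGrp p Q (fun _ => n + 1))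
    (delta_off : ∀ (r r' : Q) (u : (ZMod (r : ℕ))ˣ), r' ≠ r → delta r u r' = 1)
    (delta_surjective : ∀ r : Q, Function.Surjective fun u => delta r u r)
    (inertia_tw : ∀ (r : Q) [NeZero (r : ℕ)] (A : ValuationSubring (AlgebraicClosure ℚ)),
      A.LiesOverPrime (r : ℕ) → ∀ σ ∈ A.inertiaSubgroupIn ℚ,
        act (ρ.trace σ) = dia (delta r (cycM (r : ℕ) σ)) + dia (delta r (cycM (r : ℕ) σ))⁻¹)
    (xi : (l : sig) → (ZMod (l : ℕ))ˣ →* Oˣ) (xi_pow : ∀ (l : sig) u, xi l u ^ p = 1)
    (xi_ne : ∀ l : sig, xi l ≠ 1)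
    (inertia_sig : ∀ (l : sig) [NeZero (l : ℕ)] (A : ValuationSubring (AlgebraicClosure ℚ)),
      A.LiesOverPrime (l : ℕ) → ∀ σ ∈ A.inertiaSubgroupIn ℚ,
        act (ρ.trace σ) = algebraMap O (Module.End O V)
          ((xi l (cycM (l : ℕ) σ) : O) + ((xi l (cycM (l : ℕ) σ))⁻¹ : Oˣ)))
    (qnew : ∀ (A : ValuationSubring (AlgebraicClosure ℚ)), A.LiesOverPrime q →
      ∀ σ : GQ, A.IsFrobeniusAt σ q → ∀ v : V,
        act (ρ.trace σ ^ 2 - (((q + 1) ^ 2 : ℕ) : T)) v ∈ maximalIdeal O • (⊤ : Submodule O V))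
    {m : ℕ} (hm : rank ≤ m) :
    ∃ X : LevelOut p O ρbar N S sig Q q n, X.rank ≤ m :=
  ⟨{ T := T
     residue_surjective := residue_surjective
     ρ := ρ
     residual := residual
     adjoin_trace := adjoin_trace
     det_eq := det_eq
     unramified := unramified
     flat := flat
     unipotent := unipotent
     V := V
     act := act
     dia := dia
     dia_commute := dia_commute
     rank := rank
     rank_pos := rank_pos
     basis := basis
     delta := delta
     delta_off := delta_off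
     delta_surjective := delta_surjective
     inertia_tw := inertia_tw
     xi := xi
     xi_pow := xi_pow
     xi_ne := xi_ne
     inertia_sig := inertia_sig
     qnew := qnew }, hm⟩

end Fermat.Agent.Auto
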