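import Fermat.Agent.Auto.Lat

/-!
Characters of `(ℤ/M)ˣ` with values in products of cyclic `p`-groups, one factor for each prime of a
set of primes dividing `M`.
-/

set_option autoImplicit false
set_option linter.unusedSectionVars false

noncomputable section

namespace Fermat.Agent.Auto

variable {p : ℕ}

/-- A surjection from the units modulo a prime onto a cyclic group of order dividing `l - 1`. -/
theorem exists_char_prime {l n : ℕ} [NeZero n] (hl : l.Prime) (hn : n ∣ l - 1) :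
    ∃ c : (ZMod l)ˣ →* Multiplicative (ZMod n), Function.Surjective c := by
  haveI : Fact l.Prime := ⟨hl⟩
  obtain ⟨g, hg⟩ := IsCyclic.exists_generator (α := (ZMod l)ˣ)
  have ho : orderOf g = l - 1 := by
    rw [orderOf_eq_card_of_forall_mem_zpowers hg, Nat.card_eq_fintype_card, ZMod.card_units]
  refine ⟨monoidHomOfForallMemZpowers hg (g' := Multiplicative.ofAdd (1 : ZMod n)) ?_, fun x => ?_⟩
  · rw [ho]
    refine orderOf_dvd_of_pow_eq_one ?_
    rw [← ofAdd_nsmul, nsmul_eq_mul, mul_one, (ZMod.natCast_eq_zero_iff (l - 1) n).mpr hn]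
    rfl
  · refine ⟨g ^ (Multiplicative.toAdd x).val, ?_⟩
    rw [map_pow, monoidHomOfForallMemZpowers_apply_gen, ← ofAdd_nsmul, nsmul_eq_mul, mul_one,
      ZMod.natCast_zmod_val]
    rfl

/-- The group of the characters: one cyclic factor for each prime. -/
abbrev CharGrp (p : ℕ) (s : Finset ℕ) (k : ℕ → ℕ) : Type :=
  (l : s) → Multiplicative (ZMod (p ^ k l))

/-- A surjection onto the product, the factor at `l` depending only on the class modulo `l`. -/
theorem exists_char [Fact p.Prime] {M : ℕ} [NeZero M] (s : Finset ℕ) (k : ℕ → ℕ)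
    (hs : ∀ l ∈ s, l.Prime ∧ l ∣ M ∧ p ^ k l ∣ l - 1) :
    ∃ c : (ZMod M)ˣ →* CharGrp p s k, Function.Surjective c ∧
      ∀ (u : (ZMod M)ˣ) (l : s), ((u : ZMod M).val : ZMod (l : ℕ)) = 1 → c u l = 1 := by
  classical
  haveI : ∀ l : s, NeZero (p ^ k l) := fun l => ⟨pow_ne_zero _ (Fact.out : p.Prime).ne_zero⟩
  choose f hf using fun l : s => exists_char_prime (n := p ^ k l) (hs _ l.2).1 (hs _ l.2).2.2
  let c : (ZMod M)ˣ →* CharGrp p s k :=
    Pi.monoidHom fun l => (f l).comp (ZMod.unitsMap (hs _ l.2).2.1)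
  refine ⟨c, fun x => ?_, fun u l hu => ?_⟩
  · have hD : (∏ l ∈ s, l) ∣ M :=
      Finset.prod_primes_dvd M (fun l hl => (hs l hl).1.prime) fun l hl => (hs l hl).2.1
    choose v hv using fun l => hf l (x l)
    have hco : Pairwise (Function.onFun Nat.Coprime fun l : s => (l : ℕ)) := fun l l' h =>
      (Nat.coprime_primes (hs _ l.2).1 (hs _ l'.2).1).mpr fun e => h (Subtype.ext e)
    let e := ZMod.prodEquivPi (fun l : s => (l : ℕ)) hco
    let u₀ : (ZMod (∏ l : s, (l : ℕ)))ˣ :=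
      Units.map e.symm.toMonoidHom (MulEquiv.piUnits.symm v)
    have hD' : (∏ l : s, (l : ℕ)) ∣ M := by rwa [Finset.prod_coe_sort s fun l => l]
    obtain ⟨u, hu⟩ := ZMod.unitsMap_surjective hD' u₀
    refine ⟨u, funext fun l => ?_⟩
    show f l (ZMod.unitsMap (hs _ l.2).2.1 u) = x l
    rw [← hv l]
    congr 1
    have hl : (l : ℕ) ∣ ∏ l : s, (l : ℕ) := Finset.dvd_prod_of_mem _ (Finset.mem_univ l)
    rw [← ZMod.unitsMap_comp hl hD', MonoidHom.comp_apply, hu]
    refine Units.ext ?_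
    show ZMod.castHom hl (ZMod (l : ℕ)) (e.symm fun i => (v i : ZMod (i : ℕ))) = v l
    have h1 : ∀ z, ZMod.castHom hl (ZMod (l : ℕ)) z = e z l := fun z => by
      rw [show ZMod.castHom hl (ZMod (l : ℕ)) =
        (Pi.evalRingHom (fun i : s => ZMod (i : ℕ)) l).comp e.toRingHom from RingHom.ext_zmod _ _]
      rfl
    rw [h1, RingEquiv.apply_symm_apply]
  · show f l (ZMod.unitsMap (hs _ l.2).2.1 u) = 1
    rw [show ZMod.unitsMap (hs _ l.2).2.1 u = 1 from Units.ext ?_, map_one]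
    rw [ZMod.unitsMap_def, Units.coe_map]
    show ZMod.castHom (hs _ l.2).2.1 (ZMod (l : ℕ)) (u : ZMod M) = 1
    rw [ZMod.castHom_apply, ← hu, ZMod.natCast_val]

theorem isPGroup_charGrp [Fact p.Prime] (s : Finset ℕ) (k : ℕ → ℕ) :
    IsPGroup p (CharGrp p s k) := by
  classical
  haveI : ∀ l : s, NeZero (p ^ k l) := fun l => ⟨pow_ne_zero _ (Fact.out : p.Prime).ne_zero⟩
  refine IsPGroup.of_card (n := ∑ l : s, k l) ?_
  rw [Nat.card_pi]
  simp [Finset.prod_pow_eq_pow_sum]

theorem odd_card_charGrp [Fact p.Prime] (hp2 : p ≠ 2) (s : Finset ℕ) (k : ℕ → ℕ) :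
    Odd (Nat.card (CharGrp p s k)) := by
  classical
  haveI : ∀ l : s, NeZero (p ^ k l) := fun l => ⟨pow_ne_zero _ (Fact.out : p.Prime).ne_zero⟩
  rw [Nat.card_pi]
  have h : Odd p := (Fact.out : p.Prime).odd_of_ne_two hp2
  simp [Finset.prod_pow_eq_pow_sum, h.pow]

end Fermat.Agent.Auto
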