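import Mathlib

/-!
In a module free over the group ring of `C × B`, the part where `C` acts by a character is free over
the group ring of `B`, and congruent to the norms from `C`.
-/

set_option autoImplicit false
set_option linter.unusedSectionVars false

noncomputable section

namespace Fermat.Agent.Auto

variable {O L C B : Type} [CommRing O] [AddCommGroup L] [Module O L] [CommGroup C] [CommGroup B]

/-- Where `C` acts by the character. -/
def chiPart (act : C × B →* Module.End O L) (χ : C →* Oˣ) (V : Submodule O L) : Submodule O L where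
  carrier := {x | x ∈ V ∧ ∀ u : C, act (u, 1) x = (χ u : O) • x}
  zero_mem' := ⟨zero_mem _, fun u => by rw [map_zero, smul_zero]⟩
  add_mem' {x y} hx hy := ⟨add_mem hx.1 hy.1, fun u => by rw [map_add, hx.2, hy.2, smul_add]⟩
  smul_mem' r x hx := ⟨Submodule.smul_mem _ r hx.1, fun u => by
    rw [map_smul, hx.2, smul_comm]⟩

variable [Fintype C] (act : C × B →* Module.End O L) (χ : C →* Oˣ)

/-- The twisted norm. -/
def chiNorm : Module.End O L := ∑ u : C, ((χ u)⁻¹ : Oˣ).1 • act (u, 1)

/-- The norm. -/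
def cNorm : Module.End O L := ∑ u : C, act (u, 1)

theorem chiNorm_apply (x : L) :
    chiNorm act χ x = ∑ u : C, ((χ u)⁻¹ : Oˣ).1 • act (u, 1) x := by
  simp [chiNorm, LinearMap.sum_apply]

theorem chiNorm_mem {V : Submodule O L} (hV : ∀ g, ∀ x ∈ V, act g x ∈ V) {x : L} (hx : x ∈ V) :
    chiNorm act χ x ∈ chiPart act χ V := by
  rw [chiNorm_apply]
  refine ⟨Submodule.sum_mem _ fun u _ => Submodule.smul_mem _ _ (hV _ _ hx), fun w => ?_⟩
  rw [map_sum, Finset.smul_sum, ← Equiv.sum_comp (Equiv.mulLeft w⁻¹)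
    (fun u => act (w, 1) (((χ u)⁻¹ : Oˣ).1 • act (u, 1) x))]
  refine Finset.sum_congr rfl fun u _ => ?_
  rw [map_smul, ← Module.End.mul_apply, ← map_mul, Prod.mk_mul_mk, mul_one, Equiv.coe_mulLeft,
    mul_inv_cancel_left, smul_smul, map_mul, map_inv, mul_inv_rev, inv_inv, Units.val_mul,
    mul_comm (χ w : O)]

theorem commute_chiNorm {R : Module.End O L} (hR : ∀ g, Commute R (act g)) :
    Commute R (chiNorm act χ) :=
  Commute.sum_right _ _ _ fun u _ => (hR _).smul_right _

theorem commute_cNorm {R : Module.End O L} (hR : ∀ g, Commute R (act g)) :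
    Commute R (cNorm act) :=
  Commute.sum_right _ _ _ fun u _ => hR _

theorem chiNorm_sub_cNorm_mem (I : Ideal O) (hχ : ∀ u, ((χ u)⁻¹ : Oˣ).1 - 1 ∈ I) (x : L) :
    chiNorm act χ x - cNorm act x ∈ I • (⊤ : Submodule O L) := by
  simp only [chiNorm_apply, cNorm, LinearMap.sum_apply, ← Finset.sum_sub_distrib]
  refine Submodule.sum_mem _ fun u _ => ?_
  rw [show ((χ u)⁻¹ : Oˣ).1 • act (u, 1) x - act (u, 1) x =
    (((χ u)⁻¹ : Oˣ).1 - 1) • act (u, 1) x by rw [sub_smul, one_smul]]
  exact Submodule.smul_mem_smul (hχ u) trivial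

variable [Fintype B] {V : Submodule O L} {ι : Type} [Fintype ι] {b : ι → L}

/-- Freeness of the `χ`-part over the group ring of `B`. -/
theorem chiPart_basis (hV : ∀ g, ∀ x ∈ V, act g x ∈ V) (hb : ∀ i, b i ∈ V)
    (hbasis : ∀ x ∈ V, ∃! f : ι → C × B → O, x = ∑ i, ∑ g, f i g • act g (b i))
    {v : L} (hv : v ∈ chiPart act χ V) :
    ∃! f : ι → B → O, v = ∑ i, ∑ d, f i d • act (1, d) (chiNorm act χ (b i)) := by
  have expand : ∀ f : ι → B → O, (∑ i, ∑ d, f i d • act (1, d) (chiNorm act χ (b i))) =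
      ∑ i, ∑ g : C × B, (((χ g.1)⁻¹ : Oˣ).1 * f i g.2) • act g (b i) := fun f => by
    refine Finset.sum_congr rfl fun i _ => ?_
    rw [Fintype.sum_prod_type_right]
    refine Finset.sum_congr rfl fun d _ => ?_
    rw [chiNorm_apply, map_sum, Finset.smul_sum]
    refine Finset.sum_congr rfl fun u _ => ?_
    rw [map_smul, ← Module.End.mul_apply, ← map_mul, Prod.mk_mul_mk, one_mul, mul_one, smul_smul,
      mul_comm]
  obtain ⟨f, hf, huniq⟩ := hbasis v hv.1
  have hrel : ∀ (i : ι) (u : C) (d : B), f i (u, d) = ((χ u)⁻¹ : Oˣ).1 * f i (1, d) := by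
    intro i u d
    have h1 : v = ∑ i, ∑ g : C × B, ((χ u : O) * f i (u * g.1, g.2)) • act g (b i) := by
      have h2 := hv.2 u⁻¹
      have h3 : act (u⁻¹, 1) v = ∑ i, ∑ g : C × B, f i (u * g.1, g.2) • act g (b i) := by
        conv_lhs => rw [hf]
        rw [map_sum]
        refine Finset.sum_congr rfl fun i _ => ?_
        rw [map_sum, ← Equiv.sum_comp (Equiv.mulLeft ((u, 1) : C × B))]
        refine Finset.sum_congr rfl fun g _ => ?_
        rw [map_smul, ← Module.End.mul_apply, ← map_mul, Equiv.coe_mulLeft]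
        congr 1
        · congr 1; simp [Prod.ext_iff]
        · congr 2; simp [Prod.ext_iff]
      have h4 : v = (χ u : O) • act (u⁻¹, 1) v := by
        rw [h2, smul_smul, map_inv, Units.mul_inv, one_smul]
      rw [h3] at h4
      conv_lhs => rw [h4]
      simp only [Finset.smul_sum, smul_smul]
    have h5 := congrFun (congrFun (huniq _ h1) i) (1, d)
    rw [mul_one] at h5
    rw [← h5, ← mul_assoc, Units.inv_mul, one_mul]
  refine ⟨fun i d => f i (1, d), ?_, fun g hg => ?_⟩
  · show v = _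
    rw [expand]
    exact hf.trans (Finset.sum_congr rfl fun i _ => Finset.sum_congr rfl fun x _ => by
      rw [← hrel])
  · have h := huniq _ (hg.trans (expand g))
    funext i d
    rw [← h]
    simp

/-- Every element of the part is a twisted norm. -/
theorem exists_chiNorm_eq (hV : ∀ g, ∀ x ∈ V, act g x ∈ V) (hb : ∀ i, b i ∈ V)
    (hbasis : ∀ x ∈ V, ∃! f : ι → C × B → O, x = ∑ i, ∑ g, f i g • act g (b i))
    {v : L} (hv : v ∈ chiPart act χ V) : ∃ w ∈ V, v = chiNorm act χ w := by
  obtain ⟨f, hf, -⟩ := chiPart_basis act χ hV hb hbasis hv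
  refine ⟨∑ i, ∑ d, f i d • act (1, d) (b i),
    Submodule.sum_mem _ fun i _ => Submodule.sum_mem _ fun d _ =>
      Submodule.smul_mem _ _ (hV _ _ (hb i)), ?_⟩
  rw [hf, map_sum]
  refine Finset.sum_congr rfl fun i _ => ?_
  rw [map_sum]
  refine Finset.sum_congr rfl fun d _ => ?_
  rw [map_smul]
  refine congrArg _ ?_
  exact LinearMap.congr_fun (commute_chiNorm act χ fun g => (Commute.all _ g).map act).eq (b i)

end Fermat.Agent.Auto
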